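import Mathlib
import Fermat.Prelude.Def_ModularCurve_GenusNumerics

set_option autoImplicit false

/-!
# S20: basic definitions shared by all modules
-/

namespace Fermat.Agent.S20

open UpperHalfPlane ModularForm Matrix.SpecialLinearGroup
open scoped MatrixGroups ModularForm Manifold

/-- the coset space `SL₂(ℤ) / Γ₀(N)` in the form used by `Mathlib.NumberTheory.ModularForms.NormTrace`. -/
abbrev Quo (N : ℕ) : Type :=
  𝒮ℒ ⧸ ((CongruenceSubgroup.Gamma0 N : Subgroup (GL (Fin 2) ℝ)).subgroupOf 𝒮ℒ)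

/-- the element of `𝒮ℒ` attached to `γ : SL(2, ℤ)`. -/
noncomputable def sl (γ : SL(2, ℤ)) : 𝒮ℒ := ⟨mapGL ℝ γ, γ, rfl⟩

@[simp] theorem coe_sl (γ : SL(2, ℤ)) : ((sl γ : 𝒮ℒ) : GL (Fin 2) ℝ) = mapGL ℝ γ := rfl

theorem sl_mul (γ δ : SL(2, ℤ)) : sl (γ * δ) = sl γ * sl δ := by
  apply Subtype.ext
  simp

theorem sl_one : sl 1 = 1 := by
  apply Subtype.ext
  simp

theorem sl_inv (γ : SL(2, ℤ)) : sl γ⁻¹ = (sl γ)⁻¹ := by
  apply Subtype.ext
  simp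

theorem exists_sl (g : 𝒮ℒ) : ∃ γ : SL(2, ℤ), sl γ = g := by
  obtain ⟨γ, hγ⟩ := g.2
  exact ⟨γ, Subtype.ext hγ⟩

/-- the elliptic point `ρ = e^{2πi/3}`, fixed by `S * T`. -/
noncomputable def rho : ℍ :=
  ⟨-1 / 2 + (Real.sqrt 3 / 2 : ℝ) * Complex.I, by simp⟩

noncomputable example (N : ℕ) (q : Quo N) : Quo N := sl ModularGroup.S • q

end Fermat.Agent.S20
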