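import Mathlib
import Fermat.Agent.S20.Defs
import Fermat.Agent.S22.Translate

set_option autoImplicit false

/-!
# S20: components of a form, evaluation maps, multiplication by level one forms
-/

namespace Fermat.Agent.S20

open UpperHalfPlane ModularForm Matrix.SpecialLinearGroup EisensteinSeries ModularFormClass
open scoped MatrixGroups ModularForm Manifold

/-- modular forms on `Γ₀(N)`. -/
abbrev MF (N : ℕ) (k : ℤ) : Type := ModularForm (CongruenceSubgroup.Gamma0 N) k

variable {N : ℕ} {k : ℤ}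

/-- the components `f ∣ c` of a form, indexed by the coset space. -/
noncomputable def comp (f : MF N k) (q : Quo N) : ℍ → ℂ := SlashInvariantForm.quotientFunc f q

theorem comp_mk (f : MF N k) (γ : SL(2, ℤ)) :
    comp f (QuotientGroup.mk (sl γ) : Quo N) = ⇑f ∣[k] γ⁻¹ := by
  show SlashInvariantForm.quotientFunc f ⟦sl γ⟧ = _
  rw [SlashInvariantForm.quotientFunc_mk, ModularForm.SL_slash, map_inv]
  rfl

theorem exists_mk (q : Quo N) : ∃ γ : SL(2, ℤ), q = QuotientGroup.mk (sl γ) := by
  induction q using QuotientGroup.induction_on with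
  | H g =>
    obtain ⟨γ, rfl⟩ := exists_sl g
    exact ⟨γ, rfl⟩

theorem comp_one (f : MF N k) : comp f (QuotientGroup.mk 1 : Quo N) = ⇑f := by
  rw [← sl_one, comp_mk]
  simp

theorem comp_slash (f : MF N k) (q : Quo N) (γ : SL(2, ℤ)) :
    comp f q ∣[k] γ = comp f ((sl γ)⁻¹ • q) :=
  SlashInvariantForm.quotientFunc_smul f (sl γ).2 q

theorem comp_add (f g : MF N k) (q : Quo N) : comp (f + g) q = comp f q + comp g q := by
  obtain ⟨γ, rfl⟩ := exists_mk q
  simp only [comp_mk]
  rw [FunLike.coe_add, SlashAction.add_slash]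

theorem comp_smul (c : ℂ) (f : MF N k) (q : Quo N) : comp (c • f) q = c • comp f q := by
  obtain ⟨γ, rfl⟩ := exists_mk q
  simp only [comp_mk]
  rw [FunLike.coe_smul, ModularForm.SL_smul_slash]

theorem comp_mdiff (f : MF N k) (q : Quo N) : MDiff (comp f q) := by
  obtain ⟨γ, rfl⟩ := exists_mk q
  rw [comp_mk]
  exact (ModularFormClass.holo f).slash k _

theorem comp_bdd [NeZero N] (f : MF N k) (q : Quo N) : IsBoundedAtImInfty (comp f q) := by
  obtain ⟨γ, rfl⟩ := exists_mk q
  rw [comp_mk]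
  exact ModularFormClass.bdd_at_infty_slash f _

theorem comp_smul_apply (f : MF N k) (q : Quo N) (γ : SL(2, ℤ)) (z : ℍ) :
    comp f q (γ • z) = denom γ z ^ k * comp f ((sl γ)⁻¹ • q) z := by
  rw [← comp_slash, ModularForm.SL_slash_apply, ← mul_assoc, mul_comm (_ ^ k), mul_assoc,
    ← zpow_add₀ (denom_ne_zero _ _)]
  simp

/-- evaluation of all the components at a point. -/
noncomputable def ev (k : ℤ) (z : ℍ) : MF N k →ₗ[ℂ] (Quo N → ℂ) where
  toFun f q := comp f q z
  map_add' f g := by funext q; simp [comp_add]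
  map_smul' c f := by funext q; simp [comp_smul]

@[simp] theorem ev_apply (z : ℍ) (f : MF N k) (q : Quo N) : ev k z f q = comp f q z := rfl

theorem Gamma0_le_SL (N : ℕ) : (CongruenceSubgroup.Gamma0 N : Subgroup (GL (Fin 2) ℝ)) ≤ 𝒮ℒ := by
  rintro _ ⟨γ, -, rfl⟩
  exact ⟨γ, rfl⟩

/-- multiplication by a level one form. -/
noncomputable def mulL {a k k' : ℤ} (h : a + k = k') (A : ModularForm 𝒮ℒ a) :
    MF N k →ₗ[ℂ] MF N k' where
  toFun f := ModularForm.mcast h ((S22.restrictSubgroup (Gamma0_le_SL N) A).mul f)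
  map_add' f g := by
    ext z
    simp [ModularForm.mcast_apply, mul_add]
  map_smul' c f := by
    ext z
    simp [ModularForm.mcast_apply]
    ring

@[simp] theorem coe_mulL {a k k' : ℤ} (h : a + k = k') (A : ModularForm 𝒮ℒ a) (f : MF N k) :
    ⇑(mulL h A f) = ⇑A * ⇑f := by
  ext z
  simp [mulL, ModularForm.mcast_apply]

theorem comp_mulL {a k k' : ℤ} (h : a + k = k') (A : ModularForm 𝒮ℒ a) (f : MF N k) (q : Quo N) :
    comp (mulL h A f) q = ⇑A * comp f q := by
  obtain ⟨γ, rfl⟩ := exists_mk q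
  simp only [comp_mk, coe_mulL]
  subst h
  rw [ModularForm.mul_slash_SL2]
  congr 1
  exact SlashInvariantFormClass.slash_action_eq A _ ⟨γ⁻¹, rfl⟩

theorem ev_mulL {a k k' : ℤ} (h : a + k = k') (A : ModularForm 𝒮ℒ a) (f : MF N k) (z : ℍ) :
    ev k' z (mulL h A f) = A z • ev k z f := by
  funext q
  simp [comp_mulL]

/-- the two families of spaces: all modular forms (`false`), cusp forms (`true`). -/
noncomputable def X (N : ℕ) (b : Bool) (k : ℤ) : Submodule ℂ (MF N k) :=
  if b then ModularForm.cuspFormSubmodule (CongruenceSubgroup.Gamma0 N) k else ⊤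

/-- dimensions. -/
noncomputable def dm (N : ℕ) (b : Bool) (k : ℤ) : ℕ := Module.finrank ℂ (X N b k)

/-- eigenspaces of the permutation action on functions on the coset space. -/
def Eig (N : ℕ) (g : 𝒮ℒ) (c : ℂ) : Submodule ℂ (Quo N → ℂ) where
  carrier := {v | ∀ q, v (g⁻¹ • q) = c * v q}
  add_mem' := by
    intro v w hv hw q
    simp only [Pi.add_apply]
    rw [hv q, hw q]; ring
  zero_mem' := by intro q; simp
  smul_mem' := by
    intro a v hv q
    simp only [Pi.smul_apply, smul_eq_mul]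
    rw [hv q]; ring

theorem mem_Eig {g : 𝒮ℒ} {c : ℂ} {v : Quo N → ℂ} :
    v ∈ Eig N g c ↔ ∀ q, v (g⁻¹ • q) = c * v q := Iff.rfl

end Fermat.Agent.S20
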