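import Mathlib
import Fermat.Agent.S20.Defs

set_option autoImplicit false

/-!
# S20 (K0): the coset space `SL₂(ℤ)/Γ₀(N)` as the projective line over `ℤ/N`
-/

namespace Fermat.Agent.S20

open UpperHalfPlane ModularForm Matrix.SpecialLinearGroup
open scoped MatrixGroups ModularForm Manifold

/-- the first column of `γ`, reduced modulo `N`. -/
def colOf (N : ℕ) (γ : SL(2, ℤ)) : ZMod N × ZMod N :=
  (((γ 0 0 : ℤ) : ZMod N), ((γ 1 0 : ℤ) : ZMod N))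

theorem colOf_fst (N : ℕ) (γ : SL(2, ℤ)) : (colOf N γ).1 = ((γ 0 0 : ℤ) : ZMod N) := rfl

theorem colOf_snd (N : ℕ) (γ : SL(2, ℤ)) : (colOf N γ).2 = ((γ 1 0 : ℤ) : ZMod N) := rfl

theorem p1_mk_eq_iff {N : ℕ} (γ δ : SL(2, ℤ)) :
    (QuotientGroup.mk (sl γ) : Quo N) = QuotientGroup.mk (sl δ) ↔
      γ⁻¹ * δ ∈ CongruenceSubgroup.Gamma0 N := by
  rw [QuotientGroup.eq, Subgroup.mem_subgroupOf, ← sl_inv, ← sl_mul, coe_sl]
  constructor
  · rintro ⟨x, hx, hx'⟩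
    have : x = γ⁻¹ * δ := mapGL_injective hx'
    rwa [← this]
  · intro h
    exact ⟨_, h, rfl⟩

theorem p1_smul_mk {N : ℕ} (γ δ : SL(2, ℤ)) :
    sl γ • (QuotientGroup.mk (sl δ) : Quo N) = QuotientGroup.mk (sl (γ * δ)) := by
  rw [sl_mul]
  rfl

theorem p1_exists_mk {N : ℕ} (q : Quo N) : ∃ γ : SL(2, ℤ), (QuotientGroup.mk (sl γ) : Quo N) = q := by
  obtain ⟨g, rfl⟩ := QuotientGroup.mk_surjective q
  obtain ⟨γ, rfl⟩ := exists_sl g
  exact ⟨γ, rfl⟩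

theorem colOf_mul (N : ℕ) (δ γ : SL(2, ℤ)) :
    colOf N (δ * γ) =
      (((δ 0 0 : ℤ) : ZMod N) * (colOf N γ).1 + ((δ 0 1 : ℤ) : ZMod N) * (colOf N γ).2,
        ((δ 1 0 : ℤ) : ZMod N) * (colOf N γ).1 + ((δ 1 1 : ℤ) : ZMod N) * (colOf N γ).2) := by
  simp [colOf, Matrix.mul_apply, Fin.sum_univ_two]

theorem colOf_S_mul (N : ℕ) (γ : SL(2, ℤ)) :
    colOf N (ModularGroup.S * γ) = (-(colOf N γ).2, (colOf N γ).1) := by
  rw [colOf_mul]
  simp [ModularGroup.S]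

theorem colOf_T_mul (N : ℕ) (γ : SL(2, ℤ)) :
    colOf N (ModularGroup.T * γ) = ((colOf N γ).1 + (colOf N γ).2, (colOf N γ).2) := by
  rw [colOf_mul]
  simp [ModularGroup.T]

theorem colOf_ST_mul (N : ℕ) (γ : SL(2, ℤ)) :
    colOf N (ModularGroup.S * ModularGroup.T * γ) =
      (-(colOf N γ).2, (colOf N γ).1 + (colOf N γ).2) := by
  rw [mul_assoc, colOf_S_mul, colOf_T_mul]

theorem colOf_T_zpow_mul (N : ℕ) (n : ℤ) (γ : SL(2, ℤ)) :
    colOf N (ModularGroup.T ^ n * γ) =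
      ((colOf N γ).1 + (n : ZMod N) * (colOf N γ).2, (colOf N γ).2) := by
  rw [colOf_mul]
  simp [ModularGroup.coe_T_zpow]

theorem isCoprime_colOf (N : ℕ) (γ : SL(2, ℤ)) : IsCoprime (colOf N γ).1 (colOf N γ).2 := by
  have h := γ.det_coe
  rw [Matrix.det_fin_two] at h
  refine ⟨((γ 1 1 : ℤ) : ZMod N), -((γ 0 1 : ℤ) : ZMod N), ?_⟩
  have h2 := congrArg (Int.cast : ℤ → ZMod N) h
  push_cast at h2
  rw [colOf_fst, colOf_snd, ← h2]
  ring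

theorem quo_eq_iff {N : ℕ} (γ δ : SL(2, ℤ)) :
    (QuotientGroup.mk (sl γ) : Quo N) = QuotientGroup.mk (sl δ) ↔
      ∃ u : (ZMod N)ˣ, colOf N δ =
        ((u : ZMod N) * (colOf N γ).1, (u : ZMod N) * (colOf N γ).2) := by
  rw [p1_mk_eq_iff, CongruenceSubgroup.Gamma0_mem]
  have hγ := γ.det_coe
  rw [Matrix.det_fin_two] at hγ
  have hγ' := congrArg (Int.cast : ℤ → ZMod N) hγ
  push_cast at hγ'
  have hδ := δ.det_coe
  rw [Matrix.det_fin_two] at hδ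
  have hδ' := congrArg (Int.cast : ℤ → ZMod N) hδ
  push_cast at hδ'
  have e10 : (((γ⁻¹ * δ : SL(2, ℤ)) 1 0 : ℤ) : ZMod N) =
      ((γ 0 0 : ℤ) : ZMod N) * ((δ 1 0 : ℤ) : ZMod N)
        - ((γ 1 0 : ℤ) : ZMod N) * ((δ 0 0 : ℤ) : ZMod N) := by
    simp [Matrix.mul_apply, Fin.sum_univ_two, Matrix.SpecialLinearGroup.coe_inv,
      Matrix.adjugate_fin_two]
    ring
  rw [e10]
  constructor
  · intro h
    have hu : (((γ 1 1 : ℤ) : ZMod N) * ((δ 0 0 : ℤ) : ZMod N)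
        - ((γ 0 1 : ℤ) : ZMod N) * ((δ 1 0 : ℤ) : ZMod N)) *
        (((γ 0 0 : ℤ) : ZMod N) * ((δ 1 1 : ℤ) : ZMod N)
        - ((γ 1 0 : ℤ) : ZMod N) * ((δ 0 1 : ℤ) : ZMod N)) = 1 := by
      linear_combination (((γ 0 0 : ℤ) : ZMod N) * ((γ 1 1 : ℤ) : ZMod N)
        - ((γ 0 1 : ℤ) : ZMod N) * ((γ 1 0 : ℤ) : ZMod N)) * hδ' + hγ'
        + (((γ 1 1 : ℤ) : ZMod N) * ((δ 0 1 : ℤ) : ZMod N)
          - ((γ 0 1 : ℤ) : ZMod N) * ((δ 1 1 : ℤ) : ZMod N)) * h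
    refine ⟨Units.mkOfMulEqOne _ _ hu, ?_⟩
    rw [Units.val_mkOfMulEqOne]
    ext
    · rw [colOf_fst, colOf_fst]
      linear_combination (-((δ 0 0 : ℤ) : ZMod N)) * hγ' + ((γ 0 1 : ℤ) : ZMod N) * h
    · rw [colOf_snd, colOf_snd]
      linear_combination (-((δ 1 0 : ℤ) : ZMod N)) * hγ' + ((γ 1 1 : ℤ) : ZMod N) * h
  · rintro ⟨u, hu⟩
    have h1 := congrArg Prod.fst hu
    have h2 := congrArg Prod.snd hu
    simp only [colOf_fst, colOf_snd] at h1 h2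
    rw [h1, h2]
    ring

theorem p1_exists_coprime_add_mul (x n m : ℕ) (hm : m ≠ 0) (hx : Nat.Coprime (Nat.gcd x n) m) :
    ∃ k : ℕ, (x + k * n).Coprime m := by
  let ps : Finset ℕ := {p ∈ m.primeFactors | ¬p ∣ x}
  use ps.prod id
  apply Nat.coprime_of_dvd
  intro p pp hp hpn
  by_cases hpx : p ∣ x
  · have h := Nat.dvd_sub hp hpx
    rw [add_comm, Nat.add_sub_cancel] at h
    rcases pp.dvd_mul.mp h with h | h
    · have ⟨q, hq, hq'⟩ := (pp.prime.dvd_finsetProd_iff id).mp h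
      rw [Finset.mem_filter, Nat.mem_primeFactors,
        ← (Nat.prime_dvd_prime_iff_eq pp hq.1.1).mp hq'] at hq
      exact hq.2 hpx
    · exact Nat.Prime.not_coprime_iff_dvd.mpr ⟨p, pp, Nat.dvd_gcd hpx h, hpn⟩ hx
  · have pps : p ∈ ps := Finset.mem_filter.mpr ⟨Nat.mem_primeFactors.mpr ⟨pp, hpn, hm⟩, hpx⟩
    have h := Nat.dvd_sub hp ((Finset.dvd_prod_of_mem id pps).mul_right n)
    rw [Nat.add_sub_cancel] at h
    contradiction

theorem exists_colOf {N : ℕ} [NeZero N] (v : ZMod N × ZMod N) (hv : IsCoprime v.1 v.2) :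
    ∃ γ : SL(2, ℤ), colOf N γ = v := by
  obtain ⟨x, y⟩ := v
  obtain ⟨r, s, hrs⟩ := hv
  simp only at hrs
  -- nonzero lift of `x`
  obtain ⟨a, ha0, hax⟩ : ∃ a : ℕ, a ≠ 0 ∧ (a : ZMod N) = x := by
    refine ⟨x.val + N, ?_, ?_⟩
    · have := NeZero.ne N
      omega
    · simp
  have hcy : ((y.val : ℕ) : ZMod N) = y := by simp
  have hcop : Nat.Coprime (Nat.gcd y.val N) a := by
    apply Nat.coprime_of_dvd
    intro p pp hp hpa
    have hpy : p ∣ y.val := hp.trans (Nat.gcd_dvd_left _ _)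
    have hpN : p ∣ N := hp.trans (Nat.gcd_dvd_right _ _)
    have h1 : ((r.val * a + s.val * y.val : ℕ) : ZMod N) = ((1 : ℕ) : ZMod N) := by
      push_cast
      rw [hax]
      simpa using hrs
    rw [ZMod.natCast_eq_natCast_iff] at h1
    have h2 : r.val * a + s.val * y.val ≡ 1 [MOD p] := h1.of_dvd hpN
    have h3 : p ∣ r.val * a + s.val * y.val :=
      dvd_add (hpa.mul_left _) (hpy.mul_left _)
    have h4 : p ∣ 1 := (h2.dvd_iff dvd_rfl).mp h3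
    exact pp.one_lt.ne' (Nat.dvd_one.mp h4)
  obtain ⟨k, hk⟩ := p1_exists_coprime_add_mul y.val N a ha0 hcop
  have hk' : IsCoprime (a : ℤ) ((y.val + k * N : ℕ) : ℤ) :=
    Nat.isCoprime_iff_coprime.mpr hk.symm
  obtain ⟨g, hg0, hg1⟩ := hk'.exists_SL2_col 0
  refine ⟨g, ?_⟩
  ext
  · rw [colOf_fst, hg0]
    simpa using hax
  · rw [colOf_snd, hg1]
    simp

end Fermat.Agent.S20
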