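import Mathlib
import Fermat.Agent.S20.P1

set_option autoImplicit false

/-!
# S20, K1: `|SL₂(ℤ)/Γ₀(N)| = ψ(N)`
-/

namespace Fermat.Agent.S20

open UpperHalfPlane ModularForm Matrix.SpecialLinearGroup
open scoped MatrixGroups ModularForm Manifold

/-! ### the Dedekind psi function -/

/-- indicator of squarefree numbers. -/
def sqInd : ArithmeticFunction ℕ := ⟨fun n => if Squarefree n then 1 else 0, by simp⟩

theorem sqInd_apply (n : ℕ) : sqInd n = if Squarefree n then 1 else 0 := rfl

theorem sqInd_isMultiplicative : sqInd.IsMultiplicative := by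
  refine ⟨by simp [sqInd_apply], ?_⟩
  intro m n h
  simp only [sqInd_apply, Nat.squarefree_mul h]
  split_ifs <;> simp_all

theorem dedekindPsi_eq (N : ℕ) :
    ModularCurve.dedekindPsi N = (sqInd * ArithmeticFunction.id) N := by
  rw [ArithmeticFunction.mul_apply,
    Nat.sum_divisorsAntidiagonal (f := fun x y => sqInd x * ArithmeticFunction.id y),
    ModularCurve.dedekindPsi, Finset.sum_filter]
  refine Finset.sum_congr rfl fun d _ => ?_
  simp only [sqInd_apply, ArithmeticFunction.id_apply]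
  split_ifs <;> simp

theorem dedekindPsi_mul {m n : ℕ} (h : m.Coprime n) :
    ModularCurve.dedekindPsi (m * n) = ModularCurve.dedekindPsi m * ModularCurve.dedekindPsi n := by
  rw [dedekindPsi_eq, dedekindPsi_eq, dedekindPsi_eq]
  exact (sqInd_isMultiplicative.mul ArithmeticFunction.isMultiplicative_id).map_mul_of_coprime h

theorem dedekindPsi_prime_pow {p : ℕ} (hp : p.Prime) (k : ℕ) :
    ModularCurve.dedekindPsi (p ^ (k + 1)) = p ^ (k + 1) + p ^ k := by
  rw [ModularCurve.dedekindPsi, Finset.sum_filter, Nat.sum_divisors_prime_pow hp,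
    Finset.sum_range_succ', Finset.sum_range_succ']
  have h0 : ∀ i ∈ Finset.range k,
      (if Squarefree (p ^ (i + 1 + 1)) then p ^ (k + 1) / p ^ (i + 1 + 1) else 0) = 0 := by
    intro i _
    rw [if_neg]
    intro hsq
    have := hsq p ⟨p ^ i, by ring⟩
    exact hp.one_lt.ne' (Nat.isUnit_iff.mp this)
  rw [Finset.sum_eq_zero h0]
  have h1 : Squarefree (p ^ (0 + 1)) := by simpa using hp.squarefree
  rw [if_pos h1, if_pos (by simp)]
  simp only [zero_add, pow_one, pow_zero, Nat.div_one]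
  rw [pow_succ, Nat.mul_div_cancel _ hp.pos]
  ring


/-! ### unimodular pairs -/

/-- unimodular pairs in a commutative ring. -/
def UPairs (R : Type*) [CommRing R] : Type _ := {v : R × R // IsCoprime v.1 v.2}

theorem card_UPairs_congr {R S : Type*} [CommRing R] [CommRing S] (e : R ≃+* S) :
    Nat.card (UPairs R) = Nat.card (UPairs S) := by
  refine Nat.card_congr ((Equiv.prodCongr e.toEquiv e.toEquiv).subtypeEquiv ?_)
  rintro ⟨a, c⟩
  constructor
  · intro h
    exact h.map (e : R →+* S)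
  · intro h
    have := IsCoprime.map h (e.symm : S →+* R)
    simpa using this

theorem card_UPairs_prod (R S : Type*) [CommRing R] [CommRing S] :
    Nat.card (UPairs (R × S)) = Nat.card (UPairs R) * Nat.card (UPairs S) := by
  rw [← Nat.card_prod]
  refine Nat.card_congr
    { toFun := fun v => (⟨(v.1.1.1, v.1.2.1), ?_⟩, ⟨(v.1.1.2, v.1.2.2), ?_⟩)
      invFun := fun w => ⟨((w.1.1.1, w.2.1.1), (w.1.1.2, w.2.1.2)), ?_⟩
      left_inv := fun v => rfl
      right_inv := fun w => rfl }
  · exact IsCoprime.map v.2 (RingHom.fst R S)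
  · exact IsCoprime.map v.2 (RingHom.snd R S)
  · obtain ⟨r, s, h⟩ := w.1.2
    obtain ⟨r', s', h'⟩ := w.2.2
    exact ⟨(r, r'), (s, s'), Prod.ext h h'⟩

theorem isCoprime_iff_isUnit_or {p : ℕ} (hp : p.Prime) (k : ℕ) (a c : ZMod (p ^ (k + 1))) :
    IsCoprime a c ↔ IsUnit a ∨ IsUnit c := by
  have key : ∀ x : ZMod (p ^ (k + 1)), ¬ IsUnit x → (p : ZMod (p ^ (k + 1))) ∣ x := by
    intro x hx
    have : NeZero (p ^ (k + 1)) := ⟨pow_ne_zero _ hp.ne_zero⟩
    rw [← ZMod.natCast_zmod_val x, ZMod.isUnit_iff_coprime] at hx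
    have h2 : p ∣ x.val := by
      by_contra hcon
      exact hx (((Nat.Prime.coprime_iff_not_dvd hp).mpr hcon).symm.pow_right _)
    obtain ⟨y, hy⟩ := h2
    exact ⟨(y : ZMod (p ^ (k + 1))), by rw [← ZMod.natCast_zmod_val x, hy]; push_cast; rfl⟩
  constructor
  · intro h
    by_contra hcon
    push Not at hcon
    have hpu : IsUnit (p : ZMod (p ^ (k + 1))) := h.isUnit_of_dvd' (key a hcon.1) (key c hcon.2)
    rw [ZMod.isUnit_iff_coprime] at hpu
    have : p ∣ 1 := by
      have h3 := Nat.dvd_gcd (dvd_refl p) (dvd_pow_self p (Nat.succ_ne_zero k))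
      rwa [hpu] at h3
    exact hp.one_lt.ne' (Nat.dvd_one.mp this)
  · rintro (h | h)
    · obtain ⟨u, rfl⟩ := h
      exact ⟨(↑u⁻¹ : ZMod (p ^ (k + 1))), 0, by simp⟩
    · obtain ⟨u, rfl⟩ := h
      exact ⟨0, (↑u⁻¹ : ZMod (p ^ (k + 1))), by simp⟩

theorem card_not_isUnit (n : ℕ) [NeZero n] :
    Nat.card {a : ZMod n // ¬ IsUnit a} + n.totient = n := by
  classical
  have h1 : Nat.card {a : ZMod n // IsUnit a} = n.totient := by
    rw [← ZMod.card_units_eq_totient n, ← Nat.card_eq_fintype_card]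
    exact Nat.card_congr
      { toFun := fun x => x.2.unit
        invFun := fun u => ⟨u, u.isUnit⟩
        left_inv := fun x => Subtype.ext (IsUnit.unit_spec x.2)
        right_inv := fun u => IsUnit.unit_of_val_units _ }
  have h2 := Nat.card_congr (Equiv.sumCompl (fun a : ZMod n => IsUnit a))
  rw [Nat.card_sum, Nat.card_zmod] at h2
  omega


theorem card_UPairs_prime_pow {p : ℕ} (hp : p.Prime) (k : ℕ) :
    Nat.card (UPairs (ZMod (p ^ (k + 1)))) + p ^ k * p ^ k = p ^ (k + 1) * p ^ (k + 1) := by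
  classical
  have : NeZero (p ^ (k + 1)) := ⟨pow_ne_zero _ hp.ne_zero⟩
  have h1 := card_not_isUnit (p ^ (k + 1))
  rw [Nat.totient_prime_pow_succ hp] at h1
  have h1' : Nat.card {a : ZMod (p ^ (k + 1)) // ¬ IsUnit a} = p ^ k := by
    have h3 : p ^ (k + 1) = p ^ k + p ^ k * (p - 1) := by
      obtain ⟨q, rfl⟩ : ∃ q, p = q + 1 := ⟨p - 1, (Nat.sub_add_cancel hp.one_le).symm⟩
      simp only [Nat.add_sub_cancel]
      ring
    omega
  have h2 := Nat.card_congr (Equiv.sumCompl
    (fun v : ZMod (p ^ (k + 1)) × ZMod (p ^ (k + 1)) => IsCoprime v.1 v.2))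
  rw [Nat.card_sum, Nat.card_prod, Nat.card_zmod] at h2
  have h4 : Nat.card {v : ZMod (p ^ (k + 1)) × ZMod (p ^ (k + 1)) // ¬ IsCoprime v.1 v.2}
      = p ^ k * p ^ k := by
    rw [← h1', ← Nat.card_prod]
    refine Nat.card_congr
      { toFun := fun v => (⟨v.1.1, ?_⟩, ⟨v.1.2, ?_⟩)
        invFun := fun w => ⟨(w.1.1, w.2.1), ?_⟩
        left_inv := fun v => rfl
        right_inv := fun w => rfl }
    · have := v.2
      rw [isCoprime_iff_isUnit_or hp] at this
      tauto
    · have := v.2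
      rw [isCoprime_iff_isUnit_or hp] at this
      tauto
    · rw [isCoprime_iff_isUnit_or hp]
      have := w.1.2
      have := w.2.2
      tauto
  rw [h4] at h2
  exact h2

theorem card_UPairs_zmod (N : ℕ) (hN : N ≠ 0) :
    Nat.card (UPairs (ZMod N)) = N.totient * ModularCurve.dedekindPsi N := by
  induction N using Nat.recOnPosPrimePosCoprime with
  | prime_pow p n hp hn =>
    obtain ⟨k, rfl⟩ : ∃ k, n = k + 1 := ⟨n - 1, by omega⟩
    have h := card_UPairs_prime_pow hp k
    rw [Nat.totient_prime_pow_succ hp, dedekindPsi_prime_pow hp]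
    obtain ⟨q, rfl⟩ : ∃ q, p = q + 1 := ⟨p - 1, (Nat.sub_add_cancel hp.one_le).symm⟩
    simp only [Nat.add_sub_cancel]
    have e : (q + 1) ^ (k + 1) * (q + 1) ^ (k + 1)
        = (q + 1) ^ k * q * ((q + 1) ^ (k + 1) + (q + 1) ^ k) + (q + 1) ^ k * (q + 1) ^ k := by
      ring
    omega
  | zero => exact absurd rfl hN
  | one =>
    have : Subsingleton (UPairs (ZMod 1)) := by
      unfold UPairs
      infer_instance
    have : Nonempty (UPairs (ZMod 1)) := ⟨⟨(1, 1), isCoprime_one_left⟩⟩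
    rw [Nat.card_eq_one_iff_unique.mpr ⟨inferInstance, inferInstance⟩]
    simp
  | coprime a b ha hb hab iha ihb =>
    rw [card_UPairs_congr (ZMod.chineseRemainder hab), card_UPairs_prod, iha (by omega),
      ihb (by omega), Nat.totient_mul hab, dedekindPsi_mul hab]
    ring

/-! ### the coset space -/

theorem card_UPairs_eq (N : ℕ) [NeZero N] :
    Nat.card (UPairs (ZMod N)) = Nat.card (Quo N) * N.totient := by
  classical
  rw [← ZMod.card_units_eq_totient N, ← Nat.card_eq_fintype_card, ← Nat.card_prod]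
  symm
  choose rep hrep using fun q : Quo N => p1_exists_mk q
  refine Nat.card_congr (Equiv.ofBijective
    (fun x : Quo N × (ZMod N)ˣ =>
      (⟨((x.2 : ZMod N) * (colOf N (rep x.1)).1, (x.2 : ZMod N) * (colOf N (rep x.1)).2),
        (isCoprime_mul_units_left x.2.isUnit x.2.isUnit _ _).mpr (isCoprime_colOf N _)⟩ :
        UPairs (ZMod N))) ⟨?_, ?_⟩)
  · rintro ⟨q, u⟩ ⟨q', u'⟩ h
    have h' := congrArg Subtype.val h
    simp only [Prod.mk.injEq] at h'
    obtain ⟨h1, h2⟩ := h'
    have hq : q = q' := by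
      rw [← hrep q, ← hrep q', quo_eq_iff]
      refine ⟨u'⁻¹ * u, ?_⟩
      ext
      · simp only [Units.val_mul]
        rw [mul_assoc, h1, ← mul_assoc]
        simp
      · simp only [Units.val_mul]
        rw [mul_assoc, h2, ← mul_assoc]
        simp
    subst hq
    obtain ⟨r, s, hrs⟩ := isCoprime_colOf N (rep q)
    have : (u : ZMod N) = u' := by
      linear_combination r * h1 + s * h2 - ((u : ZMod N) - u') * hrs
    rw [Units.ext this]
  · rintro ⟨v, hv⟩
    obtain ⟨γ, hγ⟩ := exists_colOf v hv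
    obtain ⟨u, hu⟩ := (quo_eq_iff (N := N) (rep (QuotientGroup.mk (sl γ))) γ).mp (hrep _)
    refine ⟨(QuotientGroup.mk (sl γ), u), ?_⟩
    apply Subtype.ext
    simp only
    rw [← hu, hγ]

theorem card_quo (N : ℕ) [NeZero N] : Nat.card (Quo N) = ModularCurve.dedekindPsi N := by
  have h1 := card_UPairs_eq N
  rw [card_UPairs_zmod N (NeZero.ne N), mul_comm] at h1
  exact (Nat.eq_of_mul_eq_mul_right (Nat.totient_pos.mpr (NeZero.pos N)) h1).symm

end Fermat.Agent.S20
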