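import Mathlib
import Fermat.Agent.S20.Basic

set_option autoImplicit false

/-!
# S20: homogeneous free generators of `M_*(Γ₀(N))` over `M_*(SL₂(ℤ))` (interface)
-/

namespace Fermat.Agent.S20

open UpperHalfPlane ModularForm Matrix.SpecialLinearGroup EisensteinSeries ModularFormClass
open scoped MatrixGroups ModularForm Manifold

noncomputable instance instFintypeQuo (N : ℕ) [NeZero N] : Fintype (Quo N) := Fintype.ofFinite _

noncomputable instance instDecidableEqQuo (N : ℕ) : DecidableEq (Quo N) := Classical.decEq _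

/-- A finite family of homogeneous free generators of the graded module `M_*(Γ₀(N))` over the
graded ring of level one forms. Equalities are stated on functions `ℍ → ℂ`. -/
structure GenData (N : ℕ) (ι : Type) [Fintype ι] where
  /-- weights of the generators -/
  wt : ι → ℤ
  /-- the generators -/
  f : (j : ι) → MF N (wt j)
  gen : ∀ (k : ℤ) (h : MF N k),
    ∃ a : (j : ι) → ModularForm 𝒮ℒ (k - wt j), (⇑h : ℍ → ℂ) = ∑ j, ⇑(a j) * ⇑(f j)
  ind : ∀ (k : ℤ) (a : (j : ι) → ModularForm 𝒮ℒ (k - wt j)),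
    (∑ j, ⇑(a j) * ⇑(f j) : ℍ → ℂ) = 0 → ∀ j, a j = 0

variable {N : ℕ} {ι : Type} [Fintype ι]

/-- The matrix `F(z) = ((f_j ∣ q)(z))_{q, j}`. -/
noncomputable def GenData.F (D : GenData N ι) (z : ℍ) : Matrix (Quo N) ι ℂ :=
  fun q j => comp (D.f j) q z

theorem GenData.F_apply (D : GenData N ι) (z : ℍ) (q : Quo N) (j : ι) :
    D.F z q j = comp (D.f j) q z := rfl

end Fermat.Agent.S20
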