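import Mathlib
import Fermat.Agent.S20.Basic
import Fermat.Agent.S20.GenDefs
import Fermat.Agent.S22.Good

set_option autoImplicit false

/-!
# S20: `q_N`-expansions of the components
-/

namespace Fermat.Agent.S20

open UpperHalfPlane ModularForm Matrix.SpecialLinearGroup EisensteinSeries ModularFormClass
open scoped MatrixGroups ModularForm Manifold

variable {N : ℕ} {k : ℤ}

theorem mk_eq_mk_iff (γ δ : SL(2, ℤ)) :
    (QuotientGroup.mk (sl γ) : Quo N) = QuotientGroup.mk (sl δ) ↔
      γ⁻¹ * δ ∈ CongruenceSubgroup.Gamma0 N := by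
  rw [QuotientGroup.eq, Subgroup.mem_subgroupOf, ← sl_inv, ← sl_mul, coe_sl]
  constructor
  · rintro ⟨x, hx, hx'⟩
    have : x = γ⁻¹ * δ := mapGL_injective hx'
    rwa [← this]
  · intro h
    exact ⟨_, h, rfl⟩

theorem sl_smul_mk (γ δ : SL(2, ℤ)) :
    sl γ • (QuotientGroup.mk (sl δ) : Quo N) = QuotientGroup.mk (sl (γ * δ)) := by
  rw [sl_mul]
  rfl

/-- elements of `Γ(N)` act trivially on the coset space. -/
theorem sl_smul_of_mem_Gamma {γ : SL(2, ℤ)} (hγ : γ ∈ CongruenceSubgroup.Gamma N) (q : Quo N) :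
    sl γ • q = q := by
  obtain ⟨δ, rfl⟩ := exists_mk q
  rw [sl_smul_mk, mk_eq_mk_iff]
  have h1 : δ⁻¹ * γ⁻¹ * δ ∈ CongruenceSubgroup.Gamma N := by
    have := (CongruenceSubgroup.Gamma_normal N).conj_mem γ⁻¹ (inv_mem hγ) δ⁻¹
    simpa using this
  have h2 : (γ * δ)⁻¹ * δ = δ⁻¹ * γ⁻¹ * δ := by group
  rw [h2]
  rw [CongruenceSubgroup.Gamma0_mem]
  exact (CongruenceSubgroup.Gamma_mem.mp h1).2.2.1

theorem sl_T_pow_smul (q : Quo N) : sl (ModularGroup.T ^ (N : ℤ)) • q = q :=
  sl_smul_of_mem_Gamma (CongruenceSubgroup.ModularGroup_T_pow_mem_Gamma N N dvd_rfl) q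

theorem comp_T_zpow_apply (f : MF N k) (q : Quo N) (n : ℤ) (z : ℍ) :
    comp f q (ModularGroup.T ^ n • z) = comp f ((sl (ModularGroup.T ^ n))⁻¹ • q) z := by
  rw [comp_smul_apply]
  have : denom (ModularGroup.T ^ n : SL(2, ℤ)) z = 1 := by
    simp [denom, ModularGroup.coe_T_zpow, -map_zpow]
  rw [this, one_zpow, one_mul]

theorem comp_periodic (f : MF N k) (q : Quo N) :
    Function.Periodic (comp f q ∘ ofComplex) (N : ℝ) := by
  intro w
  by_cases! hw : 0 < w.im
  · have hw' : 0 < (w + (N : ℝ)).im := by simp [hw]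
    simp only [Function.comp_apply, ofComplex_apply_of_im_pos hw', ofComplex_apply_of_im_pos hw]
    have h1 := comp_T_zpow_apply f q (N : ℤ) ⟨w, hw⟩
    have h2 : (sl (ModularGroup.T ^ (N : ℤ)))⁻¹ • q = q := by
      rw [inv_smul_eq_iff, sl_T_pow_smul]
    rw [h2] at h1
    rw [← h1]
    congr 1
    ext
    rw [ModularGroup.coe_T_zpow_smul_eq]
    simp
  · have : (w + (N : ℝ)).im ≤ 0 := by simpa using hw
    simp only [Function.comp_apply, ofComplex_apply_of_im_nonpos this,
      ofComplex_apply_of_im_nonpos hw]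

theorem natCast_pos' [NeZero N] : (0 : ℝ) < N := by
  exact_mod_cast Nat.pos_of_ne_zero (NeZero.ne N)

theorem comp_good [NeZero N] (f : MF N k) (q : Quo N) : comp f q ∈ S22.goodAlg N :=
  analyticAt_cuspFunction_zero natCast_pos' (comp_periodic f q) (comp_mdiff f q) (comp_bdd f q)

/-- the `q_N`-expansion of a component. -/
noncomputable def qx (f : MF N k) (q : Quo N) : PowerSeries ℂ := qExpansion N (comp f q)

theorem qx_add [NeZero N] (f g : MF N k) (q : Quo N) : qx (f + g) q = qx f q + qx g q := by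
  unfold qx
  rw [comp_add]
  exact qExpansion_add (comp_good f q) (comp_good g q)

theorem qx_smul [NeZero N] (c : ℂ) (f : MF N k) (q : Quo N) : qx (c • f) q = c • qx f q := by
  unfold qx
  rw [comp_smul]
  exact qExpansion_smul (comp_good f q) c

theorem hasSum_qx [NeZero N] (f : MF N k) (q : Quo N) (z : ℍ) :
    HasSum (fun m : ℕ => (qx f q).coeff m • Function.Periodic.qParam N z ^ m) (comp f q z) :=
  hasSum_qExpansion natCast_pos' (comp_periodic f q) (comp_mdiff f q) (comp_bdd f q) z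

/-- the truncated expansion maps: coefficients `0, …, N-1` (`b = false`),
resp. `1, …, N` (`b = true`). -/
noncomputable def Lam [NeZero N] (b : Bool) (k : ℤ) : MF N k →ₗ[ℂ] (Quo N → Fin N → ℂ) where
  toFun f q n := (qx f q).coeff ((n : ℕ) + b.toNat)
  map_add' f g := by funext q n; simp [qx_add]
  map_smul' c f := by funext q n; simp [qx_smul]

@[simp] theorem Lam_apply [NeZero N] (b : Bool) (f : MF N k) (q : Quo N) (n : Fin N) :
    Lam b k f q n = (qx f q).coeff ((n : ℕ) + b.toNat) := rfl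

/-- the primitive root of unity `e^{2πi/N}`. -/
noncomputable def zetaN (N : ℕ) : ℂ := Complex.exp (2 * Real.pi * Complex.I / N)

/-- the target of `Lam`. -/
def Y (N : ℕ) (b : Bool) : Submodule ℂ (Quo N → Fin N → ℂ) where
  carrier := {y | ∀ q n, y ((sl ModularGroup.T)⁻¹ • q) n = zetaN N ^ ((n : ℕ) + b.toNat) * y q n}
  add_mem' := by
    intro v w hv hw q n
    simp only [Pi.add_apply]
    rw [hv q n, hw q n]; ring
  zero_mem' := by intro q n; simp
  smul_mem' := by
    intro a v hv q n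
    simp only [Pi.smul_apply, smul_eq_mul]
    rw [hv q n]; ring

/-- the pairing between truncated expansions. -/
noncomputable def pair [NeZero N] (y y' : Quo N → Fin N → ℂ) : ℂ :=
  ∑ q, ∑ n : Fin N, y q n * y' q (Fin.rev n)

end Fermat.Agent.S20
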