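import Mathlib
import Fermat.Agent.S20.LamDefs

set_option autoImplicit false

/-!
# S20: division by the discriminant
-/

namespace Fermat.Agent.S20

open UpperHalfPlane ModularForm Matrix.SpecialLinearGroup EisensteinSeries ModularFormClass Filter
open scoped MatrixGroups ModularForm Manifold Topology Real

local notation "𝕢" => Function.Periodic.qParam

/-- a function given by a `q`-series starting in degree `n` is `q ^ n` times a bounded function. -/
theorem exists_bdd_of_hasSum {h : ℝ} (hh : 0 < h) {F : ℍ → ℂ} {c : ℕ → ℂ}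
    (hF : ∀ τ : ℍ, HasSum (fun m ↦ c m • 𝕢 h τ ^ m) (F τ)) (n : ℕ) (hc : ∀ m < n, c m = 0) :
    ∃ u : ℍ → ℂ, IsBoundedAtImInfty u ∧ ∀ τ : ℍ, F τ = 𝕢 h τ ^ n * u τ := by
  refine ⟨fun τ => F τ / 𝕢 h τ ^ n, ?_, fun τ => ?_⟩
  · refine isBoundedAtImInfty_of_hasSum_qExpansion (c := fun m => c (m + n)) hh fun τ => ?_
    have hq : 𝕢 h τ ≠ 0 := Complex.exp_ne_zero _
    have h1 := (hasSum_nat_add_iff' n).mpr (hF τ)
    have h2 : ∑ i ∈ Finset.range n, c i • 𝕢 h τ ^ i = 0 :=
      Finset.sum_eq_zero fun i hi => by rw [hc i (Finset.mem_range.mp hi), zero_smul]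
    rw [h2, sub_zero] at h1
    have h3 := h1.div_const (𝕢 h τ ^ n)
    have h4 : (fun m => c (m + n) • 𝕢 h τ ^ m) =
        fun i => c (i + n) • 𝕢 h τ ^ (i + n) / 𝕢 h τ ^ n := by
      funext m
      rw [pow_add, smul_eq_mul, smul_eq_mul]
      field_simp
    rw [h4]
    exact h3
  · have hq : 𝕢 h τ ≠ 0 := Complex.exp_ne_zero _
    field_simp

theorem qParam_nat_pow {N : ℕ} (hN : N ≠ 0) (z : ℂ) : 𝕢 (N : ℝ) z ^ N = 𝕢 1 z := by
  have hN' : (N : ℂ) ≠ 0 := by exact_mod_cast hN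
  unfold Function.Periodic.qParam
  rw [← Complex.exp_nat_mul]
  congr 1
  push_cast
  field_simp

theorem norm_qParam_one (τ : ℍ) : ‖𝕢 1 (τ : ℂ)‖ = Real.exp (-2 * π * τ.im) := by
  rw [Function.Periodic.norm_qParam]
  simp

theorem qParam_isBigO_discriminant :
    (fun τ : ℍ ↦ 𝕢 1 (τ : ℂ)) =O[atImInfty] ModularForm.discriminant := by
  refine Asymptotics.IsBigO.trans ?_ exp_isBigO_discriminant
  refine Asymptotics.IsBigO.of_norm_left ?_
  simp only [norm_qParam_one]
  exact Asymptotics.isBigO_refl _ _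

variable {N : ℕ} [NeZero N] {k : ℤ}

theorem comp_isBigO_discriminant (f : MF N k) (q : Quo N)
    (hf : ∀ n : ℕ, n < N → (qx f q).coeff n = 0) :
    comp f q =O[atImInfty] ModularForm.discriminant := by
  obtain ⟨u, hu, hfu⟩ := exists_bdd_of_hasSum natCast_pos' (hasSum_qx f q) N hf
  have h1 : comp f q = fun τ : ℍ => 𝕢 1 (τ : ℂ) * u τ := by
    funext τ
    rw [hfu τ, qParam_nat_pow (NeZero.ne N)]
  rw [h1]
  have hu' : u =O[atImInfty] (fun _ : ℍ => (1 : ℂ)) :=
    Asymptotics.IsBigO.trans (show u =O[atImInfty] (fun _ : ℍ => (1 : ℝ)) from hu)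
      (Asymptotics.isBigO_const_const (1 : ℝ) (one_ne_zero : (1 : ℂ) ≠ 0) _)
  have := qParam_isBigO_discriminant.mul hu'
  simpa using this

theorem exists_eq_discriminant_mul {N : ℕ} [NeZero N] {k : ℤ}
    (f : ModularForm (CongruenceSubgroup.Gamma0 N) k)
    (hf : ∀ (q : Quo N) (n : ℕ), n < N →
      (qExpansion N (SlashInvariantForm.quotientFunc f q)).coeff n = 0) :
    ∃ g : ModularForm (CongruenceSubgroup.Gamma0 N) (k - 12),
      ⇑f = ModularForm.discriminant * ⇑g := by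
  have hslash : ∀ γ : SL(2, ℤ), (⇑f / ModularForm.discriminant) ∣[k - 12] γ =
      (⇑f ∣[k] γ) / ModularForm.discriminant := by
    intro γ
    rw [div_slash_SL2]
    congr 1
    have hmem : mapGL ℝ γ ∈ 𝒮ℒ := ⟨γ, rfl⟩
    exact SlashInvariantFormClass.slash_action_eq CuspForm.discriminant _ hmem
  refine ⟨{ toFun := ⇑f / ModularForm.discriminant
            slash_action_eq' := ?_
            holo' := f.holo'.div CuspForm.discriminant.holo' discriminant_ne_zero
            bdd_at_cusps' := ?_ }, ?_⟩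
  · rintro _ ⟨γ, hγ, rfl⟩
    have hmem : mapGL ℝ γ ∈ (CongruenceSubgroup.Gamma0 N : Subgroup (GL (Fin 2) ℝ)) := ⟨γ, hγ, rfl⟩
    have h1 := hslash γ
    have h2 : (⇑f ∣[k] γ) = f := SlashInvariantFormClass.slash_action_eq f _ hmem
    rw [h2] at h1
    exact h1
  · intro c hc
    rw [Subgroup.IsArithmetic.isCusp_iff_isCusp_SL2Z] at hc
    rw [OnePoint.isBoundedAt_iff_forall_SL2Z hc]
    intro γ _
    show IsBoundedAtImInfty ((⇑f / ModularForm.discriminant) ∣[k - 12] γ)
    rw [hslash γ]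
    have h1 : (⇑f ∣[k] γ) = comp f (QuotientGroup.mk (sl γ⁻¹) : Quo N) := by
      rw [comp_mk, inv_inv]
    rw [h1, IsBoundedAtImInfty, BoundedAtFilter]
    exact (Asymptotics.div_isBoundedUnder_of_isBigO
      (comp_isBigO_discriminant f _ (hf _))).isBigO_one ℝ
  · funext z
    show f z = ModularForm.discriminant z * (f z / ModularForm.discriminant z)
    rw [mul_div_cancel₀ _ (discriminant_ne_zero z)]

end Fermat.Agent.S20
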