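import Mathlib
import Fermat.Agent.S20.DivDelta

set_option autoImplicit false

/-!
# S20 (C6): analytic auxiliaries on `q`-series
-/

namespace Fermat.Agent.S20

open UpperHalfPlane ModularForm Matrix.SpecialLinearGroup EisensteinSeries ModularFormClass Filter
open scoped MatrixGroups ModularForm Manifold Topology Real

local notation "𝕢" => Function.Periodic.qParam

theorem hasSum_shift {h : ℝ} {F : ℍ → ℂ} {c : ℕ → ℂ}
    (hF : ∀ τ : ℍ, HasSum (fun m ↦ c m • 𝕢 h τ ^ m) (F τ)) (n : ℕ) (hc : ∀ m < n, c m = 0)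
    (τ : ℍ) : HasSum (fun m ↦ c (m + n) • 𝕢 h τ ^ m) (F τ / 𝕢 h τ ^ n) := by
  have hq : 𝕢 h τ ≠ 0 := Complex.exp_ne_zero _
  have h1 := (hasSum_nat_add_iff' n).mpr (hF τ)
  have h2 : ∑ i ∈ Finset.range n, c i • 𝕢 h τ ^ i = 0 :=
    Finset.sum_eq_zero fun i hi => by rw [hc i (Finset.mem_range.mp hi), zero_smul]
  rw [h2, sub_zero] at h1
  have h3 := h1.div_const (𝕢 h τ ^ n)
  have h4 : (fun m => c (m + n) • 𝕢 h τ ^ m) =
      fun i => c (i + n) • 𝕢 h τ ^ (i + n) / 𝕢 h τ ^ n := by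
    funext m
    rw [pow_add, smul_eq_mul, smul_eq_mul]
    field_simp
  rw [h4]
  exact h3

/-- the limit at `i∞` of a function given by a `q`-series. -/
theorem tendsto_of_hasSum {h : ℝ} (hh : 0 < h) {F : ℍ → ℂ} {c : ℕ → ℂ}
    (hF : ∀ τ : ℍ, HasSum (fun m ↦ c m • 𝕢 h τ ^ m) (F τ)) :
    Tendsto F atImInfty (𝓝 (c 0)) := by
  -- `F - c 0 = q * u` with `u` bounded
  have h1 : ∀ τ : ℍ, HasSum (fun m ↦ (if m = 0 then 0 else c m) • 𝕢 h τ ^ m) (F τ - c 0) := by
    intro τ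
    have h2 : HasSum (fun m : ℕ ↦ (if m = 0 then c 0 else 0) • 𝕢 h τ ^ m) (c 0) := by
      have h0 := hasSum_ite_eq (0 : ℕ) (c 0)
      have he : (fun m : ℕ ↦ (if m = 0 then c 0 else 0) • 𝕢 h τ ^ m) =
          fun m : ℕ => if m = 0 then c 0 else 0 := by
        funext m
        by_cases hm : m = 0
        · subst hm; simp
        · simp [hm]
      rw [he]
      exact h0
    have h3 := (hF τ).sub h2
    have he : (fun m ↦ (if m = 0 then 0 else c m) • 𝕢 h τ ^ m) =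
        fun b => c b • 𝕢 h ↑τ ^ b - (if b = 0 then c 0 else 0) • 𝕢 h ↑τ ^ b := by
      funext m
      by_cases hm : m = 0
      · subst hm; simp
      · simp [hm]
    rw [he]
    exact h3
  obtain ⟨u, hu, hfu⟩ := exists_bdd_of_hasSum hh h1 1 (by intro m hm; simp [Nat.lt_one_iff.mp hm])
  have hq : Tendsto (fun τ : ℍ => 𝕢 h (τ : ℂ)) atImInfty (𝓝 0) :=
    qParam_tendsto_atImInfty hh
  have hz : ZeroAtFilter atImInfty (fun τ : ℍ => 𝕢 h (τ : ℂ)) := hq
  have h4 : Tendsto (fun τ : ℍ => F τ - c 0) atImInfty (𝓝 0) := by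
    have := hz.mul_boundedAtFilter hu
    refine Tendsto.congr (fun τ => ?_) this
    rw [hfu τ, pow_one]
    rfl
  have h5 := h4.add_const (c 0)
  simpa using h5

/-- uniqueness of the coefficients of a `q`-series. -/
theorem coeff_unique_of_hasSum {h : ℝ} (hh : 0 < h) {F : ℍ → ℂ} {c c' : ℕ → ℂ}
    (hF : ∀ τ : ℍ, HasSum (fun m ↦ c m • 𝕢 h τ ^ m) (F τ))
    (hF' : ∀ τ : ℍ, HasSum (fun m ↦ c' m • 𝕢 h τ ^ m) (F τ)) (m : ℕ) : c m = c' m := by
  induction m using Nat.strong_induction_on with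
  | _ m ih =>
    have h1 : ∀ τ : ℍ, HasSum (fun i ↦ (c i - c' i) • 𝕢 h τ ^ i) ((fun _ => (0 : ℂ)) τ) := by
      intro τ
      have h0 := (hF τ).sub (hF' τ)
      have he : (fun i ↦ (c i - c' i) • 𝕢 h τ ^ i) =
          fun b => c b • 𝕢 h ↑τ ^ b - c' b • 𝕢 h ↑τ ^ b := by
        funext i
        rw [sub_smul]
      rw [he]
      simpa using h0
    have h2 := hasSum_shift h1 m (fun i hi => by rw [ih i hi, sub_self])
    have h3 := tendsto_of_hasSum hh h2
    simp only [zero_div, zero_add] at h3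
    have h4 := tendsto_nhds_unique h3 tendsto_const_nhds
    exact sub_eq_zero.mp h4

/-- level one forms of even weight `≥ 4` with constant term one. -/
theorem exists_levelOne_tendsto_one {w : ℤ} (hw : 4 ≤ w) (he : Even w) :
    ∃ b : ModularForm 𝒮ℒ w, Tendsto b atImInfty (𝓝 1) := by
  obtain ⟨n, rfl⟩ := Int.eq_ofNat_of_zero_le (by omega : 0 ≤ w)
  have hn : 3 ≤ n := by omega
  have he' : Even n := by exact_mod_cast he
  refine ⟨E hn, ?_⟩
  have h1 : ∀ τ : ℍ, HasSum (fun m ↦ (qExpansion 1 (E hn)).coeff m • 𝕢 1 τ ^ m) (E hn τ) :=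
    fun τ => ModularForm.hasSum_qExpansion (f := E hn) one_pos one_mem_strictPeriods_SL τ
  have h2 := tendsto_of_hasSum one_pos h1
  rwa [E_qExpansion_coeff_zero hn he'] at h2

theorem tendsto_discriminant_div_qParam :
    Tendsto (fun z : ℍ => ModularForm.discriminant z / 𝕢 1 (z : ℂ)) atImInfty (𝓝 1) := by
  refine Tendsto.congr (fun z => ?_) tendsto_atImInfty_tprod_one_sub_eta_q_pow
  rw [discriminant_eq_q_prod, mul_div_cancel_left₀ _ (Function.Periodic.qParam_ne_zero _)]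

/-- build a level one form. -/
theorem exists_levelOne_form {R : ℍ → ℂ} {w : ℤ} (hol : MDiff R)
    (hinv : ∀ γ : SL(2, ℤ), R ∣[w] γ = R) (hbd : IsBoundedAtImInfty R) :
    ∃ g : ModularForm 𝒮ℒ w, ⇑g = R := by
  refine ⟨{ toFun := R
            slash_action_eq' := ?_
            holo' := hol
            bdd_at_cusps' := ?_ }, rfl⟩
  · rintro _ ⟨γ, rfl⟩
    exact hinv γ
  · intro c hc
    rw [OnePoint.isBoundedAt_iff_forall_SL2Z hc]
    intro γ _
    show IsBoundedAtImInfty (R ∣[w] γ)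
    rw [hinv γ]
    exact hbd

/-- a nowhere vanishing weakly modular function of level one with a nonzero limit at `i∞` has
weight zero. -/
theorem weight_eq_zero_of_tendsto {R : ℍ → ℂ} {w : ℤ} (hol : MDiff R) (hne : ∀ z, R z ≠ 0)
    (hinv : ∀ γ : SL(2, ℤ), R ∣[w] γ = R) {c : ℂ} (hc : c ≠ 0)
    (hlim : Tendsto R atImInfty (𝓝 c)) : w = 0 := by
  rcases lt_trichotomy w 0 with hw | hw | hw
  · exfalso
    obtain ⟨g, hg⟩ := exists_levelOne_form hol hinv (hlim.isBigO_one ℝ)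
    have := levelOne_neg_weight_eq_zero hw g
    rw [hg] at this
    exact hne I (by rw [this]; rfl)
  · exact hw
  · exfalso
    have hol' : MDiff (1 / R) := (mdifferentiable_const (c := (1 : ℂ))).div hol hne
    have hinv' : ∀ γ : SL(2, ℤ), (1 / R) ∣[0 - w] γ = 1 / R := by
      intro γ
      rw [div_slash_SL2, hinv γ]
      congr 1
      exact ModularForm.is_invariant_one γ
    have hlim' : Tendsto (1 / R) atImInfty (𝓝 (1 / c)) := tendsto_const_nhds.div hlim hc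
    obtain ⟨g, hg⟩ := exists_levelOne_form hol' hinv' (hlim'.isBigO_one ℝ)
    have := levelOne_neg_weight_eq_zero (by omega) g
    rw [hg] at this
    have h1 := congrFun this I
    simp only [Pi.div_apply, Pi.one_apply, Pi.zero_apply, one_div, inv_eq_zero] at h1
    exact hne I h1

theorem qParam_T_smul (N : ℕ) (z : ℍ) :
    𝕢 (N : ℝ) ((ModularGroup.T • z : ℍ) : ℂ) = Complex.exp (2 * π * Complex.I / N) * 𝕢 (N : ℝ) z := by
  rw [modular_T_smul]
  unfold Function.Periodic.qParam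
  rw [← Complex.exp_add, coe_vadd]
  congr 1
  push_cast
  ring

/-- a `q_N`-series which is an eigenfunction of the translation `z ↦ z + 1` is supported on one
residue class. -/
theorem coeff_eq_zero_of_twist {N : ℕ} [NeZero N] {G : ℍ → ℂ} {c : ℕ → ℂ}
    (hG : ∀ τ : ℍ, HasSum (fun m ↦ c m • 𝕢 (N : ℝ) τ ^ m) (G τ)) {a : ℕ} (ha : a < N)
    (htw : ∀ z : ℍ, G (ModularGroup.T • z) = Complex.exp (2 * π * Complex.I * a / N) * G z)
    {m : ℕ} (hm : m < N) (hma : m ≠ a) : c m = 0 := by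
  set ζ : ℂ := Complex.exp (2 * π * Complex.I / N) with hζ
  have hprim : IsPrimitiveRoot ζ N := Complex.isPrimitiveRoot_exp N (NeZero.ne N)
  have hζa : Complex.exp (2 * π * Complex.I * a / N) = ζ ^ a := by
    rw [hζ, ← Complex.exp_nat_mul]
    congr 1
    ring
  have h1 : ∀ τ : ℍ, HasSum (fun m ↦ (c m * ζ ^ m) • 𝕢 (N : ℝ) τ ^ m) (G (ModularGroup.T • τ)) := by
    intro τ
    have h0 := hG (ModularGroup.T • τ)
    have he : (fun m ↦ (c m * ζ ^ m) • 𝕢 (N : ℝ) τ ^ m) =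
        fun m ↦ c m • 𝕢 (N : ℝ) ((ModularGroup.T • τ : ℍ) : ℂ) ^ m := by
      funext m
      rw [qParam_T_smul, mul_pow, smul_eq_mul, smul_eq_mul, mul_assoc]
    rw [he]
    exact h0
  have h2 : ∀ τ : ℍ, HasSum (fun m ↦ (ζ ^ a * c m) • 𝕢 (N : ℝ) τ ^ m) (G (ModularGroup.T • τ)) := by
    intro τ
    have h0 := (hG τ).mul_left (ζ ^ a)
    rw [htw τ, hζa]
    have he : (fun m ↦ (ζ ^ a * c m) • 𝕢 (N : ℝ) τ ^ m) =
        fun m ↦ ζ ^ a * c m • 𝕢 (N : ℝ) (τ : ℂ) ^ m := by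
      funext m
      rw [smul_eq_mul, smul_eq_mul, mul_assoc]
    rw [he]
    exact h0
  have h3 := coeff_unique_of_hasSum natCast_pos' h1 h2 m
  by_contra hc
  have h4 : ζ ^ m = ζ ^ a := by
    have : c m * ζ ^ m = c m * ζ ^ a := by rw [h3, mul_comm]
    exact mul_left_cancel₀ hc this
  exact hma (hprim.pow_inj hm ha h4)

end Fermat.Agent.S20
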