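import Mathlib
import Fermat.Agent.S20.GenDefs

set_option autoImplicit false
set_option linter.unusedSectionVars false

/-!
# S20: first properties of a system of free generators
-/

namespace Fermat.Agent.S20

open UpperHalfPlane ModularForm Matrix.SpecialLinearGroup EisensteinSeries ModularFormClass Filter
open scoped MatrixGroups ModularForm Manifold Topology Real

variable {N : ℕ} [NeZero N] {ι : Type} [Fintype ι]

theorem GenData.f_ne_zero (D : GenData N ι) (j : ι) : D.f j ≠ 0 := by
  classical
  intro h0
  let a : (l : ι) → ModularForm 𝒮ℒ (D.wt j - D.wt l) := fun l =>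
    if h : l = j then ModularForm.mcast (by rw [h, sub_self]) (1 : ModularForm 𝒮ℒ 0) else 0
  have hsum : (∑ l, ⇑(a l) * ⇑(D.f l) : ℍ → ℂ) = 0 := by
    apply Finset.sum_eq_zero
    intro l _
    by_cases h : l = j
    · subst h
      rw [h0]
      simp
    · simp [a, h]
  have := D.ind (D.wt j) a hsum j
  have h1 : (a j) I = 1 := by
    simp [a, ModularForm.mcast_apply]
  rw [this] at h1
  simp at h1

theorem GenData.wt_even (D : GenData N ι) (j : ι) : Even (D.wt j) := by
  by_contra hodd
  rw [Int.not_even_iff_odd] at hodd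
  apply D.f_ne_zero j
  refine ModularForm.eq_zero_of_neg_one_mem ?_ hodd (D.f j)
  have hmem : (-1 : SL(2, ℤ)) ∈ CongruenceSubgroup.Gamma0 N := by
    rw [CongruenceSubgroup.Gamma0_mem]
    simp
  exact ⟨-1, hmem, by ext; simp⟩

theorem GenData.wt_nonneg (D : GenData N ι) (j : ι) : 0 ≤ D.wt j := by
  by_contra hneg
  exact D.f_ne_zero j (ModularForm.isZero_of_neg_weight (not_le.mp hneg) (D.f j))

end Fermat.Agent.S20
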