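import Mathlib
import Fermat.Agent.S20.CuspAux
import Fermat.Agent.S20.GenBasic

set_option autoImplicit false

/-!
# S20 (C6): twisted sums of the components of a form
-/

namespace Fermat.Agent.S20

open UpperHalfPlane ModularForm Matrix.SpecialLinearGroup EisensteinSeries ModularFormClass Filter
open scoped MatrixGroups ModularForm Manifold Topology Real

local notation "𝕢" => Function.Periodic.qParam

variable {N : ℕ} [NeZero N] {k : ℤ}

/-- the twisted sums `∑_q W i q * (f ∣ q)`. -/
noncomputable def tw (W : Matrix (Quo N) (Quo N) ℂ) (f : MF N k) (i : Quo N) (z : ℍ) : ℂ :=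
  ∑ q, W i q * comp f q z

/-- the coefficients of the twisted sums. -/
noncomputable def twc (W : Matrix (Quo N) (Quo N) ℂ) (f : MF N k) (i : Quo N) (m : ℕ) : ℂ :=
  ∑ q, W i q * (qx f q).coeff m

theorem hasSum_tw (W : Matrix (Quo N) (Quo N) ℂ) (f : MF N k) (i : Quo N) (z : ℍ) :
    HasSum (fun m : ℕ => twc W f i m • 𝕢 (N : ℝ) z ^ m) (tw W f i z) := by
  have h1 : ∀ q ∈ (Finset.univ : Finset (Quo N)),
      HasSum (fun m : ℕ => W i q * ((qx f q).coeff m • 𝕢 (N : ℝ) z ^ m)) (W i q * comp f q z) :=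
    fun q _ => (hasSum_qx f q z).mul_left (W i q)
  have h2 := hasSum_sum h1
  have he : (fun m : ℕ => twc W f i m • 𝕢 (N : ℝ) z ^ m) =
      fun m : ℕ => ∑ q, W i q * ((qx f q).coeff m • 𝕢 (N : ℝ) z ^ m) := by
    funext m
    rw [twc, smul_eq_mul, Finset.sum_mul]
    refine Finset.sum_congr rfl fun q _ => ?_
    rw [smul_eq_mul, mul_assoc]
  rw [he]
  exact h2

/-- the hypotheses on the eigenbasis. -/
structure IsEigen (W : Matrix (Quo N) (Quo N) ℂ) (a : Quo N → ℕ) : Prop where
  det_ne : W.det ≠ 0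
  lt : ∀ i, a i < N
  eig : ∀ i q, W i (sl ModularGroup.T • q) = Complex.exp (2 * π * Complex.I * a i / N) * W i q

variable {W : Matrix (Quo N) (Quo N) ℂ} {a : Quo N → ℕ}

theorem IsEigen.tw_T (h : IsEigen W a) (f : MF N k) (i : Quo N) (z : ℍ) :
    tw W f i (ModularGroup.T • z) = Complex.exp (2 * π * Complex.I * a i / N) * tw W f i z := by
  have h1 : ∀ q, comp f q (ModularGroup.T • z) = comp f ((sl ModularGroup.T)⁻¹ • q) z := by
    intro q
    have := comp_T_zpow_apply f q 1 z
    simpa using this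
  unfold tw
  simp only [h1]
  rw [Finset.mul_sum]
  rw [← Equiv.sum_comp (MulAction.toPerm (sl ModularGroup.T))]
  refine Finset.sum_congr rfl fun q _ => ?_
  simp only [MulAction.toPerm_apply, inv_smul_smul]
  rw [h.eig, mul_assoc]

theorem IsEigen.twc_eq_zero (h : IsEigen W a) (f : MF N k) (i : Quo N) {m : ℕ} (hm : m < N)
    (hma : m ≠ a i) : twc W f i m = 0 :=
  coeff_eq_zero_of_twist (hasSum_tw W f i) (h.lt i) (h.tw_T f i) hm hma

theorem IsEigen.tendsto_tw (h : IsEigen W a) (f : MF N k) (i : Quo N) :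
    Tendsto (fun z : ℍ => tw W f i z / 𝕢 (N : ℝ) z ^ a i) atImInfty (𝓝 (twc W f i (a i))) := by
  have h1 := hasSum_shift (hasSum_tw W f i) (a i)
    (fun m hm => h.twc_eq_zero f i (hm.trans (h.lt i)) hm.ne)
  have h2 := tendsto_of_hasSum natCast_pos' h1
  simpa using h2

/-- if all the leading coefficients of the twisted sums vanish then all components vanish to
order `N` in `q_N`. -/
theorem IsEigen.coeff_eq_zero (h : IsEigen W a) (f : MF N k) (hf : ∀ i, twc W f i (a i) = 0)
    (q : Quo N) {m : ℕ} (hm : m < N) : (qx f q).coeff m = 0 := by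
  have h1 : W.mulVec (fun q => (qx f q).coeff m) = 0 := by
    funext i
    show ∑ q, W i q * (qx f q).coeff m = 0
    by_cases hma : m = a i
    · rw [hma]; exact hf i
    · exact h.twc_eq_zero f i hm hma
  have h2 := Matrix.eq_zero_of_mulVec_eq_zero h.det_ne h1
  exact congrFun h2 q

end Fermat.Agent.S20
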