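import Mathlib

set_option autoImplicit false

/-!
# S20 (C5): an eigenbasis for a permutation of finite order, with control on the exponents
-/

namespace Fermat.Agent.S20

open scoped Real

section

variable {ι : Type} (τ : Equiv.Perm ι)

/-- the orbit space of the cyclic group generated by `τ`. -/
abbrev EOrb : Type := MulAction.orbitRel.Quotient (Subgroup.zpowers τ) ι

/-- the size of an orbit. -/
noncomputable def eWidth (ω : EOrb τ) : ℕ := MulAction.period τ (Quotient.out ω)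

/-- the parametrisation of `ι` by orbits and positions. -/
noncomputable def eParam (x : Σ ω : EOrb τ, Fin (eWidth τ ω)) : ι :=
  (τ ^ (x.2 : ℕ)) (Quotient.out x.1)

theorem eWidth_dvd {n : ℕ} (hτ : τ ^ n = 1) (ω : EOrb τ) : eWidth τ ω ∣ n := by
  rw [eWidth, ← MulAction.pow_smul_eq_iff_period_dvd, hτ, one_smul]

theorem eWidth_pos {n : ℕ} (hn : 0 < n) (hτ : τ ^ n = 1) (ω : EOrb τ) : 0 < eWidth τ ω :=
  Nat.pos_of_dvd_of_pos (eWidth_dvd τ hτ ω) hn

theorem eParam_mk (x : Σ ω : EOrb τ, Fin (eWidth τ ω)) :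
    (Quotient.mk _ (eParam τ x) : EOrb τ) = x.1 := by
  conv_rhs => rw [← Quotient.out_eq x.1]
  apply Quotient.sound
  change eParam τ x ∈ MulAction.orbit (Subgroup.zpowers τ) (Quotient.out x.1)
  exact ⟨⟨τ ^ (x.2 : ℕ), Subgroup.npow_mem_zpowers τ _⟩, rfl⟩

theorem eParam_injective : Function.Injective (eParam τ) := by
  rintro ⟨ω, s⟩ ⟨ω', s'⟩ h
  have hω : ω = ω' := by
    have h1 := eParam_mk τ ⟨ω, s⟩
    have h2 := eParam_mk τ ⟨ω', s'⟩
    rw [h] at h1
    exact h1.symm.trans h2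
  subst hω
  congr 1
  simp only [eParam] at h
  -- `τ ^ s x = τ ^ s' x` with `s, s' < period`
  have key : ∀ a b : ℕ, a ≤ b → b < eWidth τ ω →
      (τ ^ a) (Quotient.out ω) = (τ ^ b) (Quotient.out ω) → a = b := by
    intro a b hab hb he
    have h1 : τ ^ (b - a) • (Quotient.out ω) = Quotient.out ω := by
      have : τ ^ b = τ ^ a * τ ^ (b - a) := by rw [← pow_add]; congr 1; omega
      rw [this, Equiv.Perm.mul_apply] at he
      exact ((τ ^ a).injective he).symm
    rw [MulAction.pow_smul_eq_iff_period_dvd] at h1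
    have h2 : b - a < eWidth τ ω := by omega
    have h3 : b - a = 0 := Nat.eq_zero_of_dvd_of_lt h1 h2
    omega
  apply Fin.ext
  rcases le_total (s : ℕ) (s' : ℕ) with hs | hs
  · exact key _ _ hs s'.2 h
  · exact (key _ _ hs s.2 h.symm).symm

theorem eParam_surjective {n : ℕ} (hn : 0 < n) (hτ : τ ^ n = 1) :
    Function.Surjective (eParam τ) := by
  intro q
  set ω : EOrb τ := Quotient.mk _ q with hω
  have h1 : q ∈ MulAction.orbit (Subgroup.zpowers τ) (Quotient.out ω) := by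
    have : (Quotient.mk _ q : EOrb τ) = Quotient.mk _ (Quotient.out ω) := by
      rw [Quotient.out_eq]
    exact Quotient.exact this
  obtain ⟨⟨g, hg⟩, hgq⟩ := h1
  obtain ⟨k, rfl⟩ := Subgroup.mem_zpowers_iff.mp hg
  have hw := eWidth_pos τ hn hτ ω
  have hk0 : 0 ≤ k % (eWidth τ ω : ℤ) := Int.emod_nonneg _ (by exact_mod_cast hw.ne')
  have hk1 : k % (eWidth τ ω : ℤ) < eWidth τ ω := Int.emod_lt_of_pos _ (by exact_mod_cast hw)
  refine ⟨⟨ω, ⟨(k % (eWidth τ ω : ℤ)).toNat, by omega⟩⟩, ?_⟩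
  have h2 : τ ^ (k % (eWidth τ ω : ℤ)) • (Quotient.out ω) = τ ^ k • (Quotient.out ω) :=
    MulAction.zpow_mod_period_smul k
  have h3 : τ ^ (k % (eWidth τ ω : ℤ)) = τ ^ ((k % (eWidth τ ω : ℤ)).toNat) := by
    conv_lhs => rw [← Int.toNat_of_nonneg hk0]
    rw [zpow_natCast]
  rw [h3] at h2
  change (τ ^ ((k % (eWidth τ ω : ℤ)).toNat)) (Quotient.out ω) = q
  rw [← hgq]
  exact h2

/-- the shift on positions. -/
def eShift {w : ℕ} (hw : 0 < w) (s : Fin w) : Fin w := ⟨((s : ℕ) + 1) % w, Nat.mod_lt _ hw⟩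

theorem eParam_shift {n : ℕ} (hn : 0 < n) (hτ : τ ^ n = 1) (ω : EOrb τ) (s : Fin (eWidth τ ω)) :
    τ (eParam τ ⟨ω, s⟩) = eParam τ ⟨ω, eShift (eWidth_pos τ hn hτ ω) s⟩ := by
  simp only [eParam, eShift]
  have h2 : τ ^ (((s : ℕ) + 1) % eWidth τ ω) • (Quotient.out ω)
      = τ ^ ((s : ℕ) + 1) • (Quotient.out ω) := MulAction.pow_mod_period_smul _
  change _ = τ ^ (((s : ℕ) + 1) % eWidth τ ω) • (Quotient.out ω)
  rw [h2, pow_succ', mul_smul]
  rfl

end

theorem eBlock_det_ne_zero {o : Type} [Fintype o] [DecidableEq o] (w : o → ℕ)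
    (M : ∀ k : o, Matrix (Fin (w k)) (Fin (w k)) ℂ) (hM : ∀ k, (M k).det ≠ 0) :
    (Matrix.blockDiagonal' M).det ≠ 0 := by
  have h1 : Matrix.blockDiagonal' M * Matrix.blockDiagonal' (fun k => (M k)⁻¹) = 1 := by
    rw [← Matrix.blockDiagonal'_mul]
    have : (fun k => M k * (M k)⁻¹) = fun k => (1 : Matrix (Fin (w k)) (Fin (w k)) ℂ) := by
      funext k
      exact Matrix.mul_nonsing_inv _ (isUnit_iff_ne_zero.mpr (hM k))
    rw [this]
    exact Matrix.blockDiagonal'_one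
  intro h0
  have h2 := congrArg Matrix.det h1
  rw [Matrix.det_mul, h0, zero_mul, Matrix.det_one] at h2
  exact zero_ne_one h2

theorem exists_eigenbasis {ι : Type} [Fintype ι] [DecidableEq ι] (τ : Equiv.Perm ι) (n : ℕ)
    (hn : 0 < n) (hτ : τ ^ n = 1) :
    ∃ (W : Matrix ι ι ℂ) (a : ι → ℕ), W.det ≠ 0 ∧ (∀ i, a i < n) ∧
      (∀ i q, W i (τ q) = Complex.exp (2 * π * Complex.I * a i / n) * W i q) ∧
      2 * ∑ i, (a i : ℤ) = n * ((Fintype.card ι : ℤ) -
        Nat.card (MulAction.orbitRel.Quotient (Subgroup.zpowers τ) ι)) := by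
  classical
  have : Fintype (EOrb τ) := Fintype.ofFinite _
  let e : (Σ ω : EOrb τ, Fin (eWidth τ ω)) ≃ ι :=
    Equiv.ofBijective (eParam τ) ⟨eParam_injective τ, eParam_surjective τ hn hτ⟩
  have he : ∀ x, e x = eParam τ x := fun _ => rfl
  let ζ : EOrb τ → ℂ := fun ω => Complex.exp (2 * π * Complex.I / (eWidth τ ω : ℕ))
  have hζ : ∀ ω, IsPrimitiveRoot (ζ ω) (eWidth τ ω) := fun ω =>
    Complex.isPrimitiveRoot_exp _ (eWidth_pos τ hn hτ ω).ne'
  let M : ∀ ω : EOrb τ, Matrix (Fin (eWidth τ ω)) (Fin (eWidth τ ω)) ℂ := fun ω =>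
    Matrix.vandermonde (fun b : Fin (eWidth τ ω) => ζ ω ^ (b : ℕ))
  have hM : ∀ ω, (M ω).det ≠ 0 := by
    intro ω
    rw [Matrix.det_vandermonde_ne_zero_iff]
    intro b b' hbb
    exact Fin.ext ((hζ ω).pow_inj b.2 b'.2 hbb)
  let A : (Σ ω : EOrb τ, Fin (eWidth τ ω)) → ℕ := fun x => (x.2 : ℕ) * (n / eWidth τ x.1)
  have hA : ∀ x, A x = (x.2 : ℕ) * (n / eWidth τ x.1) := fun _ => rfl
  refine ⟨(Matrix.blockDiagonal' M).submatrix e.symm e.symm,
    fun i => A (e.symm i), ?_, ?_, ?_, ?_⟩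
  · rw [Matrix.det_submatrix_equiv_self]
    exact eBlock_det_ne_zero _ M hM
  · intro i
    change A (e.symm i) < n
    rw [hA]
    obtain ⟨c, hc⟩ := eWidth_dvd τ hτ (e.symm i).1
    have hw := eWidth_pos τ hn hτ (e.symm i).1
    have h1 : n / eWidth τ (e.symm i).1 = c := by
      rw [hc]; exact Nat.mul_div_cancel_left _ hw
    rw [h1]
    have hc0 : 0 < c := by
      rcases Nat.eq_zero_or_pos c with h | h
      · rw [h] at hc; omega
      · exact h
    calc ((e.symm i).2 : ℕ) * c < eWidth τ (e.symm i).1 * c :=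
          Nat.mul_lt_mul_of_pos_right (e.symm i).2.2 hc0
      _ = n := hc.symm
  · intro i q
    obtain ⟨⟨ω', b⟩, rfl⟩ := e.surjective i
    obtain ⟨⟨ω, s⟩, rfl⟩ := e.surjective q
    have h1 : τ (e ⟨ω, s⟩) = e ⟨ω, eShift (eWidth_pos τ hn hτ ω) s⟩ := eParam_shift τ hn hτ ω s
    rw [h1]
    simp only [Matrix.submatrix_apply, Equiv.symm_apply_apply, hA]
    by_cases hω : ω' = ω
    · subst hω
      rw [Matrix.blockDiagonal'_apply_eq, Matrix.blockDiagonal'_apply_eq]
      simp only [M, Matrix.vandermonde_apply, eShift]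
      have h2 : (ζ ω' ^ (b : ℕ)) ^ eWidth τ ω' = 1 := by
        rw [← pow_mul, mul_comm, pow_mul, (hζ ω').pow_eq_one, one_pow]
      rw [← pow_eq_pow_mod _ h2, pow_succ']
      congr 1
      simp only [ζ]
      rw [← Complex.exp_nat_mul]
      congr 1
      obtain ⟨c, hc⟩ := eWidth_dvd τ hτ ω'
      have hw := eWidth_pos τ hn hτ ω'
      have h3 : n / eWidth τ ω' = c := by
        rw [hc]; exact Nat.mul_div_cancel_left _ hw
      rw [h3]
      have hc0 : (c : ℂ) ≠ 0 := by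
        intro h
        have : c = 0 := by exact_mod_cast h
        rw [this] at hc; omega
      have hw0 : (eWidth τ ω' : ℂ) ≠ 0 := by exact_mod_cast hw.ne'
      have hnc : (n : ℂ) = (eWidth τ ω' : ℂ) * c := by exact_mod_cast hc
      rw [hnc]
      push_cast
      field_simp
    · rw [Matrix.blockDiagonal'_apply_ne _ _ _ hω, Matrix.blockDiagonal'_apply_ne _ _ _ hω,
        mul_zero]
  · rw [← Equiv.sum_comp e, Fintype.sum_sigma]
    simp only [Equiv.symm_apply_apply, hA]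
    have hcard : (Fintype.card ι : ℤ) = ∑ ω : EOrb τ, (eWidth τ ω : ℤ) := by
      rw [← Fintype.card_congr e, Fintype.card_sigma]
      simp
    rw [hcard, Nat.card_eq_fintype_card, Finset.card_univ.symm, Finset.cast_card,
      ← Finset.sum_sub_distrib, Finset.mul_sum, Finset.mul_sum]
    apply Finset.sum_congr rfl
    intro ω _
    obtain ⟨c, hc⟩ := eWidth_dvd τ hτ ω
    have hw := eWidth_pos τ hn hτ ω
    have h3 : n / eWidth τ ω = c := by
      rw [hc]; exact Nat.mul_div_cancel_left _ hw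
    rw [h3]
    have h4 : ∑ b : Fin (eWidth τ ω), (((b : ℕ) * c : ℕ) : ℤ)
        = (∑ b ∈ Finset.range (eWidth τ ω), (b : ℤ)) * c := by
      rw [Finset.sum_mul, ← Fin.sum_univ_eq_sum_range (fun b => (b : ℤ) * c)]
      simp
    rw [h4]
    have h5 : (∑ b ∈ Finset.range (eWidth τ ω), (b : ℤ)) * 2
        = (eWidth τ ω : ℤ) * ((eWidth τ ω : ℤ) - 1) := by
      have := Finset.sum_range_id_mul_two (eWidth τ ω)
      have h6 := congrArg (Nat.cast : ℕ → ℤ) this
      push_cast [Nat.cast_sub hw] at h6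
      simpa using h6
    have hnc : (n : ℤ) = (eWidth τ ω : ℤ) * c := by exact_mod_cast hc
    rw [hnc]
    linear_combination (c : ℤ) * h5

end Fermat.Agent.S20
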