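import Mathlib
import Fermat.Agent.S20.CuspTw
import Fermat.Agent.S20.Exponents

set_option autoImplicit false

/-!
# S20 (C6): existence of the eigenbasis for the translation
-/

namespace Fermat.Agent.S20

open UpperHalfPlane ModularForm Matrix.SpecialLinearGroup EisensteinSeries ModularFormClass Filter
open scoped MatrixGroups ModularForm Manifold Topology Real

variable {N : ℕ} [NeZero N]

theorem card_orbitRel_toPerm {G X : Type} [Group G] [MulAction G X] (g : G) :
    Nat.card (MulAction.orbitRel.Quotient (Subgroup.zpowers (MulAction.toPerm g : Equiv.Perm X)) X) =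
      Nat.card (MulAction.orbitRel.Quotient (Subgroup.zpowers g) X) := by
  refine Nat.card_congr (Quotient.congr (Equiv.refl X) fun x y => ?_)
  have hz : ∀ (n : ℤ) (y : X), ((MulAction.toPerm g : Equiv.Perm X) ^ n) y = g ^ n • y := by
    intro n y
    have : (MulAction.toPerm g : Equiv.Perm X) ^ n = MulAction.toPermHom G X (g ^ n) := by
      rw [map_zpow]; rfl
    rw [this]
    rfl
  simp only [Equiv.refl_apply]
  change x ∈ MulAction.orbit _ y ↔ x ∈ MulAction.orbit _ y
  constructor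
  · rintro ⟨⟨_, n, rfl⟩, hn⟩
    refine ⟨⟨g ^ n, n, rfl⟩, ?_⟩
    rw [← hn]
    exact (hz n y).symm
  · rintro ⟨⟨_, n, rfl⟩, hn⟩
    refine ⟨⟨(MulAction.toPerm g : Equiv.Perm X) ^ n, n, rfl⟩, ?_⟩
    rw [← hn]
    exact hz n y

theorem exists_isEigen (N : ℕ) [NeZero N] :
    ∃ (W : Matrix (Quo N) (Quo N) ℂ) (a : Quo N → ℕ), IsEigen W a ∧
      2 * ∑ i, (a i : ℤ) = N * ((Nat.card (Quo N) : ℤ) -
        Nat.card (MulAction.orbitRel.Quotient (Subgroup.zpowers (sl ModularGroup.T)) (Quo N))) := by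
  have hτ : (MulAction.toPerm (sl ModularGroup.T) : Equiv.Perm (Quo N)) ^ N = 1 := by
    have h1 : (MulAction.toPerm (sl ModularGroup.T) : Equiv.Perm (Quo N)) ^ N =
        MulAction.toPermHom _ (Quo N) ((sl ModularGroup.T) ^ N) := by
      rw [map_pow]; rfl
    have h2 : (sl ModularGroup.T) ^ N = sl (ModularGroup.T ^ (N : ℤ)) := by
      apply Subtype.ext
      simp
    rw [h1, h2]
    ext q
    exact sl_T_pow_smul q
  obtain ⟨W, a, hW, ha, hWa, hsum⟩ := exists_eigenbasis
    (MulAction.toPerm (sl ModularGroup.T) : Equiv.Perm (Quo N)) N (Nat.pos_of_ne_zero (NeZero.ne N)) hτ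
  refine ⟨W, a, ⟨hW, ha, fun i q => hWa i q⟩, ?_⟩
  rw [hsum, card_orbitRel_toPerm, ← Nat.card_eq_fintype_card]
  rfl

end Fermat.Agent.S20
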