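import Mathlib
import Fermat.Agent.S20.CuspTw

set_option autoImplicit false

/-!
# S20 (C6): the matrix of leading coefficients is invertible
-/

namespace Fermat.Agent.S20

open UpperHalfPlane ModularForm Matrix.SpecialLinearGroup EisensteinSeries ModularFormClass Filter
open scoped MatrixGroups ModularForm Manifold Topology Real

local notation "𝕢" => Function.Periodic.qParam

variable {N : ℕ} [NeZero N] {k : ℤ}

/-- the matrix of leading coefficients. -/
noncomputable def GenData.lead (D : GenData N (Quo N)) (W : Matrix (Quo N) (Quo N) ℂ)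
    (a : Quo N → ℕ) : Matrix (Quo N) (Quo N) ℂ := fun i j => twc W (D.f j) i (a i)

theorem comp_sum {ι : Type} (s : Finset ι) (g : ι → MF N k) (q : Quo N) (z : ℍ) :
    comp (∑ j ∈ s, g j) q z = ∑ j ∈ s, comp (g j) q z := by
  have h1 := congrFun (map_sum (ev k z) g s) q
  simpa using h1

variable {W : Matrix (Quo N) (Quo N) ℂ} {a : Quo N → ℕ}

theorem IsEigen.det_lead_ne_zero (h : IsEigen W a) (D : GenData N (Quo N)) :
    (D.lead W a).det ≠ 0 := by
  intro h0
  obtain ⟨v, hv, hLv⟩ := Matrix.exists_mulVec_eq_zero_iff.mpr h0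
  set K : ℤ := 4 + ∑ j, D.wt j with hK
  have hle : ∀ j, D.wt j ≤ ∑ j, D.wt j := fun j =>
    Finset.single_le_sum (f := D.wt) (fun i _ => D.wt_nonneg i) (Finset.mem_univ j)
  have hK4 : ∀ j, 4 ≤ K - D.wt j := fun j => by have := hle j; omega
  have hKe : ∀ j, Even (K - D.wt j) := fun j =>
    ((by decide : Even (4 : ℤ)).add (Finset.even_sum _ fun i _ => D.wt_even i)).sub (D.wt_even j)
  choose b hb using fun j => exists_levelOne_tendsto_one (hK4 j) (hKe j)
  set hf : MF N K := ∑ j, v j • mulL (sub_add_cancel K (D.wt j)) (b j) (D.f j) with hhf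
  have hcomp : ∀ q z, comp hf q z = ∑ j, v j * (b j z * comp (D.f j) q z) := by
    intro q z
    rw [hhf, comp_sum]
    refine Finset.sum_congr rfl fun j _ => ?_
    rw [comp_smul, comp_mulL]
    rfl
  have htw : ∀ i z, tw W hf i z = ∑ j, v j * (b j z * tw W (D.f j) i z) := by
    intro i z
    unfold tw
    simp only [hcomp, Finset.mul_sum]
    rw [Finset.sum_comm]
    refine Finset.sum_congr rfl fun j _ => Finset.sum_congr rfl fun q _ => ?_
    ring
  have hlead : ∀ i, twc W hf i (a i) = 0 := by
    intro i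
    have h1 := h.tendsto_tw hf i
    have h2 : Tendsto (fun z : ℍ => tw W hf i z / 𝕢 (N : ℝ) z ^ a i) atImInfty
        (𝓝 (∑ j, v j * (1 * D.lead W a i j))) := by
      have h3 : (fun z : ℍ => tw W hf i z / 𝕢 (N : ℝ) z ^ a i) =
          fun z : ℍ => ∑ j, v j * (b j z * (tw W (D.f j) i z / 𝕢 (N : ℝ) z ^ a i)) := by
        funext z
        rw [htw, Finset.sum_div]
        refine Finset.sum_congr rfl fun j _ => ?_
        ring
      rw [h3]
      exact tendsto_finsetSum _ fun j _ =>
        tendsto_const_nhds.mul ((hb j).mul (h.tendsto_tw (D.f j) i))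
    rw [tendsto_nhds_unique h1 h2]
    have h4 := congrFun hLv i
    simp only [Matrix.mulVec, dotProduct, Pi.zero_apply] at h4
    rw [← h4]
    refine Finset.sum_congr rfl fun j _ => ?_
    ring
  obtain ⟨g, hg⟩ := exists_eq_discriminant_mul hf (fun q n hn => h.coeff_eq_zero hf hlead q hn)
  obtain ⟨a', ha'⟩ := D.gen (K - 12) g
  set c : (j : Quo N) → ModularForm 𝒮ℒ (K - D.wt j) := fun j =>
    v j • b j - CuspForm.toModularFormₗ (CuspForm.ofMulDiscriminant
      (ModularForm.mcast (by ring : K - 12 - D.wt j = K - D.wt j - 12) (a' j))) with hc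
  have hcz : ∀ j z, c j z = v j * b j z - ModularForm.discriminant z * a' j z := by
    intro j z
    rfl
  have hsum : (∑ j, ⇑(c j) * ⇑(D.f j) : ℍ → ℂ) = 0 := by
    funext z
    have h1 : hf z = ∑ j, v j * (b j z * D.f j z) := by
      have := hcomp (QuotientGroup.mk 1) z
      simpa only [comp_one] using this
    have h2 : hf z = ModularForm.discriminant z * ∑ j, a' j z * D.f j z := by
      rw [hg, Pi.mul_apply, ha']
      simp
    simp only [Finset.sum_apply, Pi.mul_apply, Pi.zero_apply, hcz, sub_mul, Finset.sum_sub_distrib]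
    rw [sub_eq_zero]
    calc ∑ j, v j * b j z * D.f j z = hf z := by
          rw [h1]; exact Finset.sum_congr rfl fun j _ => by ring
      _ = _ := by
          rw [h2, Finset.mul_sum]; exact Finset.sum_congr rfl fun j _ => by ring
  have hc0 := D.ind K c hsum
  apply hv
  funext j
  have h1 : Tendsto (fun z : ℍ => v j * b j z) atImInfty (𝓝 (v j * 1)) :=
    tendsto_const_nhds.mul (hb j)
  have h2 : Tendsto (fun z : ℍ => v j * b j z) atImInfty (𝓝 0) := by
    have h3 : (fun z : ℍ => v j * b j z) = fun z : ℍ => ModularForm.discriminant z * a' j z := by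
      funext z
      have := hcz j z
      rw [hc0 j] at this
      exact (sub_eq_zero.mp this.symm)
    rw [h3]
    exact discriminant_isZeroAtImInfty.mul_boundedAtFilter (ModularFormClass.bdd_at_infty (a' j))
  have := tendsto_nhds_unique h1 h2
  simpa using this

end Fermat.Agent.S20
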