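import Mathlib

set_option autoImplicit false

/-!
# S20 (C4): uniqueness for holomorphic linear ODE systems on the upper half plane
-/

namespace Fermat.Agent.S20

open UpperHalfPlane Filter
open scoped Manifold Topology Real

theorem le_analyticOrderAt_sum {ι : Type} (s : Finset ι) (g : ι → ℂ → ℂ) (z : ℂ) (m : ℕ∞)
    (h : ∀ l ∈ s, m ≤ analyticOrderAt (g l) z) :
    m ≤ analyticOrderAt (∑ l ∈ s, g l) z := by
  classical
  induction s using Finset.induction_on with
  | empty =>
    have : analyticOrderAt (0 : ℂ → ℂ) z = ⊤ := by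
      rw [analyticOrderAt_eq_top]; simp
    simp [this]
  | insert a s ha ih =>
    rw [Finset.sum_insert ha]
    refine le_trans (le_min (h a (Finset.mem_insert_self a s)) ?_) le_analyticOrderAt_add
    exact ih fun l hl => h l (Finset.mem_insert_of_mem hl)

theorem eq_zero_of_linear_ode {ι : Type} [Fintype ι] (y : ι → ℍ → ℂ) (B : ι → ι → ℍ → ℂ)
    (hy : ∀ j, MDiff (y j)) (hB : ∀ l j, MDiff (B l j))
    (hode : ∀ j, Derivative.normalizedDerivOfComplex (y j) = ∑ l, y l * B l j)
    (z₀ : ℍ) (h0 : ∀ j, y j z₀ = 0) : ∀ j, y j = 0 := by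
  classical
  have hYan : ∀ j, AnalyticOnNhd ℂ (y j ∘ ofComplex) upperHalfPlaneSet := fun j =>
    (UpperHalfPlane.mdifferentiable_iff.mp (hy j)).analyticOnNhd isOpen_upperHalfPlaneSet
  have hBan : ∀ l j, AnalyticOnNhd ℂ (B l j ∘ ofComplex) upperHalfPlaneSet := fun l j =>
    (UpperHalfPlane.mdifferentiable_iff.mp (hB l j)).analyticOnNhd isOpen_upperHalfPlaneSet
  have hz0 : (z₀ : ℂ) ∈ upperHalfPlaneSet := z₀.im_pos
  have h2pi : (2 * π * Complex.I : ℂ) ≠ 0 := by
    simp [Real.pi_ne_zero]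
  have hode' : ∀ j, ∀ w ∈ upperHalfPlaneSet, deriv (y j ∘ ofComplex) w =
      (((fun _ => (2 * π * Complex.I : ℂ)) *
        ∑ l, (y l ∘ ofComplex) * (B l j ∘ ofComplex) : ℂ → ℂ)) w := by
    intro j w hw
    have h1 := congrFun (hode j) ⟨w, hw⟩
    simp only [Derivative.normalizedDerivOfComplex, Finset.sum_apply, Pi.mul_apply] at h1
    simp only [Pi.mul_apply, Finset.sum_apply, Function.comp_apply, ofComplex_apply_of_im_pos hw]
    rw [← h1]
    change _ = 2 * π * Complex.I * ((2 * π * Complex.I)⁻¹ * deriv (y j ∘ ofComplex) w)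
    field_simp
  have key : ∀ j, analyticOrderAt (y j ∘ ofComplex) z₀ = ⊤ := by
    by_contra hcon
    rw [not_forall] at hcon
    obtain ⟨j1, hj1⟩ := hcon
    obtain ⟨j0, -, hmin⟩ := Finset.exists_min_image Finset.univ
      (fun j => analyticOrderAt (y j ∘ ofComplex) (z₀ : ℂ)) ⟨j1, Finset.mem_univ _⟩
    have hm : analyticOrderAt (y j0 ∘ ofComplex) (z₀ : ℂ) ≠ ⊤ := by
      intro h
      have := hmin j1 (Finset.mem_univ _)
      rw [h, top_le_iff] at this
      exact hj1 this
    have h1 : analyticOrderAt (deriv (y j0 ∘ ofComplex)) (z₀ : ℂ) + 1 =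
        analyticOrderAt (y j0 ∘ ofComplex) (z₀ : ℂ) := by
      have := (hYan j0 _ hz0).analyticOrderAt_deriv_add_one
      have hv : (y j0 ∘ ofComplex) (z₀ : ℂ) = 0 := by simp [h0]
      rw [hv] at this
      simp only [sub_zero] at this
      exact this
    have h2 : analyticOrderAt (y j0 ∘ ofComplex) (z₀ : ℂ) ≤
        analyticOrderAt (deriv (y j0 ∘ ofComplex)) (z₀ : ℂ) := by
      have hev : deriv (y j0 ∘ ofComplex) =ᶠ[𝓝 (z₀ : ℂ)] (((fun _ => (2 * π * Complex.I : ℂ)) *
          ∑ l, (y l ∘ ofComplex) * (B l j0 ∘ ofComplex) : ℂ → ℂ)) := by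
        filter_upwards [isOpen_upperHalfPlaneSet.mem_nhds hz0] with w hw
        exact hode' j0 w hw
      rw [analyticOrderAt_congr hev]
      have hsum : AnalyticAt ℂ (∑ l, (y l ∘ ofComplex) * (B l j0 ∘ ofComplex)) (z₀ : ℂ) := by
        have : ∀ l ∈ Finset.univ, AnalyticAt ℂ ((y l ∘ ofComplex) * (B l j0 ∘ ofComplex))
            (z₀ : ℂ) := fun l _ => (hYan l _ hz0).mul (hBan l j0 _ hz0)
        exact Finset.analyticAt_sum _ this
      rw [analyticOrderAt_mul analyticAt_const hsum]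
      refine le_trans ?_ le_add_self
      apply le_analyticOrderAt_sum
      intro l _
      rw [analyticOrderAt_mul (hYan l _ hz0) (hBan l j0 _ hz0)]
      exact le_trans (hmin l (Finset.mem_univ _)) le_self_add
    rw [← h1] at h2 hm
    have h3 : analyticOrderAt (deriv (y j0 ∘ ofComplex)) (z₀ : ℂ) ≠ ⊤ := by
      intro h; rw [h] at hm; simp at hm
    obtain ⟨n, hn⟩ := ENat.ne_top_iff_exists.mp h3
    rw [← hn] at h2
    have : (n : ℕ∞) + 1 ≤ n := h2
    have h4 : ((n + 1 : ℕ) : ℕ∞) ≤ (n : ℕ∞) := by exact_mod_cast this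
    have := Nat.cast_le.mp h4
    omega
  intro j
  have hpre : IsPreconnected upperHalfPlaneSet :=
    (convex_halfSpace_im_gt 0).isPreconnected
  have h5 := (hYan j).eqOn_zero_of_preconnected_of_eventuallyEq_zero hpre hz0
    (analyticOrderAt_eq_top.mp (key j))
  funext z
  have := h5 z.im_pos
  simpa using this

end Fermat.Agent.S20
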