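import Mathlib
import Fermat.Agent.S20.Basic

set_option autoImplicit false

/-!
# S20 (C2): the Serre derivative of a form on `Γ₀(N)` is a form on `Γ₀(N)`
-/

namespace Fermat.Agent.S20

open UpperHalfPlane ModularForm Matrix.SpecialLinearGroup EisensteinSeries ModularFormClass Filter
open scoped MatrixGroups ModularForm Manifold Topology Real

/-- Cauchy estimate: the normalised derivative of a bounded holomorphic function is bounded. -/
theorem isBoundedAtImInfty_normalizedDeriv {F : ℍ → ℂ} (hF : MDiff F)
    (hb : IsBoundedAtImInfty F) : IsBoundedAtImInfty (Derivative.normalizedDerivOfComplex F) := by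
  rw [isBoundedAtImInfty_iff] at hb ⊢
  obtain ⟨M, A, hMA⟩ := hb
  refine ⟨‖(2 * π * Complex.I : ℂ)⁻¹‖ * M, max A 0 + 2, fun z hz => ?_⟩
  have hdiff := UpperHalfPlane.mdifferentiable_iff.mp hF
  have hsub : Metric.closedBall (z : ℂ) 1 ⊆ upperHalfPlaneSet ∩ {w : ℂ | A ≤ w.im} := by
    intro w hw
    rw [Metric.mem_closedBall, Complex.dist_eq] at hw
    have h1 : |(w - z).im| ≤ 1 := (Complex.abs_im_le_norm _).trans hw
    rw [Complex.sub_im, abs_le] at h1
    have h2 : max A 0 + 2 ≤ (z : ℂ).im := hz
    have h3 := le_max_left A 0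
    have h4 := le_max_right A 0
    constructor
    · show 0 < w.im
      linarith [h1.1]
    · show A ≤ w.im
      linarith [h1.1]
  have hd : DiffContOnCl ℂ (F ∘ ofComplex) (Metric.ball (z : ℂ) 1) := by
    apply DifferentiableOn.diffContOnCl
    rw [closure_ball _ one_ne_zero]
    exact hdiff.mono fun w hw => (hsub hw).1
  have hC : ∀ w ∈ Metric.sphere (z : ℂ) 1, ‖(F ∘ ofComplex) w‖ ≤ M := by
    intro w hw
    have hw' := hsub (Metric.sphere_subset_closedBall hw)
    rw [Function.comp_apply, ofComplex_apply_of_im_pos hw'.1]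
    exact hMA _ hw'.2
  have := Complex.norm_deriv_le_of_forall_mem_sphere_norm_le one_pos hd hC
  rw [div_one] at this
  rw [Derivative.normalizedDerivOfComplex, norm_mul]
  gcongr

theorem isBoundedAtImInfty_serreDerivative {F : ℍ → ℂ} (k : ℂ) (hF : MDiff F)
    (hb : IsBoundedAtImInfty F) : IsBoundedAtImInfty (Derivative.serreDerivative k F) := by
  have h1 := isBoundedAtImInfty_normalizedDeriv hF hb
  have h2 : IsBoundedAtImInfty (fun z : ℍ => k * 12⁻¹ * E2 z * F z) := by
    have h3 : IsBoundedAtImInfty (fun _ : ℍ => k * 12⁻¹) := Filter.const_boundedAtFilter _ _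
    exact (h3.mul isBoundedAtImInfty_E2).mul hb
  exact h1.sub h2

variable {N : ℕ} [NeZero N] {k : ℤ}

/-- the Serre derivative as a modular form -/
noncomputable def serreMF (f : MF N k) : MF N (k + 2) where
  toFun := Derivative.serreDerivative k ⇑f
  slash_action_eq' := by
    rintro _ ⟨γ, hγ, rfl⟩
    have h1 : (⇑f : ℍ → ℂ) ∣[k] γ = ⇑f :=
      SlashInvariantFormClass.slash_action_eq f _ ⟨γ, hγ, rfl⟩
    exact Derivative.serreDerivative_slash_invariant (ModularFormClass.holo f) h1
  holo' := Derivative.serreDerivative_mdifferentiable _ (ModularFormClass.holo f)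
  bdd_at_cusps' {c} hc := by
    rw [Subgroup.IsArithmetic.isCusp_iff_isCusp_SL2Z] at hc
    rw [OnePoint.isBoundedAt_iff_forall_SL2Z hc]
    intro γ _
    rw [Derivative.serreDerivative_slash_equivariant (ModularFormClass.holo f)]
    exact isBoundedAtImInfty_serreDerivative _ ((ModularFormClass.holo f).slash k _)
      (ModularFormClass.bdd_at_infty_slash f γ)

theorem exists_serreMF (f : MF N k) : ∃ g : MF N (k + 2),
    ⇑g = Derivative.serreDerivative k ⇑f ∧
    ∀ q : Quo N, comp g q = Derivative.serreDerivative k (comp f q) := by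
  refine ⟨serreMF f, rfl, fun q => ?_⟩
  obtain ⟨γ, rfl⟩ := exists_mk q
  rw [comp_mk, comp_mk]
  exact Derivative.serreDerivative_slash_equivariant (ModularFormClass.holo f)

end Fermat.Agent.S20
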