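import Mathlib
import Fermat.Agent.S20.GenDefs
import Fermat.Agent.S22.Assembly

set_option autoImplicit false

namespace Fermat.Agent.S20

open UpperHalfPlane ModularForm Matrix.SpecialLinearGroup EisensteinSeries ModularFormClass Filter
open scoped MatrixGroups ModularForm Manifold Topology Real

variable {N : ℕ} [NeZero N] {k : ℤ}

omit [NeZero N] in
theorem isMono_ne_zero {p : PowerSeries ℂ} (hp : S22.IsMono N p) : p ≠ 0 := by
  obtain ⟨C, e, U, hC, rfl⟩ := hp
  intro h
  have h1 := congrArg (PowerSeries.coeff e) h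
  rw [PowerSeries.coeff_C_mul, S22.coeff_phi, PowerSeries.coeff_X_pow_mul', if_pos le_rfl,
    Nat.sub_self, map_zero] at h1
  rcases mul_eq_zero.mp h1 with h2 | h2
  · exact hC h2
  · have h3 : IsUnit (PowerSeries.constantCoeff (U : PowerSeries (S22.cycRing N))) :=
      (PowerSeries.isUnit_iff_constantCoeff.mp U.isUnit)
    apply h3.ne_zero
    apply Subtype.ext
    simpa using h2

/-- the form `N¹¹ Δ(N z)`. -/
noncomputable def uForm (N : ℕ) [NeZero N] : MF N 12 := S22.hForm N (NeZero.ne N)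

theorem uForm_ne_comp {c : Quo N} (hc : c ≠ QuotientGroup.mk 1) : ⇑(uForm N) ≠ comp (uForm N) c := by
  obtain ⟨P, hP1, hP2, hP3⟩ := S22.discriminant_qExpansion_int
  have hP : S22.DeltaInt P := ⟨hP1, hP2, hP3⟩
  have h := (S22.quotient_data (N := N) hP c).2.2 hc
  intro heq
  apply isMono_ne_zero h
  have : SlashInvariantForm.quotientFunc (S22.hForm N (NeZero.ne N)) c = ⇑(S22.hForm N (NeZero.ne N)) :=
    heq.symm
  rw [this, sub_self]

theorem comp_uForm_injective : Function.Injective (comp (uForm N)) := by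
  intro q q' h
  by_contra hne
  obtain ⟨γ, rfl⟩ := exists_mk q
  have h1 := congrArg (fun F : ℍ → ℂ => F ∣[(12 : ℤ)] γ) h
  simp only [comp_slash] at h1
  have h2 : (sl γ)⁻¹ • (QuotientGroup.mk (sl γ) : Quo N) = QuotientGroup.mk 1 := by
    rw [inv_smul_eq_iff]
    show _ = (QuotientGroup.mk (sl γ * 1) : Quo N)
    rw [mul_one]
  rw [h2, comp_one] at h1
  refine uForm_ne_comp (c := (sl γ)⁻¹ • q') ?_ h1
  intro h3
  apply hne
  rw [← h2] at h3
  exact (smul_left_cancel _ h3).symm

theorem exists_comp_uForm_injective (N : ℕ) [NeZero N] :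
    ∃ z : ℍ, Function.Injective (fun q : Quo N => comp (uForm N) q z) := by
  classical
  let s : Finset (Quo N × Quo N) := Finset.univ.filter fun p => p.1 ≠ p.2
  have hprod : ∏ p ∈ s, (comp (uForm N) p.1 - comp (uForm N) p.2) ≠ 0 := by
    intro h
    rw [UpperHalfPlane.prod_eq_zero_iff (fun p _ => (comp_mdiff _ _).sub (comp_mdiff _ _))] at h
    obtain ⟨p, hp, hp0⟩ := h
    exact (Finset.mem_filter.mp hp).2 (comp_uForm_injective (sub_eq_zero.mp hp0))
  obtain ⟨z, hz⟩ : ∃ z, (∏ p ∈ s, (comp (uForm N) p.1 - comp (uForm N) p.2)) z ≠ 0 := by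
    by_contra hcon
    push Not at hcon
    exact hprod (funext hcon)
  refine ⟨z, fun q q' hqq => ?_⟩
  by_contra hne
  apply hz
  rw [Finset.prod_apply]
  apply Finset.prod_eq_zero (i := (q, q')) (Finset.mem_filter.mpr ⟨Finset.mem_univ _, hne⟩)
  simpa [sub_eq_zero] using hqq

omit [NeZero N] in
/-- slashing a representation in terms of the generators. -/
theorem GenData.comp_eq_sum {ι : Type} [Fintype ι] (D : GenData N ι) {k : ℤ} (h : MF N k)
    (a : (j : ι) → ModularForm 𝒮ℒ (k - D.wt j))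
    (heq : (⇑h : ℍ → ℂ) = ∑ j, ⇑(a j) * ⇑(D.f j)) (q : Quo N) :
    comp h q = ∑ j, ⇑(a j) * comp (D.f j) q := by
  obtain ⟨γ, rfl⟩ := exists_mk q
  simp only [comp_mk]
  rw [heq, SlashAction.sum_slash]
  refine Finset.sum_congr rfl fun j _ => ?_
  have hw : (k - D.wt j) + D.wt j = k := by ring
  have h1 := ModularForm.mul_slash_SL2 (k - D.wt j) (D.wt j) γ⁻¹ ⇑(a j) ⇑(D.f j)
  rw [hw] at h1
  rw [h1]
  congr 1
  exact SlashInvariantFormClass.slash_action_eq (a j) _ ⟨γ⁻¹, rfl⟩

theorem comp_pow (u : MF N k) (e : ℕ) (q : Quo N) : comp (u.pow e) q = (comp u q) ^ e := by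
  obtain ⟨γ, rfl⟩ := exists_mk q
  simp only [comp_mk, ModularForm.coe_pow]
  exact S22.pow_slash_SL2 k γ⁻¹ u e

theorem GenData.exists_det_ne_zero (D : GenData N (Quo N)) : ∃ z, (D.F z).det ≠ 0 := by
  classical
  obtain ⟨z, hz⟩ := exists_comp_uForm_injective N
  refine ⟨z, fun hdet => ?_⟩
  obtain ⟨w, hw0, hw⟩ := Matrix.exists_vecMul_eq_zero_iff.mpr hdet
  -- the functional vanishes on all monomials
  have hmono : ∀ e : ℕ, ∑ q, w q * (comp (uForm N) q z) ^ e = 0 := by
    intro e
    obtain ⟨a, ha⟩ := D.gen _ ((uForm N).pow e)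
    have h1 : ∀ q, (comp (uForm N) q z) ^ e = ∑ j, a j z * D.F z q j := by
      intro q
      have := congrFun (D.comp_eq_sum _ a ha q) z
      rw [comp_pow] at this
      simpa [GenData.F_apply] using this
    simp_rw [h1, Finset.mul_sum]
    rw [Finset.sum_comm]
    refine Finset.sum_eq_zero fun j _ => ?_
    have h2 := congrFun hw j
    simp only [Matrix.vecMul, dotProduct, Pi.zero_apply] at h2
    calc ∑ q, w q * (a j z * D.F z q j) = a j z * ∑ q, w q * D.F z q j := by
          rw [Finset.mul_sum]; refine Finset.sum_congr rfl fun q _ => by ring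
      _ = 0 := by rw [h2, mul_zero]
  have hpoly : ∀ p : Polynomial ℂ, ∑ q, w q * p.eval (comp (uForm N) q z) = 0 := by
    intro p
    simp_rw [Polynomial.eval_eq_sum_range, Finset.mul_sum]
    rw [Finset.sum_comm]
    refine Finset.sum_eq_zero fun e _ => ?_
    calc ∑ q, w q * (p.coeff e * comp (uForm N) q z ^ e)
        = p.coeff e * ∑ q, w q * comp (uForm N) q z ^ e := by
          rw [Finset.mul_sum]; refine Finset.sum_congr rfl fun q _ => by ring
      _ = 0 := by rw [hmono e, mul_zero]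
  apply hw0
  funext q₀
  have h := hpoly (∏ q ∈ Finset.univ.erase q₀, (Polynomial.X - Polynomial.C (comp (uForm N) q z)))
  rw [Finset.sum_eq_single q₀] at h
  · rw [Polynomial.eval_prod] at h
    rcases mul_eq_zero.mp h with h1 | h1
    · exact h1
    · exfalso
      obtain ⟨q, hq, hq0⟩ := Finset.prod_eq_zero_iff.mp h1
      simp only [Polynomial.eval_sub, Polynomial.eval_X, Polynomial.eval_C, sub_eq_zero] at hq0
      exact (Finset.ne_of_mem_erase hq) (hz hq0).symm
  · intro q _ hq
    rw [Polynomial.eval_prod, Finset.prod_eq_zero (i := q) (Finset.mem_erase.mpr ⟨hq, Finset.mem_univ _⟩)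
      (by simp), mul_zero]
  · simp

end Fermat.Agent.S20
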