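import Mathlib
import Fermat.Agent.S20.GenDefs
import Fermat.Agent.S20.Serre
import Fermat.Agent.S20.ODE
import Fermat.Agent.S20.Vandermonde

set_option autoImplicit false

/-!
# S20 (C3): the matrix of components of the generators is invertible at every point
-/

namespace Fermat.Agent.S20

open UpperHalfPlane ModularForm Matrix.SpecialLinearGroup EisensteinSeries ModularFormClass Filter
open scoped MatrixGroups ModularForm Manifold Topology Real

variable {N : ℕ} [NeZero N] {k : ℤ}

theorem normalizedDeriv_sum_smul {ι : Type} (s : Finset ι) (w : ι → ℂ) (g : ι → ℍ → ℂ)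
    (hg : ∀ i, MDiff (g i)) :
    Derivative.normalizedDerivOfComplex (∑ i ∈ s, w i • g i) =
      ∑ i ∈ s, w i • Derivative.normalizedDerivOfComplex (g i) ∧ MDiff (∑ i ∈ s, w i • g i) := by
  classical
  induction s using Finset.induction_on with
  | empty =>
    refine ⟨?_, ?_⟩
    · simp only [Finset.sum_empty]
      exact Derivative.normalizedDerivOfComplex_const 0
    · simp only [Finset.sum_empty]
      exact mdifferentiable_const
  | insert a s ha ih =>
    have h1 : MDiff (w a • g a) := (hg a).const_smul (w a)
    refine ⟨?_, ?_⟩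
    · rw [Finset.sum_insert ha, Finset.sum_insert ha,
        Derivative.normalizedDerivOfComplex_add _ _ h1 ih.2, ih.1,
        Derivative.normalizedDerivOfComplex_smul _ _ (hg a)]
    · rw [Finset.sum_insert ha]
      exact h1.add ih.2

theorem GenData.det_F_ne_zero_of_exists (D : GenData N (Quo N))
    (hex : ∃ z, (D.F z).det ≠ 0) (z₀ : ℍ) : (D.F z₀).det ≠ 0 := by
  classical
  intro hdet
  obtain ⟨w, hw0, hw⟩ := Matrix.exists_vecMul_eq_zero_iff.mpr hdet
  -- the Serre derivatives of the generators
  choose g hg1 hg2 using fun j => exists_serreMF (D.f j)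
  choose a ha using fun j => D.gen (D.wt j + 2) (g j)
  set y : Quo N → ℍ → ℂ := fun j => ∑ q, w q • comp (D.f j) q with hy
  set B : Quo N → Quo N → ℍ → ℂ := fun l j =>
    ⇑(a j l) + (if l = j then (fun z => (D.wt j : ℂ) * 12⁻¹ * E2 z) else 0) with hB
  have hymd : ∀ j, MDiff (y j) := fun j =>
    (normalizedDeriv_sum_smul Finset.univ w (fun q => comp (D.f j) q)
      (fun q => comp_mdiff _ q)).2
  have hBmd : ∀ l j, MDiff (B l j) := by
    intro l j
    refine (ModularFormClass.holo (a j l)).add ?_
    split_ifs
    · exact (mdifferentiable_const (c := (D.wt j : ℂ) * 12⁻¹)).mul E2_mdifferentiable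
    · exact mdifferentiable_const
  have hode : ∀ j, Derivative.normalizedDerivOfComplex (y j) = ∑ l, y l * B l j := by
    intro j
    rw [hy]
    simp only
    rw [(normalizedDeriv_sum_smul Finset.univ w (fun q => comp (D.f j) q)
      (fun q => comp_mdiff _ q)).1]
    funext z
    have h1 : ∀ q, Derivative.normalizedDerivOfComplex (comp (D.f j) q) z =
        (∑ l, (a j l) z * comp (D.f l) q z) + (D.wt j : ℂ) * 12⁻¹ * E2 z * comp (D.f j) q z := by
      intro q
      have h2 := congrFun (D.comp_eq_sum (g j) (a j) (ha j) q) z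
      rw [hg2 j q] at h2
      simp only [Derivative.serreDerivative_apply, Finset.sum_apply, Pi.mul_apply] at h2
      rw [← h2]; ring
    simp only [Finset.sum_apply, Pi.smul_apply, smul_eq_mul, Pi.mul_apply, hB, Pi.add_apply]
    simp_rw [h1]
    simp only [mul_add, Finset.sum_add_distrib, Finset.mul_sum, Finset.sum_mul]
    congr 1
    · rw [Finset.sum_comm]
      refine Finset.sum_congr rfl fun l _ => Finset.sum_congr rfl fun q _ => ?_
      ring
    · rw [Finset.sum_comm]
      refine Finset.sum_congr rfl fun q _ => ?_
      rw [Finset.sum_eq_single j]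
      · simp; ring
      · intro l _ hl
        simp [hl]
      · intro h; exact absurd (Finset.mem_univ j) h
  have h0 : ∀ j, y j z₀ = 0 := by
    intro j
    have := congrFun hw j
    simpa [Matrix.vecMul, dotProduct, GenData.F_apply, hy] using this
  have hall := eq_zero_of_linear_ode y B hymd hBmd hode z₀ h0
  obtain ⟨z, hz⟩ := hex
  apply hz
  apply Matrix.exists_vecMul_eq_zero_iff.mp
  refine ⟨w, hw0, ?_⟩
  funext j
  have := congrFun (hall j) z
  simpa [Matrix.vecMul, dotProduct, GenData.F_apply, hy] using this

theorem GenData.det_F_ne_zero (D : GenData N (Quo N)) (z : ℍ) : (D.F z).det ≠ 0 :=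
  D.det_F_ne_zero_of_exists D.exists_det_ne_zero z

end Fermat.Agent.S20
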