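import Mathlib
import Fermat.Agent.S20.CuspSat
import Fermat.Agent.S20.Nonvanishing

set_option autoImplicit false

/-!
# S20 (C6): factorisation of the matrix `F` near the cusp
-/

namespace Fermat.Agent.S20

open UpperHalfPlane ModularForm Matrix.SpecialLinearGroup EisensteinSeries ModularFormClass Filter
open scoped MatrixGroups ModularForm Manifold Topology Real

local notation "𝕢" => Function.Periodic.qParam

variable {N : ℕ} [NeZero N] {k : ℤ}

/-- the regularised matrix. -/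
noncomputable def GenData.U (D : GenData N (Quo N)) (W : Matrix (Quo N) (Quo N) ℂ)
    (a : Quo N → ℕ) (z : ℍ) : Matrix (Quo N) (Quo N) ℂ :=
  fun i j => tw W (D.f j) i z / 𝕢 (N : ℝ) z ^ a i

theorem GenData.W_mul_F (D : GenData N (Quo N)) (W : Matrix (Quo N) (Quo N) ℂ)
    (a : Quo N → ℕ) (z : ℍ) :
    W * D.F z = Matrix.diagonal (fun i => 𝕢 (N : ℝ) z ^ a i) * D.U W a z := by
  ext i j
  rw [Matrix.diagonal_mul, Matrix.mul_apply]
  have hq : 𝕢 (N : ℝ) z ^ a i ≠ 0 := pow_ne_zero _ (Function.Periodic.qParam_ne_zero _)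
  show ∑ q, W i q * comp (D.f j) q z = 𝕢 (N : ℝ) z ^ a i * (tw W (D.f j) i z / 𝕢 (N : ℝ) z ^ a i)
  rw [mul_div_cancel₀ _ hq]
  rfl

theorem GenData.det_W_mul_det_F (D : GenData N (Quo N)) (W : Matrix (Quo N) (Quo N) ℂ)
    (a : Quo N → ℕ) (z : ℍ) :
    W.det * (D.F z).det = 𝕢 (N : ℝ) z ^ (∑ i, a i) * (D.U W a z).det := by
  rw [← Matrix.det_mul, D.W_mul_F W a z, Matrix.det_mul, Matrix.det_diagonal,
    Finset.prod_pow_eq_pow_sum]

variable {W : Matrix (Quo N) (Quo N) ℂ} {a : Quo N → ℕ}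

theorem IsEigen.det_U_ne_zero (h : IsEigen W a) (D : GenData N (Quo N)) (z : ℍ) :
    (D.U W a z).det ≠ 0 := by
  intro h0
  have h1 := D.det_W_mul_det_F W a z
  rw [h0, mul_zero] at h1
  exact mul_ne_zero h.det_ne (D.det_F_ne_zero z) h1

theorem IsEigen.tendsto_U (h : IsEigen W a) (D : GenData N (Quo N)) :
    Tendsto (D.U W a) atImInfty (𝓝 (D.lead W a)) := by
  refine tendsto_pi_nhds.mpr fun i => ?_
  refine tendsto_pi_nhds.mpr fun j => ?_
  exact h.tendsto_tw (D.f j) i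

theorem IsEigen.tendsto_det_U (h : IsEigen W a) (D : GenData N (Quo N)) :
    Tendsto (fun z => (D.U W a z).det) atImInfty (𝓝 (D.lead W a).det) :=
  ((Continuous.matrix_det continuous_id).tendsto (D.lead W a)).comp (h.tendsto_U D)

theorem IsEigen.tendsto_inv_U (h : IsEigen W a) (D : GenData N (Quo N)) (l i : Quo N) :
    Tendsto (fun z => (D.U W a z)⁻¹ l i) atImInfty (𝓝 ((D.lead W a)⁻¹ l i)) := by
  have h1 : Tendsto (fun z => (D.U W a z).adjugate) atImInfty (𝓝 (D.lead W a).adjugate) :=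
    ((Continuous.matrix_adjugate continuous_id).tendsto (D.lead W a)).comp (h.tendsto_U D)
  have h2 : Tendsto (fun z => (D.U W a z).adjugate l i) atImInfty
      (𝓝 ((D.lead W a).adjugate l i)) :=
    (tendsto_pi_nhds.mp ((tendsto_pi_nhds.mp h1) l)) i
  have h3 := ((h.tendsto_det_U D).inv₀ (h.det_lead_ne_zero D)).mul h2
  simpa [Matrix.inv_def, Ring.inverse_eq_inv'] using h3

theorem IsEigen.inv_F (h : IsEigen W a) (D : GenData N (Quo N)) (z : ℍ) :
    (D.F z)⁻¹ = (D.U W a z)⁻¹ * Matrix.diagonal (fun i => (𝕢 (N : ℝ) z ^ a i)⁻¹) * W := by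
  apply Matrix.inv_eq_left_inv
  rw [Matrix.mul_assoc, D.W_mul_F W a z, Matrix.mul_assoc, ← Matrix.mul_assoc (Matrix.diagonal _),
    Matrix.diagonal_mul_diagonal]
  have h1 : (Matrix.diagonal fun i => (𝕢 (N : ℝ) z ^ a i)⁻¹ * 𝕢 (N : ℝ) z ^ a i) =
      (1 : Matrix (Quo N) (Quo N) ℂ) := by
    rw [← Matrix.diagonal_one]
    congr 1
    funext i
    exact inv_mul_cancel₀ (pow_ne_zero _ (Function.Periodic.qParam_ne_zero _))
  rw [h1, Matrix.one_mul]
  exact Matrix.nonsing_inv_mul _ (Ne.isUnit (h.det_U_ne_zero D z))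

theorem tendsto_discriminant_mul_inv_qParam_pow {n : ℕ} (hn : n < N) :
    Tendsto (fun z : ℍ => ModularForm.discriminant z * (𝕢 (N : ℝ) z ^ n)⁻¹) atImInfty (𝓝 0) := by
  have h1 : (fun z : ℍ => ModularForm.discriminant z * (𝕢 (N : ℝ) z ^ n)⁻¹) =
      fun z : ℍ => (ModularForm.discriminant z / 𝕢 1 (z : ℂ)) * 𝕢 (N : ℝ) z ^ (N - n) := by
    funext z
    have hq : 𝕢 (N : ℝ) (z : ℂ) ≠ 0 := Function.Periodic.qParam_ne_zero _
    rw [← qParam_nat_pow (NeZero.ne N)]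
    have : 𝕢 (N : ℝ) (z : ℂ) ^ N = 𝕢 (N : ℝ) (z : ℂ) ^ (N - n) * 𝕢 (N : ℝ) (z : ℂ) ^ n := by
      rw [← pow_add]
      congr 1
      omega
    rw [this]
    field_simp
  rw [h1]
  have h2 : Tendsto (fun z : ℍ => 𝕢 (N : ℝ) (z : ℂ) ^ (N - n)) atImInfty (𝓝 (0 ^ (N - n))) :=
    (qParam_tendsto_atImInfty natCast_pos').pow (N - n)
  rw [zero_pow (by omega)] at h2
  have h3 := tendsto_discriminant_div_qParam.mul h2
  simpa using h3

theorem IsEigen.tendsto_discriminant_mul_inv (h : IsEigen W a) (D : GenData N (Quo N))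
    (l q : Quo N) :
    Tendsto (fun z : ℍ => ModularForm.discriminant z * (D.F z)⁻¹ l q) atImInfty (𝓝 0) := by
  have h1 : (fun z : ℍ => ModularForm.discriminant z * (D.F z)⁻¹ l q) =
      fun z : ℍ => ∑ i, (D.U W a z)⁻¹ l i *
        (ModularForm.discriminant z * (𝕢 (N : ℝ) z ^ a i)⁻¹) * W i q := by
    funext z
    rw [h.inv_F D z, Matrix.mul_apply, Finset.mul_sum]
    refine Finset.sum_congr rfl fun i _ => ?_
    rw [Matrix.mul_diagonal]
    ring
  rw [h1]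
  have h2 : Tendsto (fun z : ℍ => ∑ i, (D.U W a z)⁻¹ l i *
        (ModularForm.discriminant z * (𝕢 (N : ℝ) z ^ a i)⁻¹) * W i q) atImInfty
      (𝓝 (∑ i, (D.lead W a)⁻¹ l i * 0 * W i q)) :=
    tendsto_finsetSum _ fun i _ =>
      ((h.tendsto_inv_U D l i).mul (tendsto_discriminant_mul_inv_qParam_pow (h.lt i))).mul
        tendsto_const_nhds
  simpa using h2

end Fermat.Agent.S20
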