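import Mathlib
import Fermat.Agent.S20.CuspU

set_option autoImplicit false

/-!
# S20 (C6): the sum of the weights of the generators
-/

namespace Fermat.Agent.S20

open UpperHalfPlane ModularForm Matrix.SpecialLinearGroup EisensteinSeries ModularFormClass Filter
open scoped MatrixGroups ModularForm Manifold Topology Real

local notation "𝕢" => Function.Periodic.qParam

variable {N : ℕ} [NeZero N] {k : ℤ}

theorem prod_zpow_eq_zpow_sum' {ι : Type} (s : Finset ι) (w : ι → ℤ) {d : ℂ} (hd : d ≠ 0) :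
    ∏ j ∈ s, d ^ w j = d ^ ∑ j ∈ s, w j := by
  classical
  induction s using Finset.induction_on with
  | empty => simp
  | insert x s hx ih => rw [Finset.prod_insert hx, Finset.sum_insert hx, ih, zpow_add₀ hd]

theorem GenData.F_smul_mat (D : GenData N (Quo N)) (γ : SL(2, ℤ)) (z : ℍ) :
    D.F (γ • z) = ((D.F z).submatrix (MulAction.toPerm (sl γ)⁻¹ : Equiv.Perm (Quo N)) id) *
      Matrix.diagonal (fun j => denom γ z ^ D.wt j) := by
  ext q j
  rw [Matrix.mul_diagonal]
  show comp (D.f j) q (γ • z) = comp (D.f j) ((sl γ)⁻¹ • q) z * denom γ z ^ D.wt j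
  rw [comp_smul_apply, mul_comm]

theorem GenData.det_F_smul_sq (D : GenData N (Quo N)) (γ : SL(2, ℤ)) (z : ℍ) :
    (D.F (γ • z)).det ^ 2 = denom γ z ^ (2 * ∑ j, D.wt j) * (D.F z).det ^ 2 := by
  rw [D.F_smul_mat, Matrix.det_mul, Matrix.det_permute, Matrix.det_diagonal,
    prod_zpow_eq_zpow_sum' _ _ (denom_ne_zero γ z), two_mul, zpow_add₀ (denom_ne_zero γ z)]
  rcases Int.units_eq_one_or (Equiv.Perm.sign (MulAction.toPerm (sl γ)⁻¹ : Equiv.Perm (Quo N)))
    with h | h <;> rw [h] <;> push_cast <;> ring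

theorem GenData.mdiff_det_F (D : GenData N (Quo N)) : MDiff (fun z => (D.F z).det) := by
  have h1 : (fun z => (D.F z).det) = ∑ σ : Equiv.Perm (Quo N),
      ((Equiv.Perm.sign σ : ℤ) : ℂ) • ∏ i, comp (D.f i) (σ i) := by
    funext z
    rw [Matrix.det_apply']
    simp only [Finset.sum_apply, Pi.smul_apply, Finset.prod_apply, smul_eq_mul]
    rfl
  rw [h1]
  exact MDifferentiable.sum fun σ _ =>
    (MDifferentiable.prod fun i _ => comp_mdiff (D.f i) (σ i)).const_smul _

theorem discriminant_smul_c6 (γ : SL(2, ℤ)) (z : ℍ) :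
    ModularForm.discriminant (γ • z) = denom γ z ^ (12 : ℤ) * ModularForm.discriminant z := by
  have hmem : mapGL ℝ γ ∈ 𝒮ℒ := ⟨γ, rfl⟩
  have h1 : (ModularForm.discriminant ∣[(12 : ℤ)] γ) = ModularForm.discriminant :=
    SlashInvariantFormClass.slash_action_eq CuspForm.discriminant _ hmem
  have h2 := congrFun h1 z
  rw [SL_slash_apply] at h2
  rw [← h2, mul_comm, mul_assoc, ← zpow_add₀ (denom_ne_zero γ z)]
  simp

variable {W : Matrix (Quo N) (Quo N) ℂ} {a : Quo N → ℕ}

theorem IsEigen.sum_wt (h : IsEigen W a) (D : GenData N (Quo N)) {m : ℕ}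
    (hm : 2 * ∑ i, a i = N * m) : ∑ j, D.wt j = 6 * m := by
  set R : ℍ → ℂ := fun z => (D.F z).det ^ 2 / ModularForm.discriminant z ^ m with hR
  have hol : MDiff R :=
    (D.mdiff_det_F.pow 2).div (CuspForm.discriminant.holo'.pow m)
      (fun z => pow_ne_zero _ (discriminant_ne_zero z))
  have hne : ∀ z, R z ≠ 0 := fun z =>
    div_ne_zero (pow_ne_zero _ (D.det_F_ne_zero z)) (pow_ne_zero _ (discriminant_ne_zero z))
  have hinv : ∀ γ : SL(2, ℤ), R ∣[2 * ∑ j, D.wt j - 12 * (m : ℤ)] γ = R := by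
    intro γ
    funext z
    rw [SL_slash_apply]
    simp only [hR]
    rw [D.det_F_smul_sq, discriminant_smul_c6]
    have hd : denom γ z ≠ 0 := denom_ne_zero γ z
    have hΔ : ModularForm.discriminant z ≠ 0 := discriminant_ne_zero z
    rw [neg_sub, zpow_sub₀ hd, mul_pow, ← zpow_natCast (denom γ z ^ (12 : ℤ)) m, ← zpow_mul]
    have h1 : denom γ z ^ (2 * ∑ j, D.wt j) ≠ 0 := zpow_ne_zero _ hd
    have h2 : denom γ z ^ (12 * (m : ℤ)) ≠ 0 := zpow_ne_zero _ hd
    field_simp
  have hlim : Tendsto R atImInfty (𝓝 ((D.lead W a).det ^ 2 / W.det ^ 2)) := by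
    have h1 : R = fun z : ℍ => (D.U W a z).det ^ 2 / W.det ^ 2 /
        (ModularForm.discriminant z / 𝕢 1 (z : ℂ)) ^ m := by
      funext z
      have hq : 𝕢 1 (z : ℂ) ≠ 0 := Function.Periodic.qParam_ne_zero _
      have hΔ : ModularForm.discriminant z ≠ 0 := discriminant_ne_zero z
      have hW : W.det ≠ 0 := h.det_ne
      have h2 := D.det_W_mul_det_F W a z
      have h3 : (𝕢 (N : ℝ) (z : ℂ) ^ (∑ i, a i)) ^ 2 = 𝕢 1 (z : ℂ) ^ m := by
        rw [← pow_mul, mul_comm, hm, pow_mul, qParam_nat_pow (NeZero.ne N)]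
      have h4 : W.det ^ 2 * (D.F z).det ^ 2 = 𝕢 1 (z : ℂ) ^ m * (D.U W a z).det ^ 2 := by
        rw [← mul_pow, h2, mul_pow, h3]
      simp only [hR]
      rw [div_pow]
      field_simp
      linear_combination h4
    rw [h1]
    have h5 := (((h.tendsto_det_U D).pow 2).div_const (W.det ^ 2)).div
      (tendsto_discriminant_div_qParam.pow m) (by simp)
    rw [one_pow, div_one] at h5
    exact h5
  have h0 := weight_eq_zero_of_tendsto hol hne hinv
    (div_ne_zero (pow_ne_zero _ (h.det_lead_ne_zero D)) (pow_ne_zero _ h.det_ne)) hlim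
  omega

end Fermat.Agent.S20
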