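import Mathlib
import Fermat.Agent.S20.CuspWt
import Fermat.Agent.S20.CuspEig

set_option autoImplicit false

/-!
# S20 (C6): behaviour of the matrix `F` at the cusp `i∞`
-/

namespace Fermat.Agent.S20

open UpperHalfPlane ModularForm Matrix.SpecialLinearGroup EisensteinSeries ModularFormClass Filter
open scoped MatrixGroups ModularForm Manifold Topology Real

variable {N : ℕ} [NeZero N] {k : ℤ}

theorem GenData.sum_wt (D : GenData N (Quo N)) :
    ∑ j, D.wt j = 6 * ((Nat.card (Quo N) : ℤ) -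
      Nat.card (MulAction.orbitRel.Quotient (Subgroup.zpowers (sl ModularGroup.T)) (Quo N))) := by
  obtain ⟨W, a, h, hsum⟩ := exists_isEigen N
  set M : ℤ := (Nat.card (Quo N) : ℤ) -
      Nat.card (MulAction.orbitRel.Quotient (Subgroup.zpowers (sl ModularGroup.T)) (Quo N)) with hM
  have hN : (0 : ℤ) < N := by exact_mod_cast Nat.pos_of_ne_zero (NeZero.ne N)
  have hM0 : 0 ≤ M := by
    by_contra hlt
    rw [not_le] at hlt
    have h1 : (N : ℤ) * M < 0 := mul_neg_of_pos_of_neg hN hlt
    have h2 : (0 : ℤ) ≤ 2 * ∑ i, (a i : ℤ) := by positivity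
    omega
  obtain ⟨m, hm⟩ := Int.eq_ofNat_of_zero_le hM0
  rw [hm]
  refine h.sum_wt D ?_
  rw [hm] at hsum
  exact_mod_cast hsum

theorem GenData.tendsto_discriminant_mul_inv (D : GenData N (Quo N)) (l q : Quo N) :
    Tendsto (fun z : ℍ => ModularForm.discriminant z * (D.F z)⁻¹ l q) atImInfty (𝓝 0) := by
  obtain ⟨W, a, h, -⟩ := exists_isEigen N
  exact h.tendsto_discriminant_mul_inv D l q

end Fermat.Agent.S20
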