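import Mathlib

set_option autoImplicit false

/-!
# S20, K4 (number theory part): classification of `T`-orbits on coprime pairs modulo `N`
-/

namespace Fermat.Agent.S20

/-- solvability of the linear congruence. -/
theorem exists_k_of_dvd {d M c₁ c₁' A : ℤ} (h₁ : IsCoprime c₁ M) (h₁' : IsCoprime c₁' M)
    (hg : (Int.gcd d M : ℤ) ∣ A) : ∃ k : ℤ, M ∣ A + k * d * (c₁ * c₁') := by
  obtain ⟨w, w', hw⟩ : IsCoprime (c₁ * c₁') M := h₁.mul_left h₁'
  obtain ⟨z, hz⟩ := hg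
  have hb := Int.gcd_eq_gcd_ab d M
  refine ⟨-z * Int.gcdA d M * w, z * Int.gcdB d M + z * Int.gcdA d M * d * w', ?_⟩
  rw [hz, hb]
  linear_combination (-(z * Int.gcdA d M * d)) * hw

/-- The key classification, with explicit factorisations `N = d M = d' M'`, `c = d c₁`,
`c' = d' c₁'`. -/
theorem orbit_iff_aux {N a c a' c' : ℤ} {d d' : ℕ} {M M' c₁ c₁' : ℤ} (hd0 : d ≠ 0)
    (h : IsCoprime a c) (h' : IsCoprime a' c')
    (hN : N = d * M) (hc : c = d * c₁) (h₁ : IsCoprime c₁ M)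
    (hN' : N = d' * M') (hc' : c' = d' * c₁') (h₁' : IsCoprime c₁' M') :
    (∃ k : ℤ, N ∣ (a + k * c) * c' - a' * c) ↔
      d = d' ∧ (Int.gcd d M : ℤ) ∣ a * c₁' - a' * c₁ := by
  constructor
  · rintro ⟨k, hk⟩
    have hdd' : (d : ℤ) ∣ d' := by
      have h1 : (d : ℤ) ∣ (a + k * c) * c' := by
        have h2 : (d : ℤ) ∣ (a + k * c) * c' - a' * c := dvd_trans ⟨M, hN⟩ hk
        have h3 : (d : ℤ) ∣ a' * c := Dvd.dvd.mul_left ⟨c₁, hc⟩ _
        simpa using dvd_add h2 h3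
      have h4 : IsCoprime (d : ℤ) (a + k * c) := by
        have : IsCoprime (a + k * c) c := by
          simpa [mul_comm] using h.add_mul_left_left k
        exact (this.of_isCoprime_of_dvd_right ⟨c₁, hc⟩).symm
      have h5 : (d : ℤ) ∣ c' := h4.dvd_of_dvd_mul_left h1
      -- `d ∣ c' = d' c₁'` and `d ∣ N = d' M'`, `c₁', M'` coprime
      obtain ⟨x, y, hxy⟩ := h₁'
      have : (d' : ℤ) = x * c' + y * N := by
        rw [hc', hN']; linear_combination (-(d' : ℤ)) * hxy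
      rw [this]
      exact dvd_add (Dvd.dvd.mul_left h5 _) (Dvd.dvd.mul_left ⟨M, hN⟩ _)
    have hd'd : (d' : ℤ) ∣ d := by
      have h1 : (d' : ℤ) ∣ a' * c := by
        have h2 : (d' : ℤ) ∣ (a + k * c) * c' - a' * c := dvd_trans ⟨M', hN'⟩ hk
        have h3 : (d' : ℤ) ∣ (a + k * c) * c' := Dvd.dvd.mul_left ⟨c₁', hc'⟩ _
        simpa using dvd_sub h3 h2
      have h4 : IsCoprime (d' : ℤ) a' := (h'.of_isCoprime_of_dvd_right ⟨c₁', hc'⟩).symm
      have h5 : (d' : ℤ) ∣ c := h4.dvd_of_dvd_mul_left h1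
      obtain ⟨x, y, hxy⟩ := h₁
      have : (d : ℤ) = x * c + y * N := by
        rw [hc, hN]; linear_combination (-(d : ℤ)) * hxy
      rw [this]
      exact dvd_add (Dvd.dvd.mul_left h5 _) (Dvd.dvd.mul_left ⟨M', hN'⟩ _)
    have hdeq : d = d' :=
      Nat.dvd_antisymm (Int.natCast_dvd_natCast.mp hdd') (Int.natCast_dvd_natCast.mp hd'd)
    subst hdeq
    refine ⟨rfl, ?_⟩
    have hdz : (d : ℤ) ≠ 0 := by exact_mod_cast hd0
    have hM : M ∣ (a + k * c) * c₁' - a' * c₁ := by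
      have : (d : ℤ) * M ∣ d * ((a + k * c) * c₁' - a' * c₁) := by
        rw [← hN]
        have e : (d : ℤ) * ((a + k * c) * c₁' - a' * c₁) = (a + k * c) * c' - a' * c := by
          rw [hc', hc]; ring
        rw [e]; exact hk
      exact (mul_dvd_mul_iff_left hdz).mp this
    have hg1 : (Int.gcd d M : ℤ) ∣ M := Int.gcd_dvd_right _ _
    have hg2 : (Int.gcd d M : ℤ) ∣ d := Int.gcd_dvd_left _ _
    have e : a * c₁' - a' * c₁ = ((a + k * c) * c₁' - a' * c₁) - d * (k * c₁ * c₁') := by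
      rw [hc]; ring
    rw [e]
    exact dvd_sub (dvd_trans hg1 hM) (Dvd.dvd.mul_right hg2 _)
  · rintro ⟨rfl, hg⟩
    have hdz : (d : ℤ) ≠ 0 := by exact_mod_cast hd0
    have hMM : M = M' := by
      apply mul_left_cancel₀ hdz
      rw [← hN, ← hN']
    subst hMM
    obtain ⟨k, hk⟩ := exists_k_of_dvd (d := d) h₁ h₁' hg
    refine ⟨k, ?_⟩
    have e : (a + k * c) * c' - a' * c = d * (a * c₁' - a' * c₁ + k * d * (c₁ * c₁')) := by
      rw [hc', hc]; ring
    rw [e, hN]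
    exact mul_dvd_mul_left _ hk

end Fermat.Agent.S20
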