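import Mathlib
import Fermat.Agent.S20.Defs

set_option autoImplicit false

/-!
# S20: the coset space `SL₂(ℤ)/Γ₀(N)` in terms of first columns (integer pairs)
-/

namespace Fermat.Agent.S20

open UpperHalfPlane ModularForm Matrix.SpecialLinearGroup
open scoped MatrixGroups ModularForm Manifold

variable {N : ℕ}

theorem sl_mem_iff (γ : SL(2, ℤ)) :
    sl γ ∈ ((CongruenceSubgroup.Gamma0 N : Subgroup (GL (Fin 2) ℝ)).subgroupOf 𝒮ℒ) ↔
      γ ∈ CongruenceSubgroup.Gamma0 N := by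
  rw [Subgroup.mem_subgroupOf]
  constructor
  · rintro ⟨δ, hδ, h⟩
    have : δ = γ := mapGL_injective (R := ℤ) (S := ℝ) (by simpa using h)
    exact this ▸ hδ
  · intro h
    exact ⟨γ, h, rfl⟩

/-- equality of cosets in terms of first columns. -/
theorem mk_sl_eq_iff_dvd (γ δ : SL(2, ℤ)) :
    ((QuotientGroup.mk (sl γ) : Quo N) = QuotientGroup.mk (sl δ)) ↔
      (N : ℤ) ∣ γ 0 0 * δ 1 0 - δ 0 0 * γ 1 0 := by
  rw [QuotientGroup.eq, ← sl_inv, ← sl_mul, sl_mem_iff, CongruenceSubgroup.Gamma0_mem,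
    ZMod.intCast_zmod_eq_zero_iff_dvd]
  have : (γ⁻¹ * δ) 1 0 = γ 0 0 * δ 1 0 - δ 0 0 * γ 1 0 := by
    rw [Matrix.SpecialLinearGroup.coe_mul, Matrix.SpecialLinearGroup.SL2_inv_expl,
      Matrix.mul_apply, Fin.sum_univ_two]
    simp
    ring
  rw [this]

theorem exists_mk_sl (q : Quo N) : ∃ γ : SL(2, ℤ), (QuotientGroup.mk (sl γ) : Quo N) = q := by
  induction q using QuotientGroup.induction_on with
  | H g =>
    obtain ⟨γ, rfl⟩ := exists_sl g
    exact ⟨γ, rfl⟩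

theorem pr_sl_smul_mk (δ γ : SL(2, ℤ)) :
    sl δ • (QuotientGroup.mk (sl γ) : Quo N) = QuotientGroup.mk (sl (δ * γ)) := by
  rw [sl_mul]; rfl

theorem col_isCoprime (γ : SL(2, ℤ)) : IsCoprime (γ 0 0) (γ 1 0) := by
  have h := γ.det_coe
  rw [Matrix.det_fin_two] at h
  exact ⟨γ 1 1, -γ 0 1, by linarith⟩

theorem exists_sl_col {a c : ℤ} (h : IsCoprime a c) : ∃ γ : SL(2, ℤ), γ 0 0 = a ∧ γ 1 0 = c := by
  obtain ⟨u, v, huv⟩ := h
  refine ⟨⟨!![a, -v; c, u], ?_⟩, rfl, rfl⟩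
  rw [Matrix.det_fin_two_of]
  linarith

end Fermat.Agent.S20
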