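import Mathlib
import Fermat.Agent.S20.Pairs
import Fermat.Agent.S20.CuspsNT

set_option autoImplicit false

/-!
# S20, K4: the number of `T`-orbits on `SL₂(ℤ)/Γ₀(N)` is `cuspCount N`
-/

namespace Fermat.Agent.S20

open UpperHalfPlane ModularForm Matrix.SpecialLinearGroup
open scoped MatrixGroups ModularForm Manifold

/-- second invariant of a cusp. -/
def cuspE (g : ℕ) (a c₁ : ℤ) : ℕ := ((a : ZMod g) * (c₁ : ZMod g)⁻¹).val

theorem isUnit_intCast_of_isCoprime {g : ℕ} {x : ℤ} (h : IsCoprime x (g : ℤ)) :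
    IsUnit (x : ZMod g) := by
  have := h.intCast (R := ZMod g)
  rw [Int.cast_natCast, ZMod.natCast_self] at this
  exact isCoprime_zero_right.mp this

theorem cuspE_eq_iff {g : ℕ} [NeZero g] {a c₁ a' c₁' : ℤ} (h₁ : IsCoprime c₁ (g : ℤ))
    (h₁' : IsCoprime c₁' (g : ℤ)) :
    cuspE g a c₁ = cuspE g a' c₁' ↔ (g : ℤ) ∣ a * c₁' - a' * c₁ := by
  have u₁ := ZMod.mul_inv_of_unit _ (isUnit_intCast_of_isCoprime h₁)
  have u₁' := ZMod.mul_inv_of_unit _ (isUnit_intCast_of_isCoprime h₁')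
  rw [cuspE, cuspE, (ZMod.val_injective g).eq_iff, ← ZMod.intCast_zmod_eq_zero_iff_dvd]
  push_cast
  constructor
  · intro h
    linear_combination ((c₁ : ZMod g) * (c₁' : ZMod g)) * h - (a : ZMod g) * c₁' * u₁
      + (a' : ZMod g) * c₁ * u₁'
  · intro h
    linear_combination ((c₁ : ZMod g)⁻¹ * (c₁' : ZMod g)⁻¹) * h
      - (a : ZMod g) * (c₁ : ZMod g)⁻¹ * u₁' + (a' : ZMod g) * (c₁' : ZMod g)⁻¹ * u₁

variable (N : ℕ)

/-- the invariants `(d, e)` of the cusp attached to a matrix. -/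
def cuspInv (γ : SL(2, ℤ)) : Σ _ : ℕ, ℕ :=
  ⟨Int.gcd (γ 1 0) N,
    cuspE (Nat.gcd (Int.gcd (γ 1 0) N) (N / Int.gcd (γ 1 0) N)) (γ 0 0)
      (γ 1 0 / (Int.gcd (γ 1 0) N : ℤ))⟩

/-- the target set of invariants. -/
def cuspSet : Finset (Σ _ : ℕ, ℕ) :=
  N.divisors.sigma fun d => (Finset.range (Nat.gcd d (N / d))).filter
    fun e => (Nat.gcd d (N / d)).Coprime e

theorem card_cuspSet : (cuspSet N).card = ModularCurve.cuspCount N := by
  rw [cuspSet, Finset.card_sigma, ModularCurve.cuspCount]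
  rfl

variable {N}

/-- the factorisation data attached to `c` and `N`. -/
theorem gcd_data [NeZero N] (c : ℤ) :
    Int.gcd c N ≠ 0 ∧ (N : ℤ) = (Int.gcd c N : ℤ) * ((N / Int.gcd c N : ℕ) : ℤ) ∧
      c = (Int.gcd c N : ℤ) * (c / (Int.gcd c N : ℤ)) ∧
      IsCoprime (c / (Int.gcd c N : ℤ)) ((N / Int.gcd c N : ℕ) : ℤ) ∧ Int.gcd c N ∣ N := by
  have hN : (N : ℤ) ≠ 0 := by exact_mod_cast NeZero.ne N
  have h0 : Int.gcd c N ≠ 0 := by
    intro h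
    rw [Int.gcd_eq_zero_iff] at h
    exact hN h.2
  have hdN : Int.gcd c N ∣ N := by
    have := Int.gcd_dvd_right c (N : ℤ)
    exact_mod_cast this
  refine ⟨h0, ?_, ?_, ?_, hdN⟩
  · rw [← Nat.cast_mul, Nat.mul_div_cancel' hdN]
  · rw [Int.mul_ediv_cancel' (Int.gcd_dvd_left c (N : ℤ))]
  · rw [Int.isCoprime_iff_gcd_eq_one, Int.natCast_div]
    exact Int.gcd_div_gcd_div_gcd (Nat.pos_of_ne_zero h0)

theorem cuspInv_eq_iff [NeZero N] (γ δ : SL(2, ℤ)) :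
    cuspInv N γ = cuspInv N δ ↔
      ∃ k : ℤ, (N : ℤ) ∣ (γ 0 0 + k * γ 1 0) * δ 1 0 - δ 0 0 * γ 1 0 := by
  obtain ⟨h0, hN, hc, hcop, hdN⟩ := gcd_data (N := N) (γ 1 0)
  obtain ⟨h0', hN', hc', hcop', hdN'⟩ := gcd_data (N := N) (δ 1 0)
  rw [orbit_iff_aux h0 (col_isCoprime γ) (col_isCoprime δ) hN hc hcop hN' hc' hcop',
    Int.gcd_natCast_natCast]
  unfold cuspInv
  generalize Int.gcd (γ 1 0) N = d at *
  generalize Int.gcd (δ 1 0) N = d' at *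
  constructor
  · intro h
    obtain ⟨rfl, h2⟩ := Sigma.mk.inj_iff.mp h
    refine ⟨rfl, ?_⟩
    have hg0 : NeZero (Nat.gcd d (N / d)) := ⟨Nat.gcd_ne_zero_left h0⟩
    have hgM : ((Nat.gcd d (N / d) : ℕ) : ℤ) ∣ ((N / d : ℕ) : ℤ) := by
      exact_mod_cast Nat.gcd_dvd_right d (N / d)
    exact (cuspE_eq_iff (hcop.of_isCoprime_of_dvd_right hgM)
      (hcop'.of_isCoprime_of_dvd_right hgM)).mp (eq_of_heq h2)
  · rintro ⟨rfl, h2⟩
    have hg0 : NeZero (Nat.gcd d (N / d)) := ⟨Nat.gcd_ne_zero_left h0⟩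
    have hgM : ((Nat.gcd d (N / d) : ℕ) : ℤ) ∣ ((N / d : ℕ) : ℤ) := by
      exact_mod_cast Nat.gcd_dvd_right d (N / d)
    rw [(cuspE_eq_iff (hcop.of_isCoprime_of_dvd_right hgM)
      (hcop'.of_isCoprime_of_dvd_right hgM)).mpr h2]


theorem cuspInv_mem [NeZero N] (γ : SL(2, ℤ)) : cuspInv N γ ∈ cuspSet N := by
  obtain ⟨h0, hN, hc, hcop, hdN⟩ := gcd_data (N := N) (γ 1 0)
  have hac := col_isCoprime γ
  unfold cuspInv cuspSet
  generalize Int.gcd (γ 1 0) N = d at *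
  have hg0 : NeZero (Nat.gcd d (N / d)) := ⟨Nat.gcd_ne_zero_left h0⟩
  have hgM : ((Nat.gcd d (N / d) : ℕ) : ℤ) ∣ ((N / d : ℕ) : ℤ) := by
    exact_mod_cast Nat.gcd_dvd_right d (N / d)
  have hgc : ((Nat.gcd d (N / d) : ℕ) : ℤ) ∣ γ 1 0 := by
    rw [hc]
    exact Dvd.dvd.mul_right (by exact_mod_cast Nat.gcd_dvd_left d (N / d)) _
  rw [Finset.mem_sigma, Nat.mem_divisors, Finset.mem_filter, Finset.mem_range]
  refine ⟨⟨hdN, NeZero.ne N⟩, ZMod.val_lt _, ?_⟩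
  have u1 : IsUnit ((γ 0 0 : ℤ) : ZMod (Nat.gcd d (N / d))) :=
    isUnit_intCast_of_isCoprime (hac.of_isCoprime_of_dvd_right hgc)
  have u2 : IsUnit ((γ 1 0 / (d : ℤ) : ℤ) : ZMod (Nat.gcd d (N / d))) :=
    isUnit_intCast_of_isCoprime (hcop.of_isCoprime_of_dvd_right hgM)
  have u3 : IsUnit (((γ 1 0 / (d : ℤ) : ℤ) : ZMod (Nat.gcd d (N / d)))⁻¹) :=
    IsUnit.of_mul_eq_one _ (by rw [mul_comm]; exact ZMod.mul_inv_of_unit _ u2)
  obtain ⟨u, hu⟩ := u1.mul u3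
  unfold cuspE
  rw [← hu]
  exact (ZMod.val_coe_unit_coprime u).symm

theorem exists_cuspInv_eq [NeZero N] {x : Σ _ : ℕ, ℕ} (hx : x ∈ cuspSet N) :
    ∃ γ : SL(2, ℤ), cuspInv N γ = x := by
  obtain ⟨d, e⟩ := x
  unfold cuspSet at hx
  rw [Finset.mem_sigma, Nat.mem_divisors, Finset.mem_filter, Finset.mem_range] at hx
  obtain ⟨⟨hdN, -⟩, helt, hcop⟩ := hx
  simp only at hdN helt hcop
  have hd0 : d ≠ 0 := by
    rintro rfl
    exact NeZero.ne N (Nat.eq_zero_of_zero_dvd hdN)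
  have : NeZero d := ⟨hd0⟩
  have hg0 : NeZero (Nat.gcd d (N / d)) := ⟨Nat.gcd_ne_zero_left hd0⟩
  obtain ⟨u, hu⟩ := ZMod.unitsMap_surjective (Nat.gcd_dvd_left d (N / d))
    (ZMod.unitOfCoprime e hcop.symm)
  have hucop := ZMod.val_coe_unit_coprime u
  have hcopZ : IsCoprime (((u : ZMod d).val : ℕ) : ℤ) (d : ℤ) := Nat.isCoprime_iff_coprime.mpr hucop
  obtain ⟨γ, h00, h10⟩ := exists_sl_col hcopZ
  refine ⟨γ, ?_⟩
  have hgcd : Int.gcd (d : ℤ) (N : ℤ) = d := by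
    rw [Int.gcd_natCast_natCast]; exact Nat.gcd_eq_left hdN
  unfold cuspInv
  rw [h00, h10, hgcd, Int.ediv_self (by exact_mod_cast hd0)]
  congr 1
  unfold cuspE
  have h1 : ((((u : ZMod d).val : ℕ) : ℤ) : ZMod (Nat.gcd d (N / d))) = (e : ZMod (Nat.gcd d (N / d))) := by
    have h2 := congrArg (fun v : (ZMod (Nat.gcd d (N / d)))ˣ => (v : ZMod (Nat.gcd d (N / d)))) hu
    simp only [ZMod.unitsMap, Units.coe_map, ZMod.coe_unitOfCoprime] at h2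
    rw [Int.cast_natCast, ZMod.natCast_val]
    simpa using h2
  rw [h1]
  have hinv1 : (1 : ZMod (Nat.gcd d (N / d)))⁻¹ = 1 := by
    have := ZMod.mul_inv_of_unit (1 : ZMod (Nat.gcd d (N / d))) isUnit_one
    rwa [one_mul] at this
  rw [Int.cast_one, hinv1, mul_one]
  exact ZMod.val_natCast_of_lt helt


/-- `sl` as a monoid homomorphism. -/
noncomputable def slHom : SL(2, ℤ) →* 𝒮ℒ where
  toFun := sl
  map_one' := sl_one
  map_mul' := sl_mul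

theorem sl_zpow (γ : SL(2, ℤ)) (k : ℤ) : sl (γ ^ k) = sl γ ^ k := map_zpow slHom γ k

theorem T_zpow_mul_col (k : ℤ) (γ : SL(2, ℤ)) :
    (ModularGroup.T ^ k * γ) 0 0 = γ 0 0 + k * γ 1 0 ∧ (ModularGroup.T ^ k * γ) 1 0 = γ 1 0 := by
  rw [Matrix.SpecialLinearGroup.coe_mul, ModularGroup.coe_T_zpow, Matrix.mul_apply,
    Matrix.mul_apply, Fin.sum_univ_two, Fin.sum_univ_two]
  simp

/-- the invariant as a function on the coset space. -/
noncomputable def cuspInvQ (N : ℕ) (q : Quo N) : Σ _ : ℕ, ℕ :=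
  cuspInv N (Classical.choose (exists_mk_sl q))

theorem cuspInvQ_mk [NeZero N] (γ : SL(2, ℤ)) :
    cuspInvQ N (QuotientGroup.mk (sl γ) : Quo N) = cuspInv N γ := by
  have h := Classical.choose_spec (exists_mk_sl (QuotientGroup.mk (sl γ) : Quo N))
  unfold cuspInvQ
  rw [cuspInv_eq_iff]
  rw [mk_sl_eq_iff_dvd] at h
  exact ⟨0, by simpa using h⟩

theorem orbitRel_iff [NeZero N] (q q' : Quo N) :
    (MulAction.orbitRel (Subgroup.zpowers (sl ModularGroup.T)) (Quo N)) q q' ↔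
      cuspInvQ N q = cuspInvQ N q' := by
  obtain ⟨γ, rfl⟩ := exists_mk_sl q
  obtain ⟨δ, rfl⟩ := exists_mk_sl q'
  rw [cuspInvQ_mk, cuspInvQ_mk, eq_comm, cuspInv_eq_iff, MulAction.orbitRel_apply,
    MulAction.mem_orbit_iff]
  constructor
  · rintro ⟨⟨x, k, rfl⟩, hx⟩
    refine ⟨k, ?_⟩
    have hx' : sl ModularGroup.T ^ k • (QuotientGroup.mk (sl δ) : Quo N)
        = QuotientGroup.mk (sl γ) := hx
    rw [← sl_zpow, pr_sl_smul_mk, mk_sl_eq_iff_dvd, (T_zpow_mul_col k δ).1,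
      (T_zpow_mul_col k δ).2] at hx'
    exact hx'
  · rintro ⟨k, hk⟩
    refine ⟨⟨sl ModularGroup.T ^ k, k, rfl⟩, ?_⟩
    show sl ModularGroup.T ^ k • (QuotientGroup.mk (sl δ) : Quo N) = QuotientGroup.mk (sl γ)
    rw [← sl_zpow, pr_sl_smul_mk, mk_sl_eq_iff_dvd, (T_zpow_mul_col k δ).1,
      (T_zpow_mul_col k δ).2]
    exact hk

theorem range_cuspInvQ [NeZero N] : Set.range (cuspInvQ N) = ↑(cuspSet N) := by
  ext x
  constructor
  · rintro ⟨q, rfl⟩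
    obtain ⟨γ, rfl⟩ := exists_mk_sl q
    rw [cuspInvQ_mk]
    exact cuspInv_mem γ
  · intro hx
    obtain ⟨γ, rfl⟩ := exists_cuspInv_eq hx
    exact ⟨_, cuspInvQ_mk γ⟩

theorem card_orbits_T (N : ℕ) [NeZero N] :
    Nat.card (MulAction.orbitRel.Quotient (Subgroup.zpowers (sl ModularGroup.T)) (Quo N)) =
      ModularCurve.cuspCount N := by
  have hs : MulAction.orbitRel (Subgroup.zpowers (sl ModularGroup.T)) (Quo N)
      = Setoid.ker (cuspInvQ N) := by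
    ext q q'
    rw [orbitRel_iff, Setoid.ker_def]
  unfold MulAction.orbitRel.Quotient
  rw [hs, Nat.card_congr (Setoid.quotientKerEquivRange (cuspInvQ N)), range_cuspInvQ,
    Nat.card_coe_set_eq, Set.ncard_coe_finset, card_cuspSet]

end Fermat.Agent.S20
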