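import Mathlib
import Fermat.Agent.S20.GenBasic
import Fermat.Agent.S20.Nonvanishing

set_option autoImplicit false
set_option linter.unusedSectionVars false

/-!
# S20 (C8): explicit duality `Φ = Δ F⁻ᵀ`
-/

namespace Fermat.Agent.S20

open UpperHalfPlane ModularForm Matrix.SpecialLinearGroup EisensteinSeries ModularFormClass Filter
open scoped MatrixGroups ModularForm Manifold Topology Real

variable {N : ℕ} [NeZero N]

theorem mdiff_det {n : Type} [Fintype n] [DecidableEq n] (M : ℍ → Matrix n n ℂ)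
    (h : ∀ i j, MDiff (fun z => M z i j)) : MDiff (fun z => (M z).det) := by
  have h1 : (fun z => (M z).det) =
      ∑ σ : Equiv.Perm n, (fun _ : ℍ => ((Equiv.Perm.sign σ : ℤ) : ℂ)) *
        ∏ i, (fun z => M z (σ i) i) := by
    funext z
    rw [Matrix.det_apply]
    simp only [Finset.sum_apply, Pi.mul_apply, Finset.prod_apply]
    refine Finset.sum_congr rfl fun σ _ => ?_
    rw [Units.smul_def, zsmul_eq_mul]
  rw [h1]
  refine MDifferentiable.sum fun σ _ => ?_
  exact mdifferentiable_const.mul (MDifferentiable.prod fun i _ => h _ _)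

/-- the dual functions `Φ = Δ F⁻¹`. -/
noncomputable def GenData.Phi (D : GenData N (Quo N)) (l q : Quo N) (z : ℍ) : ℂ :=
  ModularForm.discriminant z * (D.F z)⁻¹ l q

theorem GenData.isUnit_det_F (D : GenData N (Quo N)) (z : ℍ) : IsUnit (D.F z).det :=
  isUnit_iff_ne_zero.mpr (D.det_F_ne_zero z)

theorem GenData.Phi_mdiff (D : GenData N (Quo N)) (l q : Quo N) : MDiff (D.Phi l q) := by
  have hF : ∀ i j, MDiff (fun z => D.F z i j) := fun i j => comp_mdiff (D.f j) i
  have h1 : D.Phi l q = fun z => ModularForm.discriminant z *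
      ((D.F z).det⁻¹ * ((D.F z).updateRow q (Pi.single l 1)).det) := by
    funext z
    rw [GenData.Phi, Matrix.inv_def, Ring.inverse_eq_inv', Matrix.smul_apply,
      Matrix.adjugate_apply, smul_eq_mul]
  rw [h1]
  have h2 : MDiff (fun z => ((D.F z).updateRow q (Pi.single l 1)).det) := by
    apply mdiff_det
    intro i j
    by_cases hi : i = q
    · subst hi
      simp only [Matrix.updateRow_self]
      exact mdifferentiable_const
    · simp only [Matrix.updateRow_ne hi]
      exact hF i j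
  have h3 : MDiff (fun z => (D.F z).det) := mdiff_det _ hF
  have h4 : MDiff (fun z => (D.F z).det⁻¹) := by
    have := (mdifferentiable_const (c := (1 : ℂ)) (I := 𝓘(ℂ)) (M := ℍ)).div h3 D.det_F_ne_zero
    simpa [Pi.div_def] using this
  exact CuspForm.discriminant.holo'.mul (h4.mul h2)

theorem GenData.F_smul (D : GenData N (Quo N)) (γ : SL(2, ℤ)) (z : ℍ) (q j : Quo N) :
    D.F (γ • z) q j = denom γ z ^ (D.wt j) * D.F z ((sl γ)⁻¹ • q) j :=
  comp_smul_apply _ _ _ _

theorem GenData.inv_F_smul (D : GenData N (Quo N)) (γ : SL(2, ℤ)) (z : ℍ) (l q : Quo N) :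
    (D.F (γ • z))⁻¹ l q = denom γ z ^ (-(D.wt l)) * (D.F z)⁻¹ l ((sl γ)⁻¹ • q) := by
  have hd : denom γ z ≠ 0 := denom_ne_zero _ _
  set M : Matrix (Quo N) (Quo N) ℂ :=
    fun l q => denom γ z ^ (-(D.wt l)) * (D.F z)⁻¹ l ((sl γ)⁻¹ • q) with hM
  have h1 : M * D.F (γ • z) = 1 := by
    ext l j
    rw [Matrix.mul_apply]
    have h2 : ∀ q, M l q * D.F (γ • z) q j = denom γ z ^ (-(D.wt l)) * denom γ z ^ (D.wt j) *
        ((D.F z)⁻¹ l ((sl γ)⁻¹ • q) * D.F z ((sl γ)⁻¹ • q) j) := by
      intro q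
      rw [D.F_smul, hM]; ring
    simp_rw [h2]
    rw [← Finset.mul_sum]
    have h3 : ∑ q, (D.F z)⁻¹ l ((sl γ)⁻¹ • q) * D.F z ((sl γ)⁻¹ • q) j =
        ∑ q, (D.F z)⁻¹ l q * D.F z q j :=
      Equiv.sum_comp (MulAction.toPerm (sl γ)⁻¹) (fun q => (D.F z)⁻¹ l q * D.F z q j)
    rw [h3, ← Matrix.mul_apply, Matrix.nonsing_inv_mul _ (D.isUnit_det_F z)]
    by_cases hlj : l = j
    · subst hlj
      rw [Matrix.one_apply_eq, mul_one, ← zpow_add₀ hd]
      simp
    · rw [Matrix.one_apply_ne hlj, mul_zero]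
  rw [Matrix.inv_eq_left_inv h1]

theorem discriminant_smul (γ : SL(2, ℤ)) (z : ℍ) :
    ModularForm.discriminant (γ • z) = denom γ z ^ (12 : ℤ) * ModularForm.discriminant z := by
  have hmem : (mapGL ℝ γ : GL (Fin 2) ℝ) ∈ 𝒮ℒ := ⟨γ, rfl⟩
  exact SlashInvariantForm.slash_action_eqn'' CuspForm.discriminant hmem z

theorem GenData.Phi_smul (D : GenData N (Quo N)) (γ : SL(2, ℤ)) (z : ℍ) (l q : Quo N) :
    D.Phi l q (γ • z) = denom γ z ^ (12 - D.wt l) * D.Phi l ((sl γ)⁻¹ • q) z := by
  have hd : denom γ z ≠ 0 := denom_ne_zero _ _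
  rw [GenData.Phi, GenData.Phi, D.inv_F_smul, discriminant_smul, sub_eq_add_neg, zpow_add₀ hd]
  ring

theorem GenData.Phi_slash (D : GenData N (Quo N)) (γ : SL(2, ℤ)) (l q : Quo N) :
    D.Phi l q ∣[12 - D.wt l] γ = D.Phi l ((sl γ)⁻¹ • q) := by
  funext z
  have hd : denom γ z ≠ 0 := denom_ne_zero _ _
  rw [ModularForm.SL_slash_apply, D.Phi_smul, mul_comm, ← mul_assoc, ← zpow_add₀ hd]
  simp

/-- the hypothesis provided by C6. -/
def GenData.TendstoHyp (D : GenData N (Quo N)) : Prop :=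
  ∀ l q : Quo N, Tendsto (fun z : ℍ => ModularForm.discriminant z * (D.F z)⁻¹ l q) atImInfty (𝓝 0)

theorem sl_inv_smul_mk_one {γ : SL(2, ℤ)} (hγ : γ ∈ CongruenceSubgroup.Gamma0 N) :
    (sl γ)⁻¹ • (QuotientGroup.mk 1 : Quo N) = QuotientGroup.mk 1 := by
  rw [MulAction.Quotient.smul_mk, smul_eq_mul, mul_one, QuotientGroup.eq]
  simp only [inv_inv, mul_one]
  rw [Subgroup.mem_subgroupOf]
  exact ⟨γ, hγ, rfl⟩

/-- the dual cusp forms -/
noncomputable def GenData.dual (D : GenData N (Quo N)) (hT : D.TendstoHyp) (l : Quo N) :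
    CuspForm (CongruenceSubgroup.Gamma0 N) (12 - D.wt l) where
  toFun := D.Phi l (QuotientGroup.mk 1)
  slash_action_eq' := by
    rintro _ ⟨γ, hγ, rfl⟩
    have := D.Phi_slash γ l (QuotientGroup.mk 1)
    rw [sl_inv_smul_mk_one hγ] at this
    exact this
  holo' := D.Phi_mdiff l _
  zero_at_cusps' {c} hc := by
    rw [Subgroup.IsArithmetic.isCusp_iff_isCusp_SL2Z] at hc
    rw [OnePoint.isZeroAt_iff_forall_SL2Z hc]
    intro γ _
    rw [D.Phi_slash]
    exact hT l _

theorem GenData.coe_dual (D : GenData N (Quo N)) (hT : D.TendstoHyp) (l : Quo N) :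
    ⇑(D.dual hT l) = D.Phi l (QuotientGroup.mk 1) := rfl

theorem exists_smul_mk_one (q : Quo N) :
    ∃ γ : SL(2, ℤ), (sl γ)⁻¹ • (QuotientGroup.mk 1 : Quo N) = q := by
  obtain ⟨δ, rfl⟩ := exists_mk q
  refine ⟨δ⁻¹, ?_⟩
  rw [sl_inv, inv_inv, MulAction.Quotient.smul_mk, smul_eq_mul, mul_one]

theorem cuspForm_eq_zero_of_nonpos {k : ℤ} (hk : k ≤ 0)
    (f : CuspForm (CongruenceSubgroup.Gamma0 N) k) : f = 0 := by
  rcases hk.lt_or_eq with hk | rfl
  · apply CuspForm.toModularFormₗ_injective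
    rw [ModularForm.isZero_of_neg_weight hk (CuspForm.toModularFormₗ f), map_zero]
  · obtain ⟨c, hc⟩ := ModularForm.eq_const_of_weight_zero (CuspForm.toModularFormₗ f)
    have hc' : (⇑f : ℍ → ℂ) = Function.const ℍ c := hc
    have h0 : Tendsto (⇑f : ℍ → ℂ) atImInfty (𝓝 0) := CuspFormClass.zero_at_infty f
    rw [hc'] at h0
    have h1 : c = 0 := tendsto_nhds_unique tendsto_const_nhds h0
    ext z
    rw [hc', h1]
    rfl

theorem GenData.Phi_eq_zero_of (D : GenData N (Quo N)) (c : Quo N → ℂ) {k : ℤ}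
    (hc : ∀ l, c l ≠ 0 → 12 - D.wt l = k)
    (h : ∀ z, ∑ l, c l * D.Phi l (QuotientGroup.mk 1) z = 0) : c = 0 := by
  -- move to all components
  have h1 : ∀ q z, ∑ l, c l * D.Phi l q z = 0 := by
    intro q z
    obtain ⟨γ, rfl⟩ := exists_smul_mk_one q
    have h2 := h (γ • z)
    have hd : denom γ z ≠ 0 := denom_ne_zero _ _
    have h3 : ∀ l, c l * D.Phi l (QuotientGroup.mk 1) (γ • z) =
        denom γ z ^ k * (c l * D.Phi l ((sl γ)⁻¹ • QuotientGroup.mk 1) z) := by
      intro l
      by_cases hl : c l = 0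
      · simp [hl]
      · rw [D.Phi_smul, hc l hl]; ring
    simp_rw [h3] at h2
    rw [← Finset.mul_sum] at h2
    exact (mul_eq_zero.mp h2).resolve_left (zpow_ne_zero _ hd)
  have z : ℍ := I
  have h4 : Matrix.vecMul c (D.F z)⁻¹ = 0 := by
    funext q
    have h5 := h1 q z
    simp only [GenData.Phi] at h5
    have h6 : ModularForm.discriminant z * ∑ l, c l * (D.F z)⁻¹ l q = 0 := by
      rw [Finset.mul_sum, ← h5]
      refine Finset.sum_congr rfl fun l _ => ?_
      ring
    have h7 := (mul_eq_zero.mp h6).resolve_left (discriminant_ne_zero z)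
    simpa [Matrix.vecMul, dotProduct] using h7
  have h8 : Matrix.vecMul (Matrix.vecMul c (D.F z)⁻¹) (D.F z) = c := by
    rw [Matrix.vecMul_vecMul, Matrix.nonsing_inv_mul _ (D.isUnit_det_F z), Matrix.vecMul_one]
  rw [← h8, h4, Matrix.zero_vecMul]

theorem GenData.dual_ne_zero (D : GenData N (Quo N)) (hT : D.TendstoHyp) (l : Quo N) :
    D.dual hT l ≠ 0 := by
  classical
  intro h0
  have h1 : (Pi.single l 1 : Quo N → ℂ) = 0 := by
    apply D.Phi_eq_zero_of (Pi.single l 1) (k := 12 - D.wt l)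
    · intro l' hl'
      by_cases h : l' = l
      · rw [h]
      · simp [h] at hl'
    · intro z
      rw [Finset.sum_eq_single l]
      · have := congrArg (fun f : CuspForm (CongruenceSubgroup.Gamma0 N) (12 - D.wt l) => f z) h0
        simp only [Pi.single_eq_same, one_mul]
        exact this
      · intro b _ hb
        simp [hb]
      · intro h; exact absurd (Finset.mem_univ l) h
  have := congrFun h1 l
  simp at this

theorem GenData.wt_le_of (D : GenData N (Quo N)) (hT : D.TendstoHyp) (j : Quo N) :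
    D.wt j ≤ 10 := by
  by_contra hcon
  have h1 : 12 - D.wt j ≤ 0 := by
    obtain ⟨m, hm⟩ := D.wt_even j
    omega
  exact D.dual_ne_zero hT j (cuspForm_eq_zero_of_nonpos h1 _)

theorem exists_const_of_weight_eq_zero {k : ℤ} (hk : k = 0) (f : MF N k) :
    ∃ c, (⇑f : ℍ → ℂ) = Function.const ℍ c := by
  subst hk
  exact ModularForm.eq_const_of_weight_zero f

theorem exists_const_of_weight_eq_zero' {k : ℤ} (hk : k = 0) (f : ModularForm 𝒮ℒ k) :
    ∃ c, (⇑f : ℍ → ℂ) = Function.const ℍ c := by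
  subst hk
  exact ModularForm.eq_const_of_weight_zero f

/-- evaluation of cusp forms as a linear map -/
noncomputable def cuspEval (k : ℤ) (z : ℍ) :
    CuspForm (CongruenceSubgroup.Gamma0 N) k →ₗ[ℂ] ℂ where
  toFun f := f z
  map_add' _ _ := rfl
  map_smul' _ _ := rfl

/-- components of a cusp form -/
noncomputable def compC {k : ℤ} (h : CuspForm (CongruenceSubgroup.Gamma0 N) k) (q : Quo N) :
    ℍ → ℂ := SlashInvariantForm.quotientFunc h q

theorem compC_mk {k : ℤ} (h : CuspForm (CongruenceSubgroup.Gamma0 N) k) (γ : SL(2, ℤ)) :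
    compC h (QuotientGroup.mk (sl γ) : Quo N) = ⇑h ∣[k] γ⁻¹ := by
  show SlashInvariantForm.quotientFunc h ⟦sl γ⟧ = _
  rw [SlashInvariantForm.quotientFunc_mk, ModularForm.SL_slash, map_inv]
  rfl

theorem compC_one {k : ℤ} (h : CuspForm (CongruenceSubgroup.Gamma0 N) k) :
    compC h (QuotientGroup.mk 1 : Quo N) = ⇑h := by
  rw [← sl_one, compC_mk]
  simp

theorem compC_mulModularForm {k₁ k₂ : ℤ} (h : CuspForm (CongruenceSubgroup.Gamma0 N) k₁)
    (f : MF N k₂) (q : Quo N) :
    compC (h.mulModularForm f) q = compC h q * comp f q := by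
  obtain ⟨γ, rfl⟩ := exists_mk q
  rw [compC_mk, compC_mk, comp_mk, CuspForm.coe_mulModularForm]
  exact ModularForm.mul_slash_SL2 k₁ k₂ γ⁻¹ ⇑h ⇑f

/-- the coefficient forms `Tr(h f_l) / Δ`. -/
noncomputable def GenData.coef (D : GenData N (Quo N))
    (h : CuspForm (CongruenceSubgroup.Gamma0 N) 2) (l : Quo N) :
    ModularForm 𝒮ℒ (2 + D.wt l - 12) :=
  CuspForm.discriminantEquiv (CuspForm.trace 𝒮ℒ (h.mulModularForm (D.f l)))

theorem GenData.coef_apply (D : GenData N (Quo N))
    (h : CuspForm (CongruenceSubgroup.Gamma0 N) 2) (l : Quo N) (z : ℍ) :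
    D.coef h l z = (∑ q, compC h q z * D.F z q l) / ModularForm.discriminant z := by
  rw [GenData.coef, CuspForm.discriminantEquiv_apply, CuspForm.coe_trace]
  congr 1
  rw [Finset.sum_apply]
  refine Finset.sum_congr (by congr) fun q _ => ?_
  have := congrFun (compC_mulModularForm h (D.f l) q) z
  exact this

theorem GenData.compC_eq_sum (D : GenData N (Quo N))
    (h : CuspForm (CongruenceSubgroup.Gamma0 N) 2) (q : Quo N) (z : ℍ) :
    compC h q z = ∑ l, D.coef h l z * D.Phi l q z := by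
  have hΔ := discriminant_ne_zero z
  have h1 : ∀ l, D.coef h l z * D.Phi l q z =
      ∑ q', compC h q' z * (D.F z q' l * (D.F z)⁻¹ l q) := by
    intro l
    rw [D.coef_apply, GenData.Phi]
    have h2 : (∑ q, compC h q z * D.F z q l) / ModularForm.discriminant z *
        (ModularForm.discriminant z * (D.F z)⁻¹ l q) =
        (∑ q, compC h q z * D.F z q l) * (D.F z)⁻¹ l q := by
      field_simp
    rw [h2, Finset.sum_mul]
    refine Finset.sum_congr rfl fun q' _ => ?_
    ring
  simp_rw [h1]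
  rw [Finset.sum_comm]
  simp_rw [← Finset.mul_sum, ← Matrix.mul_apply, Matrix.mul_nonsing_inv _ (D.isUnit_det_F z)]
  simp [Matrix.one_apply]

theorem GenData.finrank_cuspForm_two_of (D : GenData N (Quo N)) (hT : D.TendstoHyp) :
    Module.finrank ℂ (CuspForm (CongruenceSubgroup.Gamma0 N) 2) =
      Fintype.card {j // D.wt j = 10} := by
  classical
  let v : {j // D.wt j = 10} → CuspForm (CongruenceSubgroup.Gamma0 N) 2 := fun j =>
    CuspForm.mcast (by rw [j.2]; norm_num) (D.dual hT j.1)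
  have hv : ∀ (j : {j // D.wt j = 10}) (z : ℍ), v j z = D.Phi j.1 (QuotientGroup.mk 1) z :=
    fun _ _ => rfl
  let T : ({j // D.wt j = 10} → ℂ) →ₗ[ℂ] CuspForm (CongruenceSubgroup.Gamma0 N) 2 :=
    Fintype.linearCombination ℂ v
  have hTz : ∀ c z, T c z = ∑ j : {j // D.wt j = 10}, c j * D.Phi j.1 (QuotientGroup.mk 1) z := by
    intro c z
    have h1 : T c z = cuspEval 2 z (T c) := rfl
    rw [h1, Fintype.linearCombination_apply, map_sum]
    refine Finset.sum_congr rfl fun j _ => ?_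
    rw [map_smul]
    rfl
  -- sums over the subtype
  have hsub : ∀ g : Quo N → ℂ, (∀ l, D.wt l ≠ 10 → g l = 0) →
      ∑ l, g l = ∑ j : {j // D.wt j = 10}, g j.1 := by
    intro g hg
    rw [← Finset.sum_subtype (Finset.univ.filter fun l => D.wt l = 10) (by simp) g,
      Finset.sum_filter_of_ne]
    intro l _ hl
    by_contra hcon
    exact hl (hg l hcon)
  have hinj : Function.Injective T := by
    rw [← LinearMap.ker_eq_bot, LinearMap.ker_eq_bot']
    intro c hc
    set c' : Quo N → ℂ := fun l => if h : D.wt l = 10 then c ⟨l, h⟩ else 0 with hc'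
    have h1 : c' = 0 := by
      apply D.Phi_eq_zero_of c' (k := 2)
      · intro l hl
        by_cases h : D.wt l = 10
        · rw [h]; norm_num
        · simp [hc', h] at hl
      · intro z
        rw [hsub (fun l => c' l * D.Phi l (QuotientGroup.mk 1) z)]
        · have h2 := hTz c z
          rw [hc] at h2
          rw [show (0 : ℂ) = (0 : CuspForm (CongruenceSubgroup.Gamma0 N) 2) z from rfl, h2]
          refine Finset.sum_congr rfl fun j _ => ?_
          simp [hc', j.2]
        · intro l hl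
          simp [hc', hl]
    funext j
    have := congrFun h1 j.1
    simpa [hc', j.2] using this
  have hsurj : Function.Surjective T := by
    intro h
    have hconst : ∀ j : {j // D.wt j = 10}, ∃ c, (⇑(D.coef h j.1) : ℍ → ℂ) = Function.const ℍ c :=
      fun j => exists_const_of_weight_eq_zero' (by rw [j.2]; norm_num) _
    choose c hc using hconst
    refine ⟨c, ?_⟩
    ext z
    rw [hTz]
    have h1 := D.compC_eq_sum h (QuotientGroup.mk 1) z
    rw [compC_one] at h1
    rw [h1, hsub (fun l => D.coef h l z * D.Phi l (QuotientGroup.mk 1) z)]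
    · refine Finset.sum_congr rfl fun j _ => ?_
      rw [hc j]
      rfl
    · intro l hl
      have h2 : D.coef h l = 0 := by
        apply ModularForm.isZero_of_neg_weight
        have := D.wt_le_of hT l
        omega
      simp [h2]
  have e := LinearEquiv.ofBijective T ⟨hinj, hsurj⟩
  rw [← e.finrank_eq, Module.finrank_fintype_fun_eq_card]

end Fermat.Agent.S20
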