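import Mathlib
import Fermat.Agent.S20.GenDefs

set_option autoImplicit false

namespace Fermat.Agent.S20

open UpperHalfPlane ModularForm Matrix.SpecialLinearGroup EisensteinSeries ModularFormClass Filter
open scoped MatrixGroups ModularForm Manifold Topology Real

variable {N : ℕ} [NeZero N] {k : ℤ}

/-- trace identity at a fixed point. -/
theorem GenData.sum_denom_zpow (D : GenData N (Quo N)) (γ : SL(2, ℤ)) (z : ℍ) (hz : γ • z = z)
    (hF : (D.F z).det ≠ 0) :
    ∑ j, (denom γ z) ^ (- D.wt j) = (Nat.card {q : Quo N // sl γ • q = q} : ℂ) := by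
  classical
  have hc : denom γ z ≠ 0 := denom_ne_zero _ _
  set M := D.F z with hM
  have hdet : IsUnit M.det := isUnit_iff_ne_zero.mpr hF
  let P : Matrix (Quo N) (Quo N) ℂ := Matrix.of fun q q' => if q' = (sl γ)⁻¹ • q then 1 else 0
  let d : Matrix (Quo N) (Quo N) ℂ := Matrix.diagonal fun j => (denom γ z) ^ (- D.wt j)
  have hPM : P * M = M * d := by
    ext q j
    rw [Matrix.mul_diagonal, Matrix.mul_apply]
    simp only [P, Matrix.of_apply, ite_mul, one_mul, zero_mul, Finset.sum_ite_eq', Finset.mem_univ,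
      if_true]
    have h1 := comp_smul_apply (D.f j) q γ z
    rw [hz] at h1
    rw [hM, GenData.F_apply, GenData.F_apply, h1, mul_comm, ← mul_assoc, ← zpow_add₀ hc]
    simp
  have hP : P = M * d * M⁻¹ := by
    rw [← hPM, Matrix.mul_assoc, Matrix.mul_nonsing_inv M hdet, Matrix.mul_one]
  have htr : P.trace = d.trace := by
    rw [hP, Matrix.trace_mul_comm, ← Matrix.mul_assoc, Matrix.nonsing_inv_mul M hdet,
      Matrix.one_mul]
  have hd : d.trace = ∑ j, (denom γ z) ^ (- D.wt j) := by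
    simp [d, Matrix.trace_diagonal]
  rw [← hd, ← htr]
  simp only [Matrix.trace, Matrix.diag_apply, P, Matrix.of_apply]
  rw [Finset.sum_boole, Nat.card_eq_fintype_card, Fintype.card_subtype]
  congr 2
  ext q
  simp only [Finset.mem_filter, Finset.mem_univ, true_and]
  rw [eq_inv_smul_iff]

theorem S_smul_I : ModularGroup.S • (I : ℍ) = I := by
  ext
  rw [UpperHalfPlane.coe_specialLinearGroup_apply]
  simp [ModularGroup.coe_S]

theorem denom_S_I : denom (ModularGroup.S : SL(2, ℤ)) (I : ℍ) = Complex.I := by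
  simp [denom, ModularGroup.coe_S]

theorem GenData.sum_I_zpow_of_det (D : GenData N (Quo N)) (hF : (D.F I).det ≠ 0) :
    ∑ j, (Complex.I : ℂ) ^ (- D.wt j) =
      (Nat.card {q : Quo N // sl ModularGroup.S • q = q} : ℂ) := by
  have := D.sum_denom_zpow ModularGroup.S I S_smul_I hF
  rwa [denom_S_I] at this

theorem coe_rho : (rho : ℂ) = -1 / 2 + (Real.sqrt 3 / 2 : ℝ) * Complex.I := rfl

theorem rho_add_one : (rho : ℂ) + 1 = Complex.exp (π * Complex.I / 3) := by
  have h : (π : ℂ) * Complex.I / 3 = ((π / 3 : ℝ) : ℂ) * Complex.I := by push_cast; ring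
  rw [h, Complex.exp_mul_I, ← Complex.ofReal_cos, ← Complex.ofReal_sin, Real.cos_pi_div_three,
    Real.sin_pi_div_three, coe_rho]
  push_cast
  ring

theorem rho_sq : (rho : ℂ) ^ 2 + rho + 1 = 0 := by
  have h3 : ((Real.sqrt 3 : ℝ) : ℂ) ^ 2 = 3 := by
    rw [← Complex.ofReal_pow, Real.sq_sqrt (by norm_num)]
    norm_num
  rw [coe_rho]
  push_cast
  ring_nf
  rw [Complex.I_sq, h3]
  ring

theorem coe_ST : ((ModularGroup.S * ModularGroup.T : SL(2, ℤ)) : Matrix (Fin 2) (Fin 2) ℤ) =
    !![0, -1; 1, 1] := by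
  rw [Matrix.SpecialLinearGroup.coe_mul, ModularGroup.coe_S, ModularGroup.coe_T]
  ext i j
  fin_cases i <;> fin_cases j <;> simp [Matrix.mul_apply, Fin.sum_univ_two]

theorem denom_ST_rho : denom (ModularGroup.S * ModularGroup.T : SL(2, ℤ)) rho = (rho : ℂ) + 1 := by
  have h10 : (ModularGroup.S * ModularGroup.T : SL(2, ℤ)) 1 0 = 1 := by
    rw [coe_ST]; rfl
  have h11 : (ModularGroup.S * ModularGroup.T : SL(2, ℤ)) 1 1 = 1 := by
    rw [coe_ST]; rfl
  simp only [denom]
  simp [-map_mul]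

theorem ST_smul_rho : (ModularGroup.S * ModularGroup.T : SL(2, ℤ)) • rho = rho := by
  have h00 : (ModularGroup.S * ModularGroup.T : SL(2, ℤ)) 0 0 = 0 := by
    rw [coe_ST]; rfl
  have h01 : (ModularGroup.S * ModularGroup.T : SL(2, ℤ)) 0 1 = -1 := by
    rw [coe_ST]; rfl
  have h10 : (ModularGroup.S * ModularGroup.T : SL(2, ℤ)) 1 0 = 1 := by
    rw [coe_ST]; rfl
  have h11 : (ModularGroup.S * ModularGroup.T : SL(2, ℤ)) 1 1 = 1 := by
    rw [coe_ST]; rfl
  ext
  rw [UpperHalfPlane.coe_specialLinearGroup_apply, h00, h01, h10, h11]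
  have hne : (rho : ℂ) + 1 ≠ 0 := by
    rw [rho_add_one]; exact Complex.exp_ne_zero _
  push_cast
  rw [one_mul, div_eq_iff hne]
  linear_combination -rho_sq

theorem GenData.sum_exp_zpow_of_det (D : GenData N (Quo N)) (hF : (D.F rho).det ≠ 0) :
    ∑ j, (Complex.exp (π * Complex.I / 3)) ^ (- D.wt j) =
      (Nat.card {q : Quo N // sl (ModularGroup.S * ModularGroup.T) • q = q} : ℂ) := by
  have := D.sum_denom_zpow (ModularGroup.S * ModularGroup.T) rho ST_smul_rho hF
  rwa [denom_ST_rho, rho_add_one] at this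

end Fermat.Agent.S20
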