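import Mathlib
import Fermat.Agent.S20.Traces

set_option autoImplicit false

namespace Fermat.Agent.S20

open UpperHalfPlane ModularForm Matrix.SpecialLinearGroup EisensteinSeries ModularFormClass Filter
open scoped MatrixGroups ModularForm Manifold Topology Real

variable {N : ℕ} [NeZero N]

/-- number of generators of a given weight. -/
noncomputable def GenData.num (D : GenData N (Quo N)) (w : ℤ) : ℕ := Fintype.card {j // D.wt j = w}

theorem GenData.sum_comp_wt (D : GenData N (Quo N)) (h0 : ∀ j, 0 ≤ D.wt j)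
    (heven : ∀ j, Even (D.wt j)) (hle : ∀ j, D.wt j ≤ 10) {R : Type} [AddCommMonoid R]
    (g : ℤ → R) :
    ∑ j, g (D.wt j) = D.num 0 • g 0 + D.num 2 • g 2 + D.num 4 • g 4 + D.num 6 • g 6 +
      D.num 8 • g 8 + D.num 10 • g 10 := by
  classical
  have hmem : ∀ j ∈ (Finset.univ : Finset (Quo N)), D.wt j ∈ ({0, 2, 4, 6, 8, 10} : Finset ℤ) := by
    intro j _
    obtain ⟨m, hm⟩ := heven j
    have h1 := h0 j
    have h2 := hle j
    have : m = 0 ∨ m = 1 ∨ m = 2 ∨ m = 3 ∨ m = 4 ∨ m = 5 := by omega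
    rcases this with rfl | rfl | rfl | rfl | rfl | rfl <;> simp [hm]
  rw [← Finset.sum_fiberwise_of_maps_to hmem]
  have hin : ∀ w : ℤ, ∑ j ∈ Finset.univ.filter (fun j => D.wt j = w), g (D.wt j) = D.num w • g w := by
    intro w
    rw [Finset.sum_congr rfl (fun j hj => by rw [(Finset.mem_filter.mp hj).2]), Finset.sum_const,
      GenData.num, Fintype.card_subtype]
  simp_rw [hin]
  simp [Finset.sum_insert, add_assoc]

theorem I_zpow_vals : (Complex.I ^ (-(0 : ℤ)) = 1) ∧ (Complex.I ^ (-(2 : ℤ)) = -1) ∧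
    (Complex.I ^ (-(4 : ℤ)) = 1) ∧ (Complex.I ^ (-(6 : ℤ)) = -1) ∧ (Complex.I ^ (-(8 : ℤ)) = 1) ∧
    (Complex.I ^ (-(10 : ℤ)) = -1) := by
  have h2 : Complex.I ^ (2 : ℕ) = -1 := Complex.I_sq
  have e : ∀ m : ℕ, Complex.I ^ (-((2 * m : ℕ) : ℤ)) = (-1) ^ m := by
    intro m
    rw [zpow_neg, zpow_natCast, pow_mul, h2, ← inv_pow]
    norm_num
  refine ⟨by simp, ?_, ?_, ?_, ?_, ?_⟩
  · simp
  · simp
  · simp
  · simp
  · simp

theorem zeta_zpow (m : ℕ) :
    (Complex.exp (π * Complex.I / 3)) ^ (-((2 * m : ℕ) : ℤ)) = ((rho : ℂ) ^ 2) ^ m := by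
  have hinv : ((rho : ℂ) + 1)⁻¹ = -rho := by
    apply inv_eq_of_mul_eq_one_left
    linear_combination -rho_sq
  rw [← rho_add_one, zpow_neg, zpow_natCast, ← inv_pow, hinv, pow_mul]
  congr 1
  ring

theorem rho_cube : (rho : ℂ) ^ 3 = 1 := by
  linear_combination ((rho : ℂ) - 1) * rho_sq

theorem zeta_zpow_vals : ((Complex.exp (π * Complex.I / 3)) ^ (-(0 : ℤ)) = 1) ∧
    ((Complex.exp (π * Complex.I / 3)) ^ (-(2 : ℤ)) = -1 - rho) ∧
    ((Complex.exp (π * Complex.I / 3)) ^ (-(4 : ℤ)) = rho) ∧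
    ((Complex.exp (π * Complex.I / 3)) ^ (-(6 : ℤ)) = 1) ∧
    ((Complex.exp (π * Complex.I / 3)) ^ (-(8 : ℤ)) = -1 - rho) ∧
    ((Complex.exp (π * Complex.I / 3)) ^ (-(10 : ℤ)) = rho) := by
  have h2 := rho_sq
  have h3 := rho_cube
  refine ⟨by simp, ?_, ?_, ?_, ?_, ?_⟩
  · rw [show (-(2 : ℤ)) = -((2 * 1 : ℕ) : ℤ) by norm_num, zeta_zpow]
    linear_combination h2
  · rw [show (-(4 : ℤ)) = -((2 * 2 : ℕ) : ℤ) by norm_num, zeta_zpow]
    linear_combination (rho : ℂ) * h3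
  · rw [show (-(6 : ℤ)) = -((2 * 3 : ℕ) : ℤ) by norm_num, zeta_zpow]
    linear_combination ((rho : ℂ) ^ 3 + 1) * h3
  · rw [show (-(8 : ℤ)) = -((2 * 4 : ℕ) : ℤ) by norm_num, zeta_zpow]
    linear_combination ((rho : ℂ) ^ 5 + (rho : ℂ) ^ 2) * h3 + h2
  · rw [show (-(10 : ℤ)) = -((2 * 5 : ℕ) : ℤ) by norm_num, zeta_zpow]
    linear_combination ((rho : ℂ) ^ 7 + (rho : ℂ) ^ 4 + rho) * h3

/-- The final arithmetic. -/
theorem GenData.final (D : GenData N (Quo N)) (hI : (D.F I).det ≠ 0) (hrho : (D.F rho).det ≠ 0)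
    (h0 : ∀ j, 0 ≤ D.wt j) (heven : ∀ j, Even (D.wt j)) (hle : ∀ j, D.wt j ≤ 10)
    (hone : Fintype.card {j // D.wt j = 0} = 1)
    (hsum : ∑ j, D.wt j = 6 * ((Nat.card (Quo N) : ℤ) -
      Nat.card (MulAction.orbitRel.Quotient (Subgroup.zpowers (sl ModularGroup.T)) (Quo N)))) :
    ((Fintype.card {j // D.wt j = 10} : ℕ) : ℚ) = 1 + (Nat.card (Quo N) : ℚ) / 12
      - (Nat.card {q : Quo N // sl ModularGroup.S • q = q} : ℚ) / 4
      - (Nat.card {q : Quo N // sl (ModularGroup.S * ModularGroup.T) • q = q} : ℚ) / 3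
      - (Nat.card (MulAction.orbitRel.Quotient (Subgroup.zpowers (sl ModularGroup.T)) (Quo N)) : ℚ)
        / 2 := by
  have e1 := D.sum_comp_wt h0 heven hle (fun _ => (1 : ℝ))
  have e2 := D.sum_comp_wt h0 heven hle (fun w => (Complex.I : ℂ) ^ (-w))
  have e3 := D.sum_comp_wt h0 heven hle (fun w => (Complex.exp (π * Complex.I / 3)) ^ (-w))
  have e4 := D.sum_comp_wt h0 heven hle (fun w => w)
  rw [D.sum_I_zpow_of_det hI] at e2
  rw [D.sum_exp_zpow_of_det hrho] at e3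
  rw [hsum] at e4
  obtain ⟨a0, a2, a4, a6, a8, a10⟩ := I_zpow_vals
  obtain ⟨b0, b2, b4, b6, b8, b10⟩ := zeta_zpow_vals
  simp only [a0, a2, a4, a6, a8, a10] at e2
  simp only [b0, b2, b4, b6, b8, b10] at e3
  have hn0 : D.num 0 = 1 := hone
  change ((D.num 10 : ℕ) : ℚ) = _
  generalize Nat.card {q : Quo N // sl ModularGroup.S • q = q} = E2 at *
  generalize Nat.card {q : Quo N // sl (ModularGroup.S * ModularGroup.T) • q = q} = E3 at *
  generalize Nat.card (MulAction.orbitRel.Quotient (Subgroup.zpowers (sl ModularGroup.T)) (Quo N))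
    = C at *
  have hμ : (Nat.card (Quo N) : ℝ) = ∑ _j : Quo N, (1 : ℝ) := by
    simp [Nat.card_eq_fintype_card]
  rw [← hμ] at e1
  generalize Nat.card (Quo N) = M at *
  generalize D.num 0 = n0 at *
  generalize D.num 2 = n2 at *
  generalize D.num 4 = n4 at *
  generalize D.num 6 = n6 at *
  generalize D.num 8 = n8 at *
  generalize D.num 10 = n10 at *
  subst hn0
  have e2r := congrArg Complex.re e2
  have e3r := congrArg Complex.re e3
  have e3i := congrArg Complex.im e3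
  have hre : rho.re = -1 / 2 := by
    have : (rho : ℂ).re = -1 / 2 := by simp [coe_rho]
    simpa using this
  have him : rho.im = Real.sqrt 3 / 2 := by
    have : (rho : ℂ).im = Real.sqrt 3 / 2 := by simp [coe_rho]
    simpa using this
  have hs3 : (0 : ℝ) < Real.sqrt 3 := Real.sqrt_pos.mpr (by norm_num)
  simp [hre, him] at e1 e2r e3r e3i
  have e4r : (6 * ((M : ℝ) - C)) = 2 * n2 + 4 * n4 + 6 * n6 + 8 * n8 + 10 * n10 := by
    have := congrArg (fun x : ℤ => (x : ℝ)) e4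
    simp at this
    linarith
  have e3i' : (n4 : ℝ) + n10 = n2 + n8 := by
    have : Real.sqrt 3 * (((n4 : ℝ) + n10) - (n2 + n8)) = 0 := by linarith
    rcases mul_eq_zero.mp this with h | h
    · exact absurd h hs3.ne'
    · linarith
  have key : (n10 : ℝ) = 1 + (M : ℝ) / 12 - (E2 : ℝ) / 4 - (E3 : ℝ) / 3 - (C : ℝ) / 2 := by
    linarith
  have key' : (((n10 : ℕ) : ℚ) : ℝ) =
      ((1 + (M : ℚ) / 12 - (E2 : ℚ) / 4 - (E3 : ℚ) / 3 - (C : ℚ) / 2 : ℚ) : ℝ) := by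
    push_cast
    exact key
  exact_mod_cast key'

end Fermat.Agent.S20
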