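import Mathlib
import Fermat.Agent.S20.Pairs

set_option autoImplicit false

/-!
# S20, K2: fixed points of `S` and `S * T` on `SL₂(ℤ)/Γ₀(N)`
-/

namespace Fermat.Agent.S20

open UpperHalfPlane ModularForm Matrix.SpecialLinearGroup
open scoped MatrixGroups ModularForm Manifold

variable {N : ℕ}

/-- the elliptic matrix `[[0,-1],[1,t]]`. -/
def ellMat (t : ℤ) : SL(2, ℤ) := ⟨!![0, -1; 1, t], by rw [Matrix.det_fin_two_of]; ring⟩

/-- a matrix with first column `(a, 1)`. -/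
def colMat (a : ℤ) : SL(2, ℤ) := ⟨!![a, -1; 1, 0], by rw [Matrix.det_fin_two_of]; ring⟩

theorem ellMat_zero : ellMat 0 = ModularGroup.S := by
  ext i j; fin_cases i <;> fin_cases j <;> simp [ellMat, ModularGroup.S]

theorem ellMat_one : ellMat 1 = ModularGroup.S * ModularGroup.T := by
  ext i j
  rw [Matrix.SpecialLinearGroup.coe_mul]
  fin_cases i <;> fin_cases j <;>
    simp [ellMat, ModularGroup.S, ModularGroup.T, Matrix.mul_apply, Fin.sum_univ_two]

theorem ellMat_smul_eq_iff (t : ℤ) (γ : SL(2, ℤ)) :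
    sl (ellMat t) • (QuotientGroup.mk (sl γ) : Quo N) = QuotientGroup.mk (sl γ) ↔
      (N : ℤ) ∣ γ 0 0 ^ 2 + t * (γ 0 0 * γ 1 0) + γ 1 0 ^ 2 := by
  rw [pr_sl_smul_mk, mk_sl_eq_iff_dvd, ← dvd_neg]
  have h00 : (ellMat t * γ) 0 0 = - γ 1 0 := by
    rw [Matrix.SpecialLinearGroup.coe_mul, Matrix.mul_apply, Fin.sum_univ_two]
    simp [ellMat]
  have h10 : (ellMat t * γ) 1 0 = γ 0 0 + t * γ 1 0 := by
    rw [Matrix.SpecialLinearGroup.coe_mul, Matrix.mul_apply, Fin.sum_univ_two]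
    simp [ellMat]
  rw [h00, h10]
  have : -(-γ 1 0 * γ 1 0 - γ 0 0 * (γ 0 0 + t * γ 1 0))
      = γ 0 0 ^ 2 + t * (γ 0 0 * γ 1 0) + γ 1 0 ^ 2 := by ring
  rw [this]

theorem card_fixed_ellMat (N : ℕ) [NeZero N] (t : ℤ) :
    Nat.card {q : Quo N // sl (ellMat t) • q = q} =
      Nat.card {x : ZMod N // x ^ 2 + (t : ZMod N) * x + 1 = 0} := by
  symm
  have hf : ∀ x : {x : ZMod N // x ^ 2 + (t : ZMod N) * x + 1 = 0},
      sl (ellMat t) • (QuotientGroup.mk (sl (colMat (x.1.val : ℤ))) : Quo N)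
        = QuotientGroup.mk (sl (colMat (x.1.val : ℤ))) := by
    intro x
    rw [ellMat_smul_eq_iff, ← ZMod.intCast_zmod_eq_zero_iff_dvd]
    have := x.2
    simpa [colMat] using this
  refine Nat.card_congr (Equiv.ofBijective
    (fun x => ⟨QuotientGroup.mk (sl (colMat (x.1.val : ℤ))), hf x⟩) ⟨?_, ?_⟩)
  · intro x y hxy
    have h := congrArg Subtype.val hxy
    simp only at h
    rw [mk_sl_eq_iff_dvd, ← ZMod.intCast_zmod_eq_zero_iff_dvd] at h
    apply Subtype.ext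
    have h2 : x.1 - y.1 = 0 := by simpa [colMat] using h
    exact sub_eq_zero.mp h2
  · rintro ⟨q, hq⟩
    obtain ⟨γ, rfl⟩ := exists_mk_sl q
    rw [ellMat_smul_eq_iff, ← ZMod.intCast_zmod_eq_zero_iff_dvd] at hq
    push_cast at hq
    set a : ZMod N := ((γ 0 0 : ℤ) : ZMod N) with ha
    set c : ZMod N := ((γ 1 0 : ℤ) : ZMod N) with hc
    have hcop : IsCoprime a c := (col_isCoprime γ).intCast
    have hdvd : c ∣ a ^ 2 := ⟨-(t * a) - c, by linear_combination hq⟩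
    have hu : IsUnit c := (hcop.pow_left (m := 2)).isUnit_of_dvd' hdvd dvd_rfl
    obtain ⟨u, hu⟩ := hu
    have hinv : c * (↑u⁻¹ : ZMod N) = 1 := by rw [← hu]; simp
    refine ⟨⟨a * (↑u⁻¹ : ZMod N), ?_⟩, ?_⟩
    · linear_combination (↑u⁻¹ : ZMod N) ^ 2 * hq - (t * a * (↑u⁻¹ : ZMod N) + c * (↑u⁻¹ : ZMod N) + 1) * hinv
    · apply Subtype.ext
      simp only
      rw [mk_sl_eq_iff_dvd, ← ZMod.intCast_zmod_eq_zero_iff_dvd]
      simp only [colMat]
      push_cast
      simp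
      rw [← ha, ← hc]
      linear_combination a * hinv

theorem card_fixed_S (N : ℕ) [NeZero N] :
    Nat.card {q : Quo N // sl ModularGroup.S • q = q} = ModularCurve.nuTwo N := by
  rw [← ellMat_zero, card_fixed_ellMat, ModularCurve.nuTwo]
  simp

theorem card_fixed_ST (N : ℕ) [NeZero N] :
    Nat.card {q : Quo N // sl (ModularGroup.S * ModularGroup.T) • q = q} =
      ModularCurve.nuThree N := by
  rw [← ellMat_one, card_fixed_ellMat, ModularCurve.nuThree]
  simp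

end Fermat.Agent.S20
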