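import Mathlib
import Fermat.Agent.S20.Basic

set_option autoImplicit false
set_option maxHeartbeats 400000

/-!
# S20: function level API: the spaces `Ls w` (level one) and `Ms N k` inside `ℍ → ℂ`
-/

namespace Fermat.Agent.S20

open UpperHalfPlane ModularForm Matrix.SpecialLinearGroup EisensteinSeries ModularFormClass Filter
open scoped MatrixGroups ModularForm Manifold Topology

/-- coercion to functions as a linear map. -/
noncomputable def coeLin (Γ : Subgroup (GL (Fin 2) ℝ)) [Γ.HasDetOne] (k : ℤ) :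
    ModularForm Γ k →ₗ[ℂ] (ℍ → ℂ) where
  toFun f := ⇑f
  map_add' _ _ := rfl
  map_smul' _ _ := rfl

theorem coeLin_injective (Γ : Subgroup (GL (Fin 2) ℝ)) [Γ.HasDetOne] (k : ℤ) :
    Function.Injective (coeLin Γ k) := fun _ _ h => DFunLike.coe_injective h

/-- level one forms of weight `w`, as functions. -/
noncomputable def Ls (w : ℤ) : Submodule ℂ (ℍ → ℂ) := LinearMap.range (coeLin 𝒮ℒ w)

/-- forms of weight `k` on `Γ₀(N)`, as functions. -/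
noncomputable def Ms (N : ℕ) (k : ℤ) : Submodule ℂ (ℍ → ℂ) :=
  LinearMap.range (coeLin (CongruenceSubgroup.Gamma0 N) k)

theorem mem_Ls {w : ℤ} {a : ℍ → ℂ} : a ∈ Ls w ↔ ∃ A : ModularForm 𝒮ℒ w, ⇑A = a := Iff.rfl

theorem mem_Ms {N : ℕ} {k : ℤ} {f : ℍ → ℂ} : f ∈ Ms N k ↔ ∃ F : MF N k, ⇑F = f := Iff.rfl

theorem coe_mem_Ls {w : ℤ} (A : ModularForm 𝒮ℒ w) : ⇑A ∈ Ls w := ⟨A, rfl⟩

theorem coe_mem_Ms {N : ℕ} {k : ℤ} (F : MF N k) : ⇑F ∈ Ms N k := ⟨F, rfl⟩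

theorem Ls_congr {w w' : ℤ} (h : w = w') : Ls w = Ls w' := by rw [h]

theorem Ms_congr {N : ℕ} {k k' : ℤ} (h : k = k') : Ms N k = Ms N k' := by rw [h]

theorem mul_mem_Ms {N : ℕ} {w k k' : ℤ} (h : w + k = k') {a f : ℍ → ℂ} (ha : a ∈ Ls w)
    (hf : f ∈ Ms N k) : a * f ∈ Ms N k' := by
  obtain ⟨A, rfl⟩ := ha
  obtain ⟨F, rfl⟩ := hf
  exact ⟨mulL h A F, coe_mulL h A F⟩

theorem mul_mem_Ls {w k k' : ℤ} (h : w + k = k') {a f : ℍ → ℂ} (ha : a ∈ Ls w)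
    (hf : f ∈ Ls k) : a * f ∈ Ls k' := by
  obtain ⟨A, rfl⟩ := ha
  obtain ⟨F, rfl⟩ := hf
  refine ⟨ModularForm.mcast h (A.mul F), ?_⟩
  ext z
  show (ModularForm.mcast h (A.mul F)) z = A z * F z
  simp [ModularForm.mcast_apply]

theorem Ls_eq_bot_of_neg {w : ℤ} (hw : w < 0) : Ls w = ⊥ := by
  rw [eq_bot_iff]
  rintro _ ⟨A, rfl⟩
  have : A = 0 := rank_zero_iff_forall_zero.mp (levelOne_neg_weight_rank_zero hw) A
  rw [this]
  exact Submodule.zero_mem _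

theorem Ls_eq_bot_of_odd {w : ℤ} (hw : Odd w) : Ls w = ⊥ := by
  rw [eq_bot_iff]
  rintro _ ⟨A, rfl⟩
  rw [ModularForm.levelOne_odd_weight_eq_zero hw A]
  exact Submodule.zero_mem _

theorem Ls_two : Ls 2 = ⊥ := by
  rw [eq_bot_iff]
  rintro _ ⟨A, rfl⟩
  have : A = 0 := rank_zero_iff_forall_zero.mp levelOne_weight_two_rank_zero A
  rw [this]
  exact Submodule.zero_mem _

theorem exists_const_of_mem_Ls_zero {a : ℍ → ℂ} (ha : a ∈ Ls 0) : ∃ c : ℂ, a = fun _ => c := by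
  obtain ⟨A, rfl⟩ := ha
  obtain ⟨c, hc⟩ := ModularFormClass.levelOne_weight_zero_const A
  exact ⟨c, hc⟩

theorem const_mem_Ls_zero (c : ℂ) : (fun _ => c : ℍ → ℂ) ∈ Ls 0 :=
  ⟨ModularForm.const c, by ext z; rfl⟩

theorem E4_mem : ⇑E₄ ∈ Ls 4 := coe_mem_Ls _
theorem E6_mem : ⇑E₆ ∈ Ls 6 := coe_mem_Ls _
theorem disc_mem : (ModularForm.discriminant : ℍ → ℂ) ∈ Ls 12 :=
  ⟨(CuspForm.discriminant : ModularForm 𝒮ℒ 12), rfl⟩

theorem tendsto_coeff_zero {w : ℤ} (A : ModularForm 𝒮ℒ w) :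
    Tendsto A atImInfty (𝓝 ((qExpansion 1 A).coeff 0)) := by
  have hanal := ModularFormClass.analyticAt_cuspFunction_zero A one_pos one_mem_strictPeriods_SL
  have hper := SlashInvariantFormClass.periodic_comp_ofComplex A one_mem_strictPeriods_SL
  rw [qExpansion_coeff_zero one_pos hanal hper, ← cuspFunction_apply_zero one_pos hanal hper]
  exact (hanal.continuousAt.tendsto.comp (qParam_tendsto_atImInfty one_pos)).congr
    (fun τ ↦ SlashInvariantFormClass.eq_cuspFunction A τ one_mem_strictPeriods_SL one_ne_zero)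

theorem exists_tendsto_of_mem_Ls {w : ℤ} {a : ℍ → ℂ} (ha : a ∈ Ls w) :
    ∃ c, Tendsto a atImInfty (𝓝 c) := by
  obtain ⟨A, rfl⟩ := ha
  exact ⟨_, tendsto_coeff_zero A⟩

theorem exists_eq_disc_mul {w : ℤ} {a : ℍ → ℂ} (ha : a ∈ Ls w)
    (h0 : Tendsto a atImInfty (𝓝 0)) :
    ∃ b ∈ Ls (w - 12), a = (ModularForm.discriminant : ℍ → ℂ) * b := by
  obtain ⟨A, rfl⟩ := ha
  have hc : (qExpansion 1 A).coeff 0 = 0 := tendsto_nhds_unique (tendsto_coeff_zero A) h0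
  refine ⟨_, coe_mem_Ls (CuspForm.discriminantEquiv (toCuspForm A hc)), ?_⟩
  rw [discriminant_mul_discriminantEquiv]
  rfl

theorem tendsto_E {k : ℕ} (hk : 3 ≤ k) (hk2 : Even k) : Tendsto (E hk) atImInfty (𝓝 1) := by
  have := tendsto_coeff_zero (E hk)
  rwa [E_qExpansion_coeff_zero hk hk2] at this

theorem tendsto_E4 : Tendsto E₄ atImInfty (𝓝 1) := tendsto_E _ ⟨2, rfl⟩
theorem tendsto_E6 : Tendsto E₆ atImInfty (𝓝 1) := tendsto_E _ ⟨3, rfl⟩

theorem exists_unit_form {v : ℤ} (hv : 0 ≤ v) (hev : Even v) (h2 : v ≠ 2) :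
    ∃ e ∈ Ls v, Tendsto e atImInfty (𝓝 1) := by
  rcases eq_or_lt_of_le hv with h0 | h0
  · subst h0
    exact ⟨_, const_mem_Ls_zero 1, tendsto_const_nhds⟩
  · lift v to ℕ using hv
    have hev' : Even v := by exact_mod_cast hev
    have h3 : 3 ≤ v := by
      obtain ⟨r, hr⟩ := hev'
      have : v ≠ 2 := by exact_mod_cast h2
      have : 0 < v := by exact_mod_cast h0
      omega
    exact ⟨_, coe_mem_Ls (E h3), tendsto_E h3 hev'⟩

theorem disc_eq : (ModularForm.discriminant : ℍ → ℂ) =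
    (1 / 1728 : ℂ) • (⇑E₄ * ⇑E₄ * ⇑E₄ - ⇑E₆ * ⇑E₆) := by
  ext z
  simp only [Pi.smul_apply, Pi.sub_apply, Pi.mul_apply, smul_eq_mul]
  rw [discriminant_eq_E₄_cube_sub_E₆_sq]
  ring

/-- decomposition of level one forms of nonzero weight. -/
theorem Ls_decomp {w : ℤ} (hw : w ≠ 0) {a : ℍ → ℂ} (ha : a ∈ Ls w) :
    ∃ a' ∈ Ls (w - 4), ∃ a'' ∈ Ls (w - 6), a = ⇑E₄ * a' + ⇑E₆ * a'' := by
  have triv : a = 0 → ∃ a' ∈ Ls (w - 4), ∃ a'' ∈ Ls (w - 6), a = ⇑E₄ * a' + ⇑E₆ * a'' := by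
    rintro rfl
    exact ⟨0, Submodule.zero_mem _, 0, Submodule.zero_mem _, by simp⟩
  rcases lt_or_ge w 0 with hneg | hnn
  · rw [Ls_eq_bot_of_neg hneg] at ha
    exact triv ha
  rcases Int.even_or_odd w with hev | hodd
  swap
  · rw [Ls_eq_bot_of_odd hodd] at ha
    exact triv ha
  by_cases h2 : w = 2
  · subst h2
    rw [Ls_two] at ha
    exact triv ha
  obtain ⟨c, hc⟩ := exists_tendsto_of_mem_Ls ha
  -- a form `m` of weight `w` with limit one of the required shape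
  obtain ⟨m', hm', m'', hm'', hm⟩ : ∃ m' ∈ Ls (w - 4), ∃ m'' ∈ Ls (w - 6),
      Tendsto (⇑E₄ * m' + ⇑E₆ * m'') atImInfty (𝓝 1) := by
    by_cases h6 : w = 6
    · subst h6
      refine ⟨0, Submodule.zero_mem _, fun _ => 1, const_mem_Ls_zero 1, ?_⟩
      have : (⇑E₄ * (0 : ℍ → ℂ) + ⇑E₆ * fun _ => (1 : ℂ)) = ⇑E₆ := by
        ext z; simp
      rw [this]
      exact tendsto_E6
    · obtain ⟨r, hr⟩ := hev
      obtain ⟨e, he, he1⟩ := exists_unit_form (v := w - 4) (by omega) ⟨r - 2, by omega⟩ (by omega)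
      refine ⟨e, he, 0, Submodule.zero_mem _, ?_⟩
      have : (⇑E₄ * e + ⇑E₆ * (0 : ℍ → ℂ)) = ⇑E₄ * e := by
        ext z; simp
      rw [this]
      have h := tendsto_E4.mul he1
      rw [one_mul] at h
      exact h
  have hmem : ⇑E₄ * m' + ⇑E₆ * m'' ∈ Ls w :=
    Submodule.add_mem _ (mul_mem_Ls (by ring) E4_mem hm') (mul_mem_Ls (by ring) E6_mem hm'')
  have h0 : Tendsto (a - c • (⇑E₄ * m' + ⇑E₆ * m'')) atImInfty (𝓝 0) := by
    have := hc.sub (hm.const_smul c)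
    rw [smul_eq_mul, mul_one, sub_self] at this
    exact this
  obtain ⟨b, hb, hab⟩ := exists_eq_disc_mul
    (Submodule.sub_mem _ ha (Submodule.smul_mem _ c hmem)) h0
  refine ⟨c • m' + (1 / 1728 : ℂ) • (⇑E₄ * ⇑E₄ * b), ?_, c • m'' - (1 / 1728 : ℂ) • (⇑E₆ * b), ?_, ?_⟩
  · refine Submodule.add_mem _ (Submodule.smul_mem _ _ hm') (Submodule.smul_mem _ _ ?_)
    exact mul_mem_Ls (w := 8) (by ring) (mul_mem_Ls (by ring) E4_mem E4_mem) hb
  · refine Submodule.sub_mem _ (Submodule.smul_mem _ _ hm'') (Submodule.smul_mem _ _ ?_)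
    exact mul_mem_Ls (by ring) E6_mem hb
  · have : a = c • (⇑E₄ * m' + ⇑E₆ * m'') + (ModularForm.discriminant : ℍ → ℂ) * b := by
      rw [← hab]; ring
    rw [this, disc_eq]
    ext z
    simp only [Pi.add_apply, Pi.smul_apply, Pi.mul_apply, Pi.sub_apply, smul_eq_mul]
    ring

end Fermat.Agent.S20
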