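import Mathlib
import Fermat.Agent.S20.Lvl

set_option autoImplicit false
set_option maxHeartbeats 400000

/-!
# S20: division by `Δ`, and the Koszul lemma for `E₄, E₆`
-/

namespace Fermat.Agent.S20

open UpperHalfPlane ModularForm Matrix.SpecialLinearGroup EisensteinSeries ModularFormClass Filter
open scoped MatrixGroups ModularForm Manifold Topology

variable {N : ℕ}

local notation "Δ" => (ModularForm.discriminant : ℍ → ℂ)

theorem Ls_slash {w : ℤ} {a : ℍ → ℂ} (ha : a ∈ Ls w) (γ : SL(2, ℤ)) : a ∣[w] γ = a := by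
  obtain ⟨A, rfl⟩ := ha
  exact SlashInvariantFormClass.slash_action_eq A _ ⟨γ, rfl⟩

theorem disc_slash (γ : SL(2, ℤ)) : Δ ∣[(12 : ℤ)] γ = Δ := Ls_slash disc_mem γ

theorem Ms_slash {k : ℤ} {f : ℍ → ℂ} (hf : f ∈ Ms N k) {γ : SL(2, ℤ)}
    (hγ : γ ∈ CongruenceSubgroup.Gamma0 N) : f ∣[k] γ = f := by
  obtain ⟨F, rfl⟩ := hf
  exact SlashInvariantFormClass.slash_action_eq F _ ⟨γ, hγ, rfl⟩

theorem Ms_mdiff {k : ℤ} {f : ℍ → ℂ} (hf : f ∈ Ms N k) : MDiff f := by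
  obtain ⟨F, rfl⟩ := hf
  exact ModularFormClass.holo F

theorem Ms_bdd [NeZero N] {k : ℤ} {f : ℍ → ℂ} (hf : f ∈ Ms N k) (γ : SL(2, ℤ)) :
    IsBoundedAtImInfty (f ∣[k] γ) := by
  obtain ⟨F, rfl⟩ := hf
  exact ModularFormClass.bdd_at_infty_slash F _

/-- criterion for membership in `Ms`. -/
theorem mem_Ms_of [NeZero N] {k : ℤ} {f : ℍ → ℂ} (hol : MDiff f)
    (hinv : ∀ γ ∈ CongruenceSubgroup.Gamma0 N, f ∣[k] γ = f)
    (hbdd : ∀ γ : SL(2, ℤ), IsBoundedAtImInfty (f ∣[k] γ)) : f ∈ Ms N k := by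
  refine ⟨{ toFun := f, slash_action_eq' := ?_, holo' := hol, bdd_at_cusps' := ?_ }, rfl⟩
  · rintro _ ⟨γ, hγ, rfl⟩
    exact hinv γ hγ
  · intro c hc
    rw [Subgroup.IsArithmetic.isCusp_iff_isCusp_SL2Z] at hc
    rw [OnePoint.isBoundedAt_iff_forall_SL2Z hc]
    intro γ _
    exact hbdd γ

theorem div_disc_mem [NeZero N] {K : ℤ} {n : ℍ → ℂ} (hn : n ∈ Ms N K)
    (hb : ∀ γ : SL(2, ℤ), IsBoundedAtImInfty ((n ∣[K] γ) / Δ)) : n / Δ ∈ Ms N (K - 12) := by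
  refine mem_Ms_of ?_ ?_ ?_
  · exact (Ms_mdiff hn).div CuspForm.discriminant.holo' discriminant_ne_zero
  · intro γ hγ
    rw [div_slash_SL2, Ms_slash hn hγ, disc_slash]
  · intro γ
    rw [div_slash_SL2, disc_slash]
    exact hb γ

theorem isBoundedAtImInfty_of_E4_mul {t y : ℍ → ℂ} (h : ⇑E₄ * t = y)
    (hy : IsBoundedAtImInfty y) : IsBoundedAtImInfty t := by
  have hE : ∀ᶠ z in atImInfty, (1 / 2 : ℝ) ≤ ‖E₄ z‖ := by
    have h1 : Tendsto (fun z => ‖E₄ z‖) atImInfty (𝓝 ‖(1 : ℂ)‖) := tendsto_E4.norm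
    rw [norm_one] at h1
    exact h1.eventually (le_mem_nhds (by norm_num))
  have : t =O[atImInfty] y := by
    refine Asymptotics.IsBigO.of_bound 2 ?_
    filter_upwards [hE] with z hz
    have hz' : ‖y z‖ = ‖E₄ z‖ * ‖t z‖ := by
      rw [← h, Pi.mul_apply, norm_mul]
    rw [hz']
    nlinarith [norm_nonneg (t z)]
  exact this.trans hy

/-- The Koszul lemma: `E₄, E₆` is a regular sequence on `M_*(Γ₀(N))`. -/
theorem koszul [NeZero N] {k : ℤ} {x y : ℍ → ℂ} (hx : x ∈ Ms N (k - 4)) (hy : y ∈ Ms N (k - 6))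
    (h : ⇑E₄ * x + ⇑E₆ * y = 0) :
    ∃ t ∈ Ms N (k - 10), y = ⇑E₄ * t ∧ x = - (⇑E₆ * t) := by
  have key : ∀ (x y : ℍ → ℂ), ⇑E₄ * x + ⇑E₆ * y = 0 →
      ⇑E₄ * (((1 / 1728 : ℂ) • (⇑E₄ * ⇑E₄ * y + ⇑E₆ * x)) / Δ) = y ∧
      ⇑E₆ * (((1 / 1728 : ℂ) • (⇑E₄ * ⇑E₄ * y + ⇑E₆ * x)) / Δ) = - x := by
    intro x y h
    constructor
    · ext z
      have hz := congrFun h z
      simp only [Pi.add_apply, Pi.mul_apply, Pi.zero_apply] at hz
      have hΔ := discriminant_ne_zero z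
      have hd := discriminant_eq_E₄_cube_sub_E₆_sq z
      simp only [Pi.mul_apply, Pi.div_apply, Pi.smul_apply, Pi.add_apply, smul_eq_mul]
      field_simp
      rw [hd]
      linear_combination (E₆ z) * hz
    · ext z
      have hz := congrFun h z
      simp only [Pi.add_apply, Pi.mul_apply, Pi.zero_apply] at hz
      have hΔ := discriminant_ne_zero z
      have hd := discriminant_eq_E₄_cube_sub_E₆_sq z
      simp only [Pi.mul_apply, Pi.div_apply, Pi.smul_apply, Pi.add_apply, smul_eq_mul, Pi.neg_apply]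
      field_simp
      rw [hd]
      linear_combination (E₄ z) ^ 2 * hz
  have hn : (1 / 1728 : ℂ) • (⇑E₄ * ⇑E₄ * y + ⇑E₆ * x) ∈ Ms N (k + 2) := by
    refine Submodule.smul_mem _ _ (Submodule.add_mem _ ?_ ?_)
    · exact mul_mem_Ms (w := 8) (by ring) (mul_mem_Ls (by ring) E4_mem E4_mem) hy
    · exact mul_mem_Ms (by ring) E6_mem hx
  refine ⟨((1 / 1728 : ℂ) • (⇑E₄ * ⇑E₄ * y + ⇑E₆ * x)) / Δ, ?_, (key x y h).1.symm, ?_⟩
  · rw [Ms_congr (show k - 10 = (k + 2) - 12 by ring)]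
    refine div_disc_mem hn fun γ => ?_
    -- slash everything
    have hx' : (⇑E₄ * x) ∣[k] γ = ⇑E₄ * (x ∣[k - 4] γ) := by
      rw [show k = 4 + (k - 4) by ring, mul_slash_SL2, Ls_slash E4_mem]
      simp
    have hy' : (⇑E₆ * y) ∣[k] γ = ⇑E₆ * (y ∣[k - 6] γ) := by
      rw [show k = 6 + (k - 6) by ring, mul_slash_SL2, Ls_slash E6_mem]
      simp
    have hrel : ⇑E₄ * (x ∣[k - 4] γ) + ⇑E₆ * (y ∣[k - 6] γ) = 0 := by
      rw [← hx', ← hy', ← SlashAction.add_slash, h, SlashAction.zero_slash]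
    have hnum : ((1 / 1728 : ℂ) • (⇑E₄ * ⇑E₄ * y + ⇑E₆ * x)) ∣[k + 2] γ =
        (1 / 1728 : ℂ) • (⇑E₄ * ⇑E₄ * (y ∣[k - 6] γ) + ⇑E₆ * (x ∣[k - 4] γ)) := by
      rw [ModularForm.SL_smul_slash, SlashAction.add_slash]
      congr 2
      · rw [show k + 2 = 8 + (k - 6) by ring, mul_slash_SL2,
          Ls_slash (mul_mem_Ls (w := 4) (k := 4) (by ring) E4_mem E4_mem)]
      · rw [show k + 2 = 6 + (k - 4) by ring, mul_slash_SL2, Ls_slash E6_mem]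
    rw [hnum]
    exact isBoundedAtImInfty_of_E4_mul (key _ _ hrel).1 (Ms_bdd hy γ)
  · rw [(key x y h).2, neg_neg]

end Fermat.Agent.S20
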