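import Mathlib
import Fermat.Prelude.Thm_ModularForm_sturm_bound_Gamma0
import Fermat.Prelude.Thm_CongruenceSubgroup_one_mem_strictPeriods_Gamma0
import Fermat.Agent.S20.Koszul

set_option autoImplicit false
set_option maxHeartbeats 400000

/-!
# S20: dimensions, vanishing, and choice of generators in each weight
-/

namespace Fermat.Agent.S20

open UpperHalfPlane ModularForm Matrix.SpecialLinearGroup EisensteinSeries ModularFormClass Filter
open scoped MatrixGroups ModularForm Manifold Topology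

variable {N : ℕ}

theorem Ms_eq_bot_of_neg [NeZero N] {k : ℤ} (hk : k < 0) : Ms N k = ⊥ := by
  rw [eq_bot_iff]
  rintro _ ⟨F, rfl⟩
  rw [ModularForm.isZero_of_neg_weight hk F]
  exact Submodule.zero_mem _

theorem Ms_eq_bot_of_odd {k : ℤ} (hk : Odd k) : Ms N k = ⊥ := by
  rw [eq_bot_iff]
  rintro _ ⟨F, rfl⟩
  have hmem : (-1 : GL (Fin 2) ℝ) ∈ (CongruenceSubgroup.Gamma0 N : Subgroup (GL (Fin 2) ℝ)) := by
    refine ⟨-1, ?_, by ext; simp⟩
    show (-1 : SL(2, ℤ)) ∈ CongruenceSubgroup.Gamma0 N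
    rw [CongruenceSubgroup.Gamma0_mem]
    simp
  rw [ModularForm.eq_zero_of_neg_one_mem hmem hk F]
  exact Submodule.zero_mem _

/-- the first coefficients. -/
noncomputable def coeffMap (N : ℕ) (k : ℤ) (B : ℕ) : MF N k →ₗ[ℂ] (Fin (B + 1) → ℂ) where
  toFun f n := (qExpansion 1 f).coeff n
  map_add' f g := by
    funext n
    rw [FunLike.coe_add, ModularForm.qExpansion_add one_pos
      (CongruenceSubgroup.one_mem_strictPeriods_Gamma0 N) f g]
    simp
  map_smul' c f := by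
    funext n
    rw [FunLike.coe_smul, ModularForm.qExpansion_smul one_pos
      (CongruenceSubgroup.one_mem_strictPeriods_Gamma0 N) c f]
    simp

theorem coeffMap_injective [NeZero N] (k : ℤ) :
    Function.Injective (coeffMap N k ((k * (CongruenceSubgroup.Gamma0 N).index).toNat / 12)) := by
  rw [injective_iff_map_eq_zero]
  intro f hf
  refine ModularForm.sturm_bound_Gamma0 N f fun n hn => ?_
  exact congrFun hf ⟨n, Nat.lt_succ_of_le hn⟩

instance instFiniteDimensionalMF [NeZero N] (k : ℤ) : FiniteDimensional ℂ (MF N k) :=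
  Module.Finite.of_injective _ (coeffMap_injective k)

theorem finrank_MF_le [NeZero N] (k : ℤ) :
    Module.finrank ℂ (MF N k) ≤ (k * (CongruenceSubgroup.Gamma0 N).index).toNat / 12 + 1 := by
  have := LinearMap.finrank_le_finrank_of_injective (coeffMap_injective (N := N) k)
  simpa using this

instance instFiniteDimensionalMs [NeZero N] (k : ℤ) : FiniteDimensional ℂ (Ms N k) :=
  Module.Finite.range _

theorem finrank_Ms [NeZero N] (k : ℤ) : Module.finrank ℂ (Ms N k) = Module.finrank ℂ (MF N k) :=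
  LinearMap.finrank_range_of_inj (coeLin_injective _ k)

instance instFiniteDimensionalLs (k : ℤ) : FiniteDimensional ℂ (Ls k) :=
  Module.Finite.range _

theorem finrank_Ls (k : ℤ) : Module.finrank ℂ (Ls k) = Module.finrank ℂ (ModularForm 𝒮ℒ k) :=
  LinearMap.finrank_range_of_inj (coeLin_injective _ k)

theorem le_finrank_Ls {w : ℤ} {m : ℕ} (hw : 12 * (m : ℤ) ≤ w) (hev : Even w) :
    m ≤ Module.finrank ℂ (Ls w) := by
  rw [finrank_Ls]
  lift w to ℕ using (by omega)
  have hev' : Even w := by exact_mod_cast hev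
  have h := dimension_level_one w hev'
  have h2 : Module.finrank ℂ (ModularForm 𝒮ℒ (w : ℤ)) =
      if w ≡ 2 [MOD 12] then w / 12 else w / 12 + 1 := by
    apply Module.finrank_eq_of_rank_eq
    rw [h]
  rw [h2]
  have : m ≤ w / 12 := by omega
  split_ifs <;> omega

/-- the decomposable forms of weight `k`. -/
noncomputable def Dec (N : ℕ) (k : ℤ) : Submodule ℂ (ℍ → ℂ) :=
  (Ms N (k - 4)).map (LinearMap.mulLeft ℂ (⇑E₄ : ℍ → ℂ)) ⊔
    (Ms N (k - 6)).map (LinearMap.mulLeft ℂ (⇑E₆ : ℍ → ℂ))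

theorem mem_Dec {k : ℤ} {h : ℍ → ℂ} : h ∈ Dec N k ↔
    ∃ x ∈ Ms N (k - 4), ∃ y ∈ Ms N (k - 6), h = ⇑E₄ * x + ⇑E₆ * y := by
  unfold Dec
  rw [Submodule.mem_sup]
  constructor
  · rintro ⟨_, ⟨x, hx, rfl⟩, _, ⟨y, hy, rfl⟩, rfl⟩
    exact ⟨x, hx, y, hy, rfl⟩
  · rintro ⟨x, hx, y, hy, rfl⟩
    exact ⟨_, ⟨x, hx, rfl⟩, _, ⟨y, hy, rfl⟩, rfl⟩

theorem Dec_le (k : ℤ) : Dec N k ≤ Ms N k := by
  intro h hh
  obtain ⟨x, hx, y, hy, rfl⟩ := mem_Dec.mp hh
  exact Submodule.add_mem _ (mul_mem_Ms (by ring) E4_mem hx) (mul_mem_Ms (by ring) E6_mem hy)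

/-- generators in weight `k`: a basis of `M_k` modulo decomposables. -/
theorem exists_gens [NeZero N] (k : ℤ) : ∃ (n : ℕ) (b : Fin n → (ℍ → ℂ)), (∀ i, b i ∈ Ms N k) ∧
    (∀ h ∈ Ms N k, ∃ c : Fin n → ℂ, h - ∑ i, c i • b i ∈ Dec N k) ∧
    (∀ c : Fin n → ℂ, ∑ i, c i • b i ∈ Dec N k → c = 0) := by
  let V := Ms N k
  let D : Submodule ℂ V := (Dec N k).comap V.subtype
  let B := Module.finBasis ℂ (V ⧸ D)
  choose b hb using fun i => Submodule.Quotient.mk_surjective D (B i)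
  have hsum : ∀ c : Fin (Module.finrank ℂ (V ⧸ D)) → ℂ,
      (∑ i, c i • ((b i : V) : ℍ → ℂ)) = ((∑ i, c i • b i : V) : ℍ → ℂ) := by
    intro c
    simp
  refine ⟨_, fun i => (b i : ℍ → ℂ), fun i => (b i).2, ?_, ?_⟩
  · intro h hh
    refine ⟨B.repr (Submodule.Quotient.mk ⟨h, hh⟩), ?_⟩
    have h1 : Submodule.Quotient.mk (p := D) (⟨h, hh⟩ - ∑ i, B.repr (Submodule.Quotient.mk ⟨h, hh⟩) i • b i) = 0 := by
      rw [Submodule.Quotient.mk_sub, ← Submodule.mkQ_apply D (∑ i, _), map_sum]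
      simp only [map_smul, Submodule.mkQ_apply, hb]
      rw [B.sum_repr, sub_self]
    rw [Submodule.Quotient.mk_eq_zero] at h1
    have h2 : V.subtype (⟨h, hh⟩ - ∑ i, B.repr (Submodule.Quotient.mk ⟨h, hh⟩) i • b i) ∈ Dec N k := h1
    rw [hsum]
    simpa using h2
  · intro c hc
    rw [hsum] at hc
    have h1 : (∑ i, c i • b i : V) ∈ D := hc
    rw [← Submodule.Quotient.mk_eq_zero, ← Submodule.mkQ_apply, map_sum] at h1
    simp only [map_smul, Submodule.mkQ_apply, hb] at h1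
    funext i
    exact Fintype.linearIndependent_iff.mp B.linearIndependent c h1 i

end Fermat.Agent.S20
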