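import Mathlib
import Fermat.Agent.S20.GenA

set_option autoImplicit false
set_option maxHeartbeats 400000

/-!
# S20: the family of all generators: generation and independence
-/

namespace Fermat.Agent.S20

open UpperHalfPlane ModularForm Matrix.SpecialLinearGroup EisensteinSeries ModularFormClass Filter
open scoped MatrixGroups ModularForm Manifold Topology

variable (N : ℕ) [NeZero N]

/-- number of generators of weight `k`. -/
noncomputable def gn (k : ℤ) : ℕ := (exists_gens (N := N) k).choose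

/-- generators of weight `k`. -/
noncomputable def gb (k : ℤ) : Fin (gn N k) → (ℍ → ℂ) := (exists_gens (N := N) k).choose_spec.choose

theorem gb_mem (k : ℤ) (i : Fin (gn N k)) : gb N k i ∈ Ms N k :=
  (exists_gens (N := N) k).choose_spec.choose_spec.1 i

theorem gb_span (k : ℤ) {h : ℍ → ℂ} (hh : h ∈ Ms N k) :
    ∃ c : Fin (gn N k) → ℂ, h - ∑ i, c i • gb N k i ∈ Dec N k :=
  (exists_gens (N := N) k).choose_spec.choose_spec.2.1 h hh

theorem gb_ind (k : ℤ) (c : Fin (gn N k) → ℂ) (hc : ∑ i, c i • gb N k i ∈ Dec N k) : c = 0 :=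
  (exists_gens (N := N) k).choose_spec.choose_spec.2.2 c hc

/-- index type of all generators. -/
abbrev Idx : Type := Σ k : ℤ, Fin (gn N k)

/-- the generators. -/
noncomputable def gfun (p : Idx N) : ℍ → ℂ := gb N p.1 p.2

theorem gfun_mem (p : Idx N) : gfun N p ∈ Ms N p.1 := gb_mem N p.1 p.2

theorem gfun_ne_zero (p : Idx N) : gfun N p ≠ 0 := by
  intro h0
  have := gb_ind N p.1 (Pi.single p.2 1) (by
    rw [Finset.sum_eq_single p.2]
    · simp only [Pi.single_eq_same, one_smul]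
      have : gb N p.1 p.2 = 0 := h0
      rw [this]
      exact Submodule.zero_mem _
    · intro i _ hi
      simp [Pi.single_eq_of_ne hi]
    · simp)
  have h1 := congrFun this p.2
  simp at h1

theorem Idx_nonneg (p : Idx N) : 0 ≤ p.1 := by
  by_contra hneg
  push Not at hneg
  have := gfun_mem N p
  rw [Ms_eq_bot_of_neg hneg] at this
  exact gfun_ne_zero N p this

theorem Idx_even (p : Idx N) : Even p.1 := by
  by_contra hodd
  rw [Int.not_even_iff_odd] at hodd
  have := gfun_mem N p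
  rw [Ms_eq_bot_of_odd hodd] at this
  exact gfun_ne_zero N p this

/-- the generators of weight at most `K`. -/
noncomputable def SK (K : ℤ) : Finset (Idx N) := (Finset.Icc 0 K).sigma (fun _ => Finset.univ)

theorem mem_SK {K : ℤ} {p : Idx N} : p ∈ SK N K ↔ p.1 ≤ K := by
  unfold SK
  simp only [Finset.mem_sigma, Finset.mem_Icc, Finset.mem_univ, and_true]
  exact ⟨fun h => h.2, fun h => ⟨Idx_nonneg N p, h⟩⟩

theorem ite_const_mem (k : ℤ) (p : Idx N) (c : ℂ) :
    (fun _ => if p.1 = k then c else 0 : ℍ → ℂ) ∈ Ls (k - p.1) := by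
  split_ifs with h
  · rw [Ls_congr (show k - p.1 = 0 by omega)]
    exact const_mem_Ls_zero c
  · exact Submodule.zero_mem _

theorem sum_ite_const {K k : ℤ} (hk0 : 0 ≤ k) (hkK : k ≤ K) (c : Idx N → ℂ) :
    ∑ p ∈ SK N K, (fun _ => if p.1 = k then c p else 0 : ℍ → ℂ) * gfun N p =
      ∑ i, c ⟨k, i⟩ • gb N k i := by
  unfold SK
  rw [Finset.sum_sigma, Finset.sum_eq_single k]
  · refine Finset.sum_congr rfl fun i _ => ?_
    ext z
    simp [gfun]
  · intro k' _ hk'
    refine Finset.sum_eq_zero fun i _ => ?_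
    ext z
    simp [hk']
  · intro h
    exact absurd (Finset.mem_Icc.mpr ⟨hk0, hkK⟩) h

theorem sum_mem_Ms {K k : ℤ} (a : Idx N → (ℍ → ℂ)) (ha : ∀ p, a p ∈ Ls (k - p.1)) :
    ∑ p ∈ SK N K, a p * gfun N p ∈ Ms N k :=
  Submodule.sum_mem _ fun p _ => mul_mem_Ms (by ring) (ha p) (gfun_mem N p)

theorem gen_K (K : ℤ) : ∀ (m : ℕ) (k : ℤ), k ≤ K → k < m → ∀ h ∈ Ms N k,
    ∃ a : Idx N → (ℍ → ℂ), (∀ p, a p ∈ Ls (k - p.1)) ∧ h = ∑ p ∈ SK N K, a p * gfun N p := by
  intro m
  induction m with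
  | zero =>
    intro k _ hk h hh
    rw [Ms_eq_bot_of_neg (by exact_mod_cast hk)] at hh
    refine ⟨fun _ => 0, fun _ => Submodule.zero_mem _, ?_⟩
    rw [(Submodule.mem_bot ℂ).mp hh]
    simp
  | succ m ih =>
    intro k hkK hk h hh
    rcases lt_or_ge k 0 with hneg | hk0
    · rw [Ms_eq_bot_of_neg hneg] at hh
      refine ⟨fun _ => 0, fun _ => Submodule.zero_mem _, ?_⟩
      rw [(Submodule.mem_bot ℂ).mp hh]
      simp
    obtain ⟨c₀, hc₀⟩ := gb_span N k hh
    obtain ⟨x, hx, y, hy, hxy⟩ := mem_Dec.mp hc₀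
    push_cast at hk
    obtain ⟨a', ha', hxa⟩ := ih (k - 4) (by omega) (by omega) x hx
    obtain ⟨a'', ha'', hya⟩ := ih (k - 6) (by omega) (by omega) y hy
    let c : Idx N → ℂ := fun p => if h : p.1 = k then c₀ (h ▸ p.2) else 0
    have hc : ∀ i, c ⟨k, i⟩ = c₀ i := fun i => by simp [c]
    refine ⟨fun p => (fun _ => if p.1 = k then c p else 0 : ℍ → ℂ) + ⇑E₄ * a' p + ⇑E₆ * a'' p, ?_, ?_⟩
    · intro p
      refine Submodule.add_mem _ (Submodule.add_mem _ (ite_const_mem N k p _) ?_) ?_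
      · exact mul_mem_Ls (by ring) E4_mem (ha' p)
      · exact mul_mem_Ls (by ring) E6_mem (ha'' p)
    · have h1 : ∑ p ∈ SK N K, ((fun _ => if p.1 = k then c p else 0 : ℍ → ℂ) + ⇑E₄ * a' p
          + ⇑E₆ * a'' p) * gfun N p =
          ∑ p ∈ SK N K, (fun _ => if p.1 = k then c p else 0 : ℍ → ℂ) * gfun N p +
          ⇑E₄ * ∑ p ∈ SK N K, a' p * gfun N p + ⇑E₆ * ∑ p ∈ SK N K, a'' p * gfun N p := by
        rw [Finset.mul_sum, Finset.mul_sum, ← Finset.sum_add_distrib, ← Finset.sum_add_distrib]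
        refine Finset.sum_congr rfl fun p _ => by ring
      rw [h1, sum_ite_const N hk0 hkK, ← hxa, ← hya]
      simp only [hc]
      rw [add_assoc, ← hxy]
      ring

theorem ind_K (K : ℤ) : ∀ (m : ℕ) (k : ℤ), k ≤ K → k < m → ∀ a : Idx N → (ℍ → ℂ),
    (∀ p, a p ∈ Ls (k - p.1)) → ∑ p ∈ SK N K, a p * gfun N p = 0 → ∀ p, a p = 0 := by
  intro m
  have hnegcase : ∀ k : ℤ, k < 0 → ∀ a : Idx N → (ℍ → ℂ), (∀ p, a p ∈ Ls (k - p.1)) →
      ∀ p, a p = 0 := by
    intro k hk a ha p
    have := ha p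
    rw [Ls_eq_bot_of_neg (by have := Idx_nonneg N p; omega)] at this
    exact this
  induction m with
  | zero =>
    intro k _ hk a ha _
    exact hnegcase k (by exact_mod_cast hk) a ha
  | succ m ih =>
    intro k hkK hk a ha hsum
    rcases lt_or_ge k 0 with hneg | hk0
    · exact hnegcase k hneg a ha
    push_cast at hk
    have hdec : ∀ p : Idx N, ∃ (c : ℂ) (a' a'' : ℍ → ℂ), a' ∈ Ls (k - 4 - p.1) ∧
        a'' ∈ Ls (k - 6 - p.1) ∧
        a p = (fun _ => if p.1 = k then c else 0 : ℍ → ℂ) + ⇑E₄ * a' + ⇑E₆ * a'' := by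
      intro p
      by_cases hp : p.1 = k
      · have h0 := ha p
        rw [Ls_congr (show k - p.1 = 0 by omega)] at h0
        obtain ⟨c, hc⟩ := exists_const_of_mem_Ls_zero h0
        refine ⟨c, 0, 0, Submodule.zero_mem _, Submodule.zero_mem _, ?_⟩
        rw [hc]
        ext z
        simp [hp]
      · obtain ⟨a', ha', a'', ha'', h⟩ := Ls_decomp (w := k - p.1) (by omega) (ha p)
        refine ⟨0, a', a'', ?_, ?_, ?_⟩
        · rwa [Ls_congr (show k - 4 - p.1 = k - p.1 - 4 by ring)]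
        · rwa [Ls_congr (show k - 6 - p.1 = k - p.1 - 6 by ring)]
        · rw [h]
          ext z
          simp
    choose c a' a'' ha' ha'' hdec using hdec
    have hx := sum_mem_Ms N (K := K) a' ha'
    have hy := sum_mem_Ms N (K := K) a'' ha''
    have h1 : ∑ p ∈ SK N K, a p * gfun N p =
        ∑ i, c ⟨k, i⟩ • gb N k i +
        ⇑E₄ * ∑ p ∈ SK N K, a' p * gfun N p + ⇑E₆ * ∑ p ∈ SK N K, a'' p * gfun N p := by
      rw [← sum_ite_const N hk0 hkK, Finset.mul_sum, Finset.mul_sum, ← Finset.sum_add_distrib,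
        ← Finset.sum_add_distrib]
      refine Finset.sum_congr rfl fun p _ => ?_
      rw [hdec p]
      ring
    rw [hsum] at h1
    have hc0 : (fun i => c ⟨k, i⟩) = 0 := by
      apply gb_ind N k
      rw [mem_Dec]
      refine ⟨_, Submodule.neg_mem _ hx, _, Submodule.neg_mem _ hy, ?_⟩
      linear_combination - h1
    have hc0' : ∀ i, c ⟨k, i⟩ = 0 := fun i => congrFun hc0 i
    simp only [hc0', zero_smul, Finset.sum_const_zero, zero_add] at h1
    obtain ⟨t, ht, hyt, hxt⟩ := koszul hx hy h1.symm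
    obtain ⟨τ, hτ, htτ⟩ := gen_K N K (m + 1) (k - 10) (by omega) (by push_cast; omega) t ht
    have e1 : ∀ p, a' p + ⇑E₆ * τ p = 0 := by
      apply ih (k - 4) (by omega) (by omega)
      · intro p
        exact Submodule.add_mem _ (ha' p) (mul_mem_Ls (by ring) E6_mem (hτ p))
      · have : ∑ p ∈ SK N K, (a' p + ⇑E₆ * τ p) * gfun N p =
            ∑ p ∈ SK N K, a' p * gfun N p + ⇑E₆ * ∑ p ∈ SK N K, τ p * gfun N p := by
          rw [Finset.mul_sum, ← Finset.sum_add_distrib]
          refine Finset.sum_congr rfl fun p _ => by ring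
        rw [this, ← htτ, hxt]
        ring
    have e2 : ∀ p, a'' p - ⇑E₄ * τ p = 0 := by
      apply ih (k - 6) (by omega) (by omega)
      · intro p
        exact Submodule.sub_mem _ (ha'' p) (mul_mem_Ls (by ring) E4_mem (hτ p))
      · have : ∑ p ∈ SK N K, (a'' p - ⇑E₄ * τ p) * gfun N p =
            ∑ p ∈ SK N K, a'' p * gfun N p - ⇑E₄ * ∑ p ∈ SK N K, τ p * gfun N p := by
          rw [Finset.mul_sum, ← Finset.sum_sub_distrib]
          refine Finset.sum_congr rfl fun p _ => by ring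
        rw [this, ← htτ, hyt]
        ring
    intro p
    rw [hdec p]
    have hcp : (fun _ => if p.1 = k then c p else 0 : ℍ → ℂ) = 0 := by
      ext z
      by_cases hp : p.1 = k
      · obtain ⟨k', i⟩ := p
        simp only at hp
        subst hp
        simp [hc0' i]
      · simp [hp]
    rw [hcp]
    linear_combination ⇑E₄ * e1 p + ⇑E₆ * e2 p

end Fermat.Agent.S20
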