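import Mathlib
import Fermat.Agent.S20.GenB

set_option autoImplicit false
set_option maxHeartbeats 400000

/-!
# S20: finiteness of the family of generators
-/

namespace Fermat.Agent.S20

open UpperHalfPlane ModularForm Matrix.SpecialLinearGroup EisensteinSeries ModularFormClass Filter
open scoped MatrixGroups ModularForm Manifold Topology

variable (N : ℕ) [NeZero N]

theorem SK_mono {K K' : ℤ} (h : K ≤ K') : SK N K ⊆ SK N K' := by
  intro p hp
  rw [mem_SK] at hp ⊢
  omega

/-- the combination map. -/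
noncomputable def combo (K K' : ℤ) : ((p : SK N K) → Ls (K' - p.1.1)) →ₗ[ℂ] (ℍ → ℂ) :=
  ∑ p : SK N K, (LinearMap.mulRight ℂ (gfun N p.1)) ∘ₗ (Ls (K' - p.1.1)).subtype ∘ₗ
    (LinearMap.proj p)

theorem combo_apply (K K' : ℤ) (a : (p : SK N K) → Ls (K' - p.1.1)) :
    combo N K K' a = ∑ p : SK N K, (a p : ℍ → ℂ) * gfun N p.1 := by
  simp [combo]

theorem combo_mem (K K' : ℤ) (a : (p : SK N K) → Ls (K' - p.1.1)) :
    combo N K K' a ∈ Ms N K' := by
  rw [combo_apply]
  exact Submodule.sum_mem _ fun p _ => mul_mem_Ms (by ring) (a p).2 (gfun_mem N p.1)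

theorem combo_injective {K K' : ℤ} (h : K ≤ K') : Function.Injective (combo N K K') := by
  rw [injective_iff_map_eq_zero]
  intro a ha
  rw [combo_apply] at ha
  classical
  let a' : Idx N → (ℍ → ℂ) := fun p => if hp : p ∈ SK N K then (a ⟨p, hp⟩ : ℍ → ℂ) else 0
  have ha' : ∀ p, a' p ∈ Ls (K' - p.1) := by
    intro p
    by_cases hp : p ∈ SK N K
    · simp only [a', hp, dite_true]
      exact (a ⟨p, hp⟩).2
    · simp only [a', hp, dite_false]
      exact Submodule.zero_mem _
  have hsum : ∑ p ∈ SK N K', a' p * gfun N p = 0 := by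
    rw [← Finset.sum_subset (SK_mono N h), ← Finset.sum_coe_sort, ← ha]
    · refine Finset.sum_congr rfl fun p _ => ?_
      simp [a']
    · intro p _ hp
      simp [a', hp]
  have := ind_K N K' (K' + 1).toNat K' le_rfl (by omega) a' ha' hsum
  funext p
  apply Subtype.ext
  have h2 := this p.1
  simpa [a'] using h2

theorem card_SK_le (K : ℤ) : (SK N K).card ≤ (CongruenceSubgroup.Gamma0 N).index := by
  set μ := (CongruenceSubgroup.Gamma0 N).index with hμ
  by_contra hlt
  push Not at hlt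
  obtain ⟨K₁, hK₁⟩ : ∃ K₁ : ℕ, K ≤ K₁ := ⟨K.toNat, Int.self_le_toNat K⟩
  obtain ⟨m, hm⟩ : ∃ m : ℕ, m = K₁ * μ + 2 := ⟨_, rfl⟩
  obtain ⟨K', hK'⟩ : ∃ K' : ℤ, K' = 12 * ((m + K₁ : ℕ) : ℤ) := ⟨_, rfl⟩
  have hKK' : K ≤ K' := by push_cast at hK'; omega
  have h1 : Module.finrank ℂ ((p : SK N K) → Ls (K' - p.1.1)) ≤ Module.finrank ℂ (Ms N K') := by
    rw [← LinearMap.finrank_range_of_inj (combo_injective N hKK')]
    apply Submodule.finrank_mono
    rintro _ ⟨a, rfl⟩
    exact combo_mem N K K' a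
  rw [Module.finrank_pi_fintype, finrank_Ms] at h1
  have h2 := h1.trans (finrank_MF_le K')
  have h3 : ∀ p : SK N K, m ≤ Module.finrank ℂ (Ls (K' - p.1.1)) := by
    intro p
    apply le_finrank_Ls
    · have := mem_SK N |>.mp p.2
      push_cast at hK'
      omega
    · apply Even.sub
      · rw [hK']
        exact Even.mul_right (by decide) _
      · exact Idx_even N p.1
  have h4 : (SK N K).card * m ≤ ∑ p : SK N K, Module.finrank ℂ (Ls (K' - p.1.1)) := by
    have := Finset.card_nsmul_le_sum (Finset.univ : Finset (SK N K)) _ m (fun p _ => h3 p)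
    simpa using this
  have h5 : (K' * (μ : ℤ)).toNat / 12 = (m + K₁) * μ := by
    rw [hK']
    have : (12 * ((m + K₁ : ℕ) : ℤ) * (μ : ℤ)) = ((12 * ((m + K₁) * μ) : ℕ) : ℤ) := by
      push_cast; ring
    rw [this, Int.toNat_natCast]
    omega
  rw [h5] at h2
  have h6 := h4.trans h2
  have h7 : (μ + 1) * m ≤ (SK N K).card * m := Nat.mul_le_mul_right _ hlt
  have h8 := h7.trans h6
  rw [hm] at h8
  nlinarith

end Fermat.Agent.S20
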