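import Mathlib
import Fermat.Agent.S20.GenC
import Fermat.Agent.S20.GenDefs

set_option autoImplicit false
set_option maxHeartbeats 400000

/-!
# S20: the family of all generators is finite; bundling
-/

namespace Fermat.Agent.S20

open UpperHalfPlane ModularForm Matrix.SpecialLinearGroup EisensteinSeries ModularFormClass Filter
open scoped MatrixGroups ModularForm Manifold Topology

variable (N : ℕ) [NeZero N]

theorem exists_subset_SK (s : Finset (Idx N)) : ∃ K : ℤ, s ⊆ SK N K := by
  classical
  induction s using Finset.induction_on with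
  | empty => exact ⟨0, by simp⟩
  | insert p s _ ih =>
    obtain ⟨K, hK⟩ := ih
    refine ⟨max K p.1, ?_⟩
    intro x hx
    rw [Finset.mem_insert] at hx
    rw [mem_SK]
    rcases hx with rfl | hx
    · exact le_max_right _ _
    · exact ((mem_SK N).mp (hK hx)).trans (le_max_left _ _)

instance instFiniteIdx : Finite (Idx N) := by
  by_contra hinf
  rw [not_finite_iff_infinite] at hinf
  obtain ⟨s, hs⟩ := Infinite.exists_subset_card_eq (Idx N)
    ((CongruenceSubgroup.Gamma0 N).index + 1)
  obtain ⟨K, hK⟩ := exists_subset_SK N s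
  have := (Finset.card_le_card hK).trans (card_SK_le N K)
  omega

noncomputable instance instFintypeIdx : Fintype (Idx N) := Fintype.ofFinite _

theorem exists_SK_eq_univ : ∃ K₀ : ℤ, ∀ K, K₀ ≤ K → SK N K = Finset.univ := by
  obtain ⟨K₀, hK₀⟩ := exists_subset_SK N Finset.univ
  refine ⟨K₀, fun K hK => ?_⟩
  exact Finset.eq_univ_of_forall fun p => SK_mono N hK (hK₀ (Finset.mem_univ p))

theorem card_Idx_le : Fintype.card (Idx N) ≤ (CongruenceSubgroup.Gamma0 N).index := by
  obtain ⟨K₀, hK₀⟩ := exists_SK_eq_univ N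
  rw [← Finset.card_univ, ← hK₀ K₀ le_rfl]
  exact card_SK_le N K₀

/-- the bundled generators. -/
noncomputable def gMF (p : Idx N) : MF N p.1 := (mem_Ms.mp (gfun_mem N p)).choose

theorem coe_gMF (p : Idx N) : ⇑(gMF N p) = gfun N p := (mem_Ms.mp (gfun_mem N p)).choose_spec

/-- the generators as a `GenData`. -/
noncomputable def genIdx : GenData N (Idx N) where
  wt p := p.1
  f p := gMF N p
  gen k h := by
    obtain ⟨K₀, hK₀⟩ := exists_SK_eq_univ N
    obtain ⟨a, ha, hsum⟩ := gen_K N (max k K₀) (k + 1).toNat k (le_max_left _ _) (by omega) ⇑h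
      (coe_mem_Ms h)
    choose A hA using fun p => mem_Ls.mp (ha p)
    refine ⟨A, ?_⟩
    rw [hsum, hK₀ _ (le_max_right _ _)]
    refine Finset.sum_congr rfl fun p _ => ?_
    rw [hA, coe_gMF]
  ind k a hsum := by
    obtain ⟨K₀, hK₀⟩ := exists_SK_eq_univ N
    have := ind_K N (max k K₀) (k + 1).toNat k (le_max_left _ _) (by omega) (fun p => ⇑(a p))
      (fun p => coe_mem_Ls (a p)) (by
        rw [hK₀ _ (le_max_right _ _), ← hsum]
        refine Finset.sum_congr rfl fun p _ => ?_
        rw [coe_gMF])
    intro p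
    exact DFunLike.coe_injective (this p)

end Fermat.Agent.S20
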