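import Mathlib
import Fermat.Agent.S20.GenD
import Fermat.Agent.S20.Vandermonde

set_option autoImplicit false
set_option maxHeartbeats 400000

/-!
# S20: existence of free generators indexed by the coset space
-/

namespace Fermat.Agent.S20

open UpperHalfPlane ModularForm Matrix.SpecialLinearGroup EisensteinSeries ModularFormClass Filter
open scoped MatrixGroups ModularForm Manifold Topology

variable {N : ℕ} [NeZero N]

theorem GenData.vecMul_F_injective {ι : Type} [Fintype ι] (D : GenData N ι) :
    ∃ z, ∀ w : Quo N → ℂ, Matrix.vecMul w (D.F z) = 0 → w = 0 := by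
  classical
  obtain ⟨z, hz⟩ := exists_comp_uForm_injective N
  refine ⟨z, fun w hw => ?_⟩
  have hmono : ∀ e : ℕ, ∑ q, w q * (comp (uForm N) q z) ^ e = 0 := by
    intro e
    obtain ⟨a, ha⟩ := D.gen _ ((uForm N).pow e)
    have h1 : ∀ q, (comp (uForm N) q z) ^ e = ∑ j, a j z * D.F z q j := by
      intro q
      have := congrFun (D.comp_eq_sum _ a ha q) z
      rw [comp_pow] at this
      simpa [GenData.F_apply] using this
    simp_rw [h1, Finset.mul_sum]
    rw [Finset.sum_comm]
    refine Finset.sum_eq_zero fun j _ => ?_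
    have h2 := congrFun hw j
    simp only [Matrix.vecMul, dotProduct, Pi.zero_apply] at h2
    calc ∑ q, w q * (a j z * D.F z q j) = a j z * ∑ q, w q * D.F z q j := by
          rw [Finset.mul_sum]; refine Finset.sum_congr rfl fun q _ => by ring
      _ = 0 := by rw [h2, mul_zero]
  have hpoly : ∀ p : Polynomial ℂ, ∑ q, w q * p.eval (comp (uForm N) q z) = 0 := by
    intro p
    simp_rw [Polynomial.eval_eq_sum_range, Finset.mul_sum]
    rw [Finset.sum_comm]
    refine Finset.sum_eq_zero fun e _ => ?_
    calc ∑ q, w q * (p.coeff e * comp (uForm N) q z ^ e)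
        = p.coeff e * ∑ q, w q * comp (uForm N) q z ^ e := by
          rw [Finset.mul_sum]; refine Finset.sum_congr rfl fun q _ => by ring
      _ = 0 := by rw [hmono e, mul_zero]
  funext q₀
  have h := hpoly (∏ q ∈ Finset.univ.erase q₀, (Polynomial.X - Polynomial.C (comp (uForm N) q z)))
  rw [Finset.sum_eq_single q₀] at h
  · rw [Polynomial.eval_prod] at h
    rcases mul_eq_zero.mp h with h1 | h1
    · exact h1
    · exfalso
      obtain ⟨q, hq, hq0⟩ := Finset.prod_eq_zero_iff.mp h1
      simp only [Polynomial.eval_sub, Polynomial.eval_X, Polynomial.eval_C, sub_eq_zero] at hq0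
      exact (Finset.ne_of_mem_erase hq) (hz hq0).symm
  · intro q _ hq
    rw [Polynomial.eval_prod, Finset.prod_eq_zero (i := q) (Finset.mem_erase.mpr ⟨hq, Finset.mem_univ _⟩)
      (by simp), mul_zero]
  · simp

theorem GenData.card_quo_le' {ι : Type} [Fintype ι] (D : GenData N ι) :
    Fintype.card (Quo N) ≤ Fintype.card ι := by
  obtain ⟨z, hz⟩ := D.vecMul_F_injective
  have hinj : Function.Injective (Matrix.vecMulLinear (D.F z)) := by
    rw [injective_iff_map_eq_zero]
    intro w hw
    exact hz w hw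
  have := LinearMap.finrank_le_finrank_of_injective hinj
  simpa using this

omit [NeZero N] in
theorem card_quo_eq_index' (N : ℕ) : Nat.card (Quo N) = (CongruenceSubgroup.Gamma0 N).index := by
  show ((CongruenceSubgroup.Gamma0 N : Subgroup (GL (Fin 2) ℝ)).subgroupOf 𝒮ℒ).index = _
  have h1 : (𝒮ℒ : Subgroup (GL (Fin 2) ℝ)) = (⊤ : Subgroup SL(2, ℤ)).map (mapGL ℝ) :=
    MonoidHom.range_eq_map _
  rw [h1]
  show ((CongruenceSubgroup.Gamma0 N).map (mapGL ℝ)).relIndex _ = _
  rw [Subgroup.relIndex_map_map_of_injective _ _ mapGL_injective, Subgroup.relIndex_top_right]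

omit [NeZero N] in
/-- reindexing. -/
noncomputable def GenData.reindex' {ι κ : Type} [Fintype ι] [Fintype κ] (e : ι ≃ κ)
    (D : GenData N ι) : GenData N κ where
  wt j := D.wt (e.symm j)
  f j := D.f (e.symm j)
  gen k h := by
    obtain ⟨a, ha⟩ := D.gen k h
    refine ⟨fun j => a (e.symm j), ?_⟩
    rw [ha]
    exact (Equiv.sum_comp e.symm (fun i => (⇑(a i) * ⇑(D.f i) : ℍ → ℂ))).symm
  ind k a hsum := by
    have := D.ind k (fun i => ModularForm.mcast (by simp) (a (e i))) (by
      rw [← hsum, ← Equiv.sum_comp e]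
      refine Finset.sum_congr rfl fun i _ => ?_
      rw [ModularForm.coe_mcast]
      exact congrArg (fun i' => (⇑(a (e i)) * ⇑(D.f i') : ℍ → ℂ)) (e.symm_apply_apply i).symm)
    intro j
    apply DFunLike.coe_injective
    have h1 : (⇑(a (e (e.symm j))) : ℍ → ℂ) = 0 := by
      have h0 := this (e.symm j)
      rw [ModularForm.mcast_eq_zero_iff] at h0
      rw [h0]
      rfl
    have h2 : (⇑(a (e (e.symm j))) : ℍ → ℂ) = ⇑(a j) :=
      congrArg (fun j' => (⇑(a j') : ℍ → ℂ)) (e.apply_symm_apply j)
    rw [← h2, h1]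
    rfl

theorem exists_genData (N : ℕ) [NeZero N] : Nonempty (GenData N (Quo N)) := by
  have h1 : Fintype.card (Idx N) = Fintype.card (Quo N) := by
    apply le_antisymm
    · rw [← Nat.card_eq_fintype_card (α := Quo N), card_quo_eq_index']
      exact card_Idx_le N
    · exact (genIdx N).card_quo_le'
  exact ⟨(genIdx N).reindex' (Fintype.equivOfCardEq h1)⟩

end Fermat.Agent.S20
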