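import Mathlib
import Fermat.Agent.S20.GenBasic

set_option autoImplicit false
set_option linter.unusedSectionVars false

/-!
# S20: exactly one generator has weight zero
-/

namespace Fermat.Agent.S20

open UpperHalfPlane ModularForm Matrix.SpecialLinearGroup EisensteinSeries ModularFormClass Filter
open scoped MatrixGroups ModularForm Manifold Topology Real

variable {N : ℕ} [NeZero N] {ι : Type} [Fintype ι]

theorem GenData.exists_const_of_wt_zero (D : GenData N ι) {j : ι} (hj : D.wt j = 0) :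
    ∃ c : ℂ, c ≠ 0 ∧ (⇑(D.f j) : ℍ → ℂ) = Function.const ℍ c := by
  obtain ⟨c, hc⟩ := ModularForm.eq_const_of_weight_zero (ModularForm.mcast hj (D.f j))
  have hc' : (⇑(D.f j) : ℍ → ℂ) = Function.const ℍ c := hc
  refine ⟨c, ?_, hc'⟩
  rintro rfl
  apply D.f_ne_zero j
  ext z
  rw [hc']
  simp

theorem GenData.card_wt_zero (D : GenData N ι) : Fintype.card {j // D.wt j = 0} = 1 := by
  classical
  rw [Fintype.card_eq_one_iff]
  obtain ⟨a, ha⟩ := D.gen 0 (1 : MF N 0)
  have hex : ∃ j, D.wt j = 0 := by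
    by_contra hno
    push Not at hno
    have h0 : ∀ j, a j = 0 := fun j =>
      ModularForm.isZero_of_neg_weight
        (by have h1 := D.wt_nonneg j; have h2 := hno j; omega) (a j)
    have h1 := congrFun ha I
    simp [h0] at h1
  obtain ⟨j, hj⟩ := hex
  refine ⟨⟨j, hj⟩, ?_⟩
  rintro ⟨l, hl⟩
  by_contra hne
  have hlj : l ≠ j := fun h => hne (Subtype.ext h)
  obtain ⟨cj, hcj0, hcj⟩ := D.exists_const_of_wt_zero hj
  obtain ⟨cl, hcl0, hcl⟩ := D.exists_const_of_wt_zero hl
  let coef : ι → ℂ := fun i => if i = j then cl else if i = l then -cj else 0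
  let b : (i : ι) → ModularForm 𝒮ℒ (0 - D.wt i) := fun i =>
    if h : D.wt i = 0 then
      ModularForm.mcast (by rw [h, sub_zero]) (ModularForm.const (coef i) : ModularForm 𝒮ℒ 0)
    else 0
  have hb : ∀ i, D.wt i = 0 → ∀ z, b i z = coef i := by
    intro i hi z
    simp [b, hi, ModularForm.mcast_apply]
  have hsum : (∑ i, ⇑(b i) * ⇑(D.f i) : ℍ → ℂ) = 0 := by
    funext z
    rw [Finset.sum_apply]
    have hz : ∀ i, i ≠ j → i ≠ l → (⇑(b i) * ⇑(D.f i) : ℍ → ℂ) z = 0 := by
      intro i h1 h2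
      by_cases hi : D.wt i = 0
      · rw [Pi.mul_apply, hb i hi]
        simp [coef, h1, h2]
      · simp [b, hi]
    rw [Finset.sum_eq_add j l hlj.symm (fun i _ h => hz i h.1 h.2) (by simp) (by simp)]
    rw [Pi.mul_apply, Pi.mul_apply, hb j hj, hb l hl, hcj, hcl]
    simp [coef, hlj]
    ring
  have h1 := D.ind 0 b hsum j
  have h2 := hb j hj I
  rw [h1] at h2
  simp [coef] at h2
  exact hcl0 h2.symm

end Fermat.Agent.S20
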