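import Mathlib
import Fermat.Agent.S20.Koszul

set_option autoImplicit false
set_option maxHeartbeats 400000

/-!
# S20: a nowhere vanishing level one form has weight `12 * (order at ∞)`
-/

namespace Fermat.Agent.S20

open UpperHalfPlane ModularForm Matrix.SpecialLinearGroup EisensteinSeries ModularFormClass Filter
open scoped MatrixGroups ModularForm Manifold Topology

local notation "Δ" => (ModularForm.discriminant : ℍ → ℂ)

/-- criterion for membership in `Ls`. -/
theorem mem_Ls_of {w : ℤ} {f : ℍ → ℂ} (hol : MDiff f)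
    (hinv : ∀ γ : SL(2, ℤ), f ∣[w] γ = f) (hbdd : IsBoundedAtImInfty f) : f ∈ Ls w := by
  refine ⟨{ toFun := f, slash_action_eq' := ?_, holo' := hol, bdd_at_cusps' := ?_ }, rfl⟩
  · rintro _ ⟨γ, rfl⟩
    exact hinv γ
  · intro c hc
    rw [OnePoint.isBoundedAt_iff_forall_SL2Z hc]
    intro γ _
    rw [hinv γ]
    exact hbdd

theorem disc_pow_slash (m : ℕ) (γ : SL(2, ℤ)) : (Δ ^ m) ∣[(12 * m : ℤ)] γ = Δ ^ m := by
  induction m with
  | zero =>
    simp only [pow_zero, Nat.cast_zero, mul_zero]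
    exact ModularForm.is_invariant_one γ
  | succ m ih =>
    rw [pow_succ, show (12 * ((m + 1 : ℕ) : ℤ)) = 12 * (m : ℤ) + 12 by push_cast; ring,
      mul_slash_SL2, ih, disc_slash]

theorem disc_pow_mdiff (m : ℕ) : MDiff (Δ ^ m) := by
  induction m with
  | zero =>
    rw [pow_zero]
    exact (mdifferentiable_const : MDiff (fun _ : ℍ => (1 : ℂ)))
  | succ m ih =>
    rw [pow_succ]
    exact ih.mul CuspForm.discriminant.holo'

theorem weight_eq_of_ne_zero {w : ℤ} {g : ℍ → ℂ} (hol : MDiff g)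
    (hinv : ∀ γ : SL(2, ℤ), g ∣[w] γ = g) (hne : ∀ z, g z ≠ 0) (m : ℕ)
    (hb1 : IsBoundedAtImInfty (g / Δ ^ m)) (hb2 : IsBoundedAtImInfty (Δ ^ m / g)) :
    w = 12 * m := by
  have hΔ : ∀ z, (Δ ^ m) z ≠ 0 := fun z => pow_ne_zero _ (discriminant_ne_zero z)
  have h1 : g / Δ ^ m ∈ Ls (w - 12 * m) := by
    refine mem_Ls_of (hol.div (disc_pow_mdiff m) hΔ) (fun γ => ?_) hb1
    rw [div_slash_SL2, hinv, disc_pow_slash]
  have h2 : Δ ^ m / g ∈ Ls (12 * m - w) := by
    refine mem_Ls_of ((disc_pow_mdiff m).div hol hne) (fun γ => ?_) hb2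
    rw [div_slash_SL2, hinv, disc_pow_slash]
  by_contra hw
  rcases lt_or_gt_of_ne hw with hlt | hgt
  · rw [Ls_eq_bot_of_neg (by omega)] at h1
    have := congrFun ((Submodule.mem_bot ℂ).mp h1) UpperHalfPlane.I
    simp only [Pi.div_apply, Pi.zero_apply, div_eq_zero_iff] at this
    rcases this with h | h
    · exact hne _ h
    · exact hΔ _ h
  · rw [Ls_eq_bot_of_neg (by omega)] at h2
    have := congrFun ((Submodule.mem_bot ℂ).mp h2) UpperHalfPlane.I
    simp only [Pi.div_apply, Pi.zero_apply, div_eq_zero_iff] at this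
    rcases this with h | h
    · exact hΔ _ h
    · exact hne _ h

end Fermat.Agent.S20
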