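import Mathlib
import Fermat.Agent.S20.Duality
import Fermat.Agent.S20.LvlOrder

set_option autoImplicit false
set_option maxHeartbeats 400000

/-!
# S20: the square of `det F` is a nowhere vanishing level one "form" of weight `2 ∑ wt`
-/

namespace Fermat.Agent.S20

open UpperHalfPlane ModularForm Matrix.SpecialLinearGroup EisensteinSeries ModularFormClass Filter
open scoped MatrixGroups ModularForm Manifold Topology

variable {N : ℕ} [NeZero N]

/-- `(det F)²`. -/
noncomputable def GenData.detSq (D : GenData N (Quo N)) : ℍ → ℂ := fun z => (D.F z).det ^ 2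

theorem GenData.detSq_apply (D : GenData N (Quo N)) (z : ℍ) : D.detSq z = (D.F z).det ^ 2 := rfl

theorem GenData.detSq_ne_zero (D : GenData N (Quo N)) (z : ℍ) : D.detSq z ≠ 0 :=
  pow_ne_zero _ (D.det_F_ne_zero z)

theorem GenData.detSq_mdiff (D : GenData N (Quo N)) : MDiff D.detSq := by
  have h3 : MDiff (fun z => (D.F z).det) := mdiff_det _ fun i j => comp_mdiff (D.f j) i
  have : D.detSq = (fun z => (D.F z).det) * (fun z => (D.F z).det) := by
    funext z
    simp [GenData.detSq, sq]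
  rw [this]
  exact h3.mul h3

omit [NeZero N] in
theorem prod_zpow_eq {ι : Type} {x : ℂ} (hx : x ≠ 0) (s : Finset ι) (w : ι → ℤ) :
    ∏ j ∈ s, x ^ (w j) = x ^ (∑ j ∈ s, w j) := by
  classical
  induction s using Finset.induction_on with
  | empty => simp
  | insert a s ha ih => rw [Finset.prod_insert ha, Finset.sum_insert ha, zpow_add₀ hx, ih]

theorem GenData.det_F_smul (D : GenData N (Quo N)) (γ : SL(2, ℤ)) (z : ℍ) :
    (D.F (γ • z)).det = ((Equiv.Perm.sign (MulAction.toPerm (sl γ)⁻¹ : Equiv.Perm (Quo N)) : ℤ) : ℂ)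
      * (D.F z).det * denom γ z ^ (∑ j, D.wt j) := by
  have h1 : D.F (γ • z) = ((D.F z).submatrix (MulAction.toPerm (sl γ)⁻¹ : Equiv.Perm (Quo N)) id) *
      Matrix.diagonal (fun j => denom γ z ^ (D.wt j)) := by
    ext q j
    rw [Matrix.mul_diagonal, D.F_smul, mul_comm]
    rfl
  rw [h1, Matrix.det_mul, Matrix.det_permute, Matrix.det_diagonal, prod_zpow_eq (denom_ne_zero γ z)]

theorem GenData.detSq_smul (D : GenData N (Quo N)) (γ : SL(2, ℤ)) (z : ℍ) :
    D.detSq (γ • z) = denom γ z ^ (2 * ∑ j, D.wt j) * D.detSq z := by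
  rw [GenData.detSq_apply, D.det_F_smul, GenData.detSq_apply, mul_pow, mul_pow]
  have hs : (((Equiv.Perm.sign (MulAction.toPerm (sl γ)⁻¹ : Equiv.Perm (Quo N)) : ℤ) : ℂ)) ^ 2 = 1 := by
    rcases Int.units_eq_one_or (Equiv.Perm.sign (MulAction.toPerm (sl γ)⁻¹ : Equiv.Perm (Quo N)))
      with h | h <;> simp [h]
  rw [hs, one_mul, mul_comm, two_mul, zpow_add₀ (denom_ne_zero γ z), sq]

theorem GenData.detSq_slash (D : GenData N (Quo N)) (γ : SL(2, ℤ)) :
    D.detSq ∣[2 * ∑ j, D.wt j] γ = D.detSq := by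
  ext z
  rw [ModularForm.SL_slash_apply, D.detSq_smul, mul_comm, ← mul_assoc,
    ← zpow_add₀ (denom_ne_zero γ z)]
  simp

/-- the weight formula, given the behaviour at infinity. -/
theorem GenData.two_mul_sum_wt (D : GenData N (Quo N)) (m : ℕ)
    (hb1 : IsBoundedAtImInfty (D.detSq / (ModularForm.discriminant : ℍ → ℂ) ^ m))
    (hb2 : IsBoundedAtImInfty ((ModularForm.discriminant : ℍ → ℂ) ^ m / D.detSq)) :
    2 * ∑ j, D.wt j = 12 * m :=
  weight_eq_of_ne_zero D.detSq_mdiff D.detSq_slash D.detSq_ne_zero m hb1 hb2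

end Fermat.Agent.S20
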