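import Mathlib
import Fermat.Agent.S20.GenDefs

set_option autoImplicit false

namespace Fermat.Agent.S20

open UpperHalfPlane ModularForm Matrix.SpecialLinearGroup EisensteinSeries ModularFormClass Filter
open scoped MatrixGroups ModularForm Manifold Topology Real

variable {N : ℕ} [NeZero N] {k : ℤ}

-- C1 Gen.lean
theorem exists_genData (N : ℕ) [NeZero N] : Nonempty (GenData N (Quo N)) := sorry

-- C1b Vandermonde.lean
theorem GenData.exists_det_ne_zero (D : GenData N (Quo N)) : ∃ z, (D.F z).det ≠ 0 := sorry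

-- C2 Serre.lean
theorem exists_serreMF (f : MF N k) : ∃ g : MF N (k + 2),
    ⇑g = Derivative.serreDerivative k ⇑f ∧
    ∀ q : Quo N, comp g q = Derivative.serreDerivative k (comp f q) := sorry

-- C4 ODE.lean
theorem eq_zero_of_linear_ode {ι : Type} [Fintype ι] (y : ι → ℍ → ℂ) (B : ι → ι → ℍ → ℂ)
    (hy : ∀ j, MDiff (y j)) (hB : ∀ l j, MDiff (B l j))
    (hode : ∀ j, Derivative.normalizedDerivOfComplex (y j) = ∑ l, y l * B l j)
    (z₀ : ℍ) (h0 : ∀ j, y j z₀ = 0) : ∀ j, y j = 0 := sorry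

-- C3 Nonvanishing.lean
theorem GenData.det_F_ne_zero (D : GenData N (Quo N)) (z : ℍ) : (D.F z).det ≠ 0 := sorry

-- C5 Exponents.lean
theorem exists_eigenbasis {ι : Type} [Fintype ι] [DecidableEq ι] (τ : Equiv.Perm ι) (n : ℕ)
    (hn : 0 < n) (hτ : τ ^ n = 1) :
    ∃ (W : Matrix ι ι ℂ) (a : ι → ℕ), W.det ≠ 0 ∧ (∀ i, a i < n) ∧
      (∀ i q, W i (τ q) = Complex.exp (2 * π * Complex.I * a i / n) * W i q) ∧
      2 * ∑ i, (a i : ℤ) = n * ((Fintype.card ι : ℤ) -
        Nat.card (MulAction.orbitRel.Quotient (Subgroup.zpowers τ) ι)) := sorry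

-- C6 Cusp.lean
theorem GenData.sum_wt (D : GenData N (Quo N)) :
    ∑ j, D.wt j = 6 * ((Nat.card (Quo N) : ℤ) -
      Nat.card (MulAction.orbitRel.Quotient (Subgroup.zpowers (sl ModularGroup.T)) (Quo N))) := sorry

theorem GenData.tendsto_discriminant_mul_inv (D : GenData N (Quo N)) (l q : Quo N) :
    Tendsto (fun z : ℍ => ModularForm.discriminant z * (D.F z)⁻¹ l q) atImInfty (𝓝 0) := sorry

-- C7 Traces.lean
theorem GenData.sum_I_zpow (D : GenData N (Quo N)) :
    ∑ j, (Complex.I : ℂ) ^ (- D.wt j) =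
      (Nat.card {q : Quo N // sl ModularGroup.S • q = q} : ℂ) := sorry

theorem GenData.sum_exp_zpow (D : GenData N (Quo N)) :
    ∑ j, (Complex.exp (π * Complex.I / 3)) ^ (- D.wt j) =
      (Nat.card {q : Quo N // sl (ModularGroup.S * ModularGroup.T) • q = q} : ℂ) := sorry

-- C8 Duality.lean
theorem GenData.wt_nonneg (D : GenData N (Quo N)) (j : Quo N) : 0 ≤ D.wt j := sorry
theorem GenData.wt_even (D : GenData N (Quo N)) (j : Quo N) : Even (D.wt j) := sorry
theorem GenData.wt_le (D : GenData N (Quo N)) (j : Quo N) : D.wt j ≤ 10 := sorry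
theorem GenData.card_wt_zero (D : GenData N (Quo N)) : Fintype.card {j // D.wt j = 0} = 1 := sorry
theorem GenData.finrank_cuspForm_two (D : GenData N (Quo N)) :
    Module.finrank ℂ (CuspForm (CongruenceSubgroup.Gamma0 N) 2) =
      Fintype.card {j // D.wt j = 10} := sorry

end Fermat.Agent.S20
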