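import Mathlib
import Fermat.Agent.S20.Defs

set_option autoImplicit false

/-!
# S20, L2: injectivity of `(E₄ : E₆)` on `SL₂(ℤ) \ ℍ` via the Weierstrass `℘` function
-/

namespace Fermat.Agent.S20

open PeriodPair Filter Topology
open UpperHalfPlane ModularForm Matrix.SpecialLinearGroup EisensteinSeries ModularFormClass
open scoped MatrixGroups ModularForm Manifold

/-- two analytic germs related by `z D' a = D b` with `a 0 = -4`, `b 0 = 12` : `D` vanishes. -/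
theorem jinj_germ_eq_zero (D a b : ℂ → ℂ) (hD : AnalyticAt ℂ D 0) (ha : ContinuousAt a 0)
    (hb : ContinuousAt b 0) (ha0 : a 0 = -4) (hb0 : b 0 = 12)
    (h : ∀ᶠ z in 𝓝[≠] (0 : ℂ), z * deriv D z * a z = D z * b z) : ∀ᶠ z in 𝓝 (0 : ℂ), D z = 0 := by
  by_contra hcon
  obtain ⟨n, u, hu, hu0, hDu⟩ := (hD.exists_eventuallyEq_pow_smul_nonzero_iff).mpr hcon
  have hDu' : D =ᶠ[𝓝 0] fun z => (z - 0) ^ n • u z := hDu
  have hder : ∀ᶠ z in 𝓝 (0 : ℂ), z * deriv D z = z ^ n * (n * u z + z * deriv u z) := by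
    filter_upwards [hDu'.deriv, hu.eventually_analyticAt] with z hz huz
    rw [hz]
    have h1 : deriv (fun z => (z - 0) ^ n • u z) z = n * z ^ (n - 1) * u z + z ^ n * deriv u z := by
      have h2 : (fun z => (z - 0) ^ n • u z) = fun z => z ^ n * u z := by
        funext w; simp
      rw [h2, deriv_fun_mul (by fun_prop) huz.differentiableAt]
      simp
    rw [h1]
    cases n with
    | zero => simp
    | succ m =>
      simp only [Nat.add_sub_cancel]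
      ring
  have hkey : ∀ᶠ z in 𝓝[≠] (0 : ℂ), (n * u z + z * deriv u z) * a z = u z * b z := by
    filter_upwards [h, hder.filter_mono nhdsWithin_le_nhds, hDu.filter_mono nhdsWithin_le_nhds,
      self_mem_nhdsWithin] with z h1 h2 h3 (h4 : z ≠ 0)
    rw [h2, h3] at h1
    have h5 : z ^ n ≠ 0 := pow_ne_zero _ h4
    apply mul_left_cancel₀ h5
    simp only [sub_zero, smul_eq_mul] at h1
    linear_combination h1
  have hc1 : ContinuousAt (fun z => (n * u z + z * deriv u z) * a z) 0 := by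
    have := hu.continuousAt
    have := hu.deriv.continuousAt
    fun_prop
  have hc2 : ContinuousAt (fun z => u z * b z) 0 := by
    have := hu.continuousAt
    fun_prop
  have h0 := tendsto_nhds_unique_of_eventuallyEq (hc1.tendsto.mono_left nhdsWithin_le_nhds)
    (hc2.tendsto.mono_left nhdsWithin_le_nhds) hkey
  simp only [zero_mul, add_zero, ha0, hb0] at h0
  have h1 : ((n + 3 : ℕ) : ℂ) = 0 := by
    have : ((n : ℂ) + 3) * u 0 = 0 := by linear_combination (-1 / 4 : ℂ) * h0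
    rcases mul_eq_zero.mp this with h | h
    · push_cast; exact h
    · exact absurd h hu0
  exact absurd (Nat.cast_eq_zero.mp h1) (by omega)

theorem jinj_ode (L : PeriodPair) (z : ℂ) (hz0 : z ≠ 0) (hz : z ∉ L.lattice) :
    (z ^ 3 * ℘'[L - (0 : ℂ)] z - 2) ^ 2 = 4 * (z ^ 2 * ℘[L - (0 : ℂ)] z + 1) ^ 3 -
      L.g₂ * (z ^ 6 * ℘[L - (0 : ℂ)] z + z ^ 4) - L.g₃ * z ^ 6 := by
  have o1 := L.derivWeierstrassP_sq z hz
  have e1 := L.weierstrassPExcept_add (0 : L.lattice) z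
  have e2 := L.derivWeierstrassPExcept_sub (0 : L.lattice) z
  simp only [ZeroMemClass.coe_zero, sub_zero, ne_eq, OfNat.ofNat_ne_zero, not_false_eq_true,
    zero_pow, div_zero] at e1 e2
  rw [← e1, ← e2] at o1
  have h1 : (z ^ 3 * ℘'[L - (0 : ℂ)] z - 2) ^ 2 = z ^ 6 * (℘'[L - (0 : ℂ)] z - 2 / z ^ 3) ^ 2 := by
    field_simp
  have h2 : (z ^ 2 * ℘[L - (0 : ℂ)] z + 1) ^ 3 = z ^ 6 * (℘[L - (0 : ℂ)] z + 1 / z ^ 2) ^ 3 := by
    field_simp
  have h3 : z ^ 6 * ℘[L - (0 : ℂ)] z + z ^ 4 = z ^ 6 * (℘[L - (0 : ℂ)] z + 1 / z ^ 2) := by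
    field_simp
  rw [h1, h2, h3, o1]
  ring

theorem jinj_wp_eventuallyEq (L L' : PeriodPair) (h2 : L.g₂ = L'.g₂) (h3 : L.g₃ = L'.g₃) :
    ∀ᶠ z in 𝓝[≠] (0 : ℂ), ℘[L] z = ℘[L'] z := by
  have hF := L.analyticAt_weierstrassPExcept 0
  have hH := L'.analyticAt_weierstrassPExcept 0
  have hF' := L.analyticAt_derivWeierstrassPExcept 0
  have hH' := L'.analyticAt_derivWeierstrassPExcept 0
  have hn := L.compl_lattice_sdiff_singleton_mem_nhds 0
  have hn' := L'.compl_lattice_sdiff_singleton_mem_nhds 0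
  have key := jinj_germ_eq_zero (fun z => ℘[L - (0 : ℂ)] z - ℘[L' - (0 : ℂ)] z)
    (fun z => z ^ 3 * (℘'[L - (0 : ℂ)] z + ℘'[L' - (0 : ℂ)] z) - 4)
    (fun z => 4 * ((z ^ 2 * ℘[L - (0 : ℂ)] z + 1) ^ 2 +
      (z ^ 2 * ℘[L - (0 : ℂ)] z + 1) * (z ^ 2 * ℘[L' - (0 : ℂ)] z + 1) +
      (z ^ 2 * ℘[L' - (0 : ℂ)] z + 1) ^ 2) - L.g₂ * z ^ 4)
    (hF.sub hH)
    (by have := hF'.continuousAt; have := hH'.continuousAt; fun_prop)
    (by have := hF.continuousAt; have := hH.continuousAt; fun_prop)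
    (by simp) (by simp; norm_num) ?_
  · filter_upwards [key.filter_mono nhdsWithin_le_nhds] with z hz
    have e1 := L.weierstrassPExcept_add (0 : L.lattice) z
    have e2 := L'.weierstrassPExcept_add (0 : L'.lattice) z
    simp only [ZeroMemClass.coe_zero] at e1 e2
    rw [← e1, ← e2, sub_eq_zero.mp hz]
  · filter_upwards [mem_nhdsWithin_of_mem_nhds hn, mem_nhdsWithin_of_mem_nhds hn',
      self_mem_nhdsWithin, hF.eventually_analyticAt.filter_mono nhdsWithin_le_nhds,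
      hH.eventually_analyticAt.filter_mono nhdsWithin_le_nhds] with z k1 k2 (k3 : z ≠ 0) k4 k5
    have hz : z ∉ L.lattice := fun hmem => k1 ⟨hmem, k3⟩
    have hz' : z ∉ L'.lattice := fun hmem => k2 ⟨hmem, k3⟩
    have d1 : deriv (fun z => ℘[L - (0 : ℂ)] z - ℘[L' - (0 : ℂ)] z) z =
        ℘'[L - (0 : ℂ)] z - ℘'[L' - (0 : ℂ)] z := by
      rw [deriv_fun_sub k4.differentiableAt k5.differentiableAt,
        L.eqOn_deriv_weierstrassPExcept_derivWeierstrassPExcept 0 k1,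
        L'.eqOn_deriv_weierstrassPExcept_derivWeierstrassPExcept 0 k2]
    rw [d1]
    have o1 := jinj_ode L z k3 hz
    have o2 := jinj_ode L' z k3 hz'
    rw [← h2, ← h3] at o2
    apply mul_left_cancel₀ (pow_ne_zero 2 k3)
    linear_combination o1 - o2

theorem jinj_countable (L : PeriodPair) : (L.lattice : Set ℂ).Countable := by
  have : Countable L.lattice := L.latticeEquivProd.injective.countable
  exact Set.to_countable _

theorem jinj_lattice_le (L L' : PeriodPair) (h : ∀ᶠ z in 𝓝[≠] (0 : ℂ), ℘[L] z = ℘[L'] z) :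
    L.lattice ≤ L'.lattice := by
  set U : Set ℂ := ((L.lattice : Set ℂ) ∪ (L'.lattice : Set ℂ))ᶜ with hU
  have hconn : IsPreconnected U := by
    refine (Set.Countable.isPathConnected_compl_of_one_lt_rank ?_
      ((jinj_countable L).union (jinj_countable L'))).isConnected.isPreconnected
    rw [Complex.rank_real_complex]
    norm_num
  have hA : AnalyticOnNhd ℂ ℘[L] U := L.analyticOnNhd_weierstrassP.mono (by
    intro z hz hmem; exact hz (Or.inl hmem))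
  have hA' : AnalyticOnNhd ℂ ℘[L'] U := L'.analyticOnNhd_weierstrassP.mono (by
    intro z hz hmem; exact hz (Or.inr hmem))
  have hn := L.compl_lattice_sdiff_singleton_mem_nhds 0
  have hn' := L'.compl_lattice_sdiff_singleton_mem_nhds 0
  have h1' : ∀ᶠ y in 𝓝[≠] (0 : ℂ), ∀ᶠ x in 𝓝 y, ℘[L] x = ℘[L'] x := by
    have := eventually_eventually_nhdsWithin.mpr h
    filter_upwards [this, self_mem_nhdsWithin] with y hy (hy0 : y ≠ 0)
    have h2 : 𝓝[({0} : Set ℂ)ᶜ] y = 𝓝 y := isOpen_compl_singleton.nhdsWithin_eq hy0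
    rwa [h2] at hy
  have q1 : ∀ᶠ y in 𝓝[≠] (0 : ℂ), y ∈ ((L.lattice : Set ℂ) \ {0})ᶜ := mem_nhdsWithin_of_mem_nhds hn
  have q2 : ∀ᶠ y in 𝓝[≠] (0 : ℂ), y ∈ ((L'.lattice : Set ℂ) \ {0})ᶜ :=
    mem_nhdsWithin_of_mem_nhds hn'
  have q3 : ∀ᶠ y in 𝓝[≠] (0 : ℂ), y ≠ 0 := self_mem_nhdsWithin
  obtain ⟨z₀, hz₀, k1, k2, k3⟩ := (h1'.and (q1.and (q2.and q3))).exists
  have hz₀U : z₀ ∈ U := by
    rintro (hm | hm)
    · exact k1 ⟨hm, k3⟩
    · exact k2 ⟨hm, k3⟩
  have hEq : Set.EqOn ℘[L] ℘[L'] U := hA.eqOn_of_preconnected_of_eventuallyEq hA' hconn hz₀U hz₀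
  intro l hl
  by_contra hl'
  have e1 : ∀ᶠ z in 𝓝[≠] l, ℘[L] z = ℘[L'] z := by
    filter_upwards [mem_nhdsWithin_of_mem_nhds (L.compl_lattice_sdiff_singleton_mem_nhds l),
      mem_nhdsWithin_of_mem_nhds (L'.isClosed_lattice.isOpen_compl.mem_nhds hl'),
      self_mem_nhdsWithin] with z m1 m2 (m3 : z ≠ l)
    apply hEq
    rintro (hm | hm)
    · exact m1 ⟨hm, m3⟩
    · exact m2 hm
  have e2 := meromorphicOrderAt_congr e1
  rw [L.order_weierstrassP l hl] at e2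
  have e3 := (L'.analyticOnNhd_weierstrassP l hl').meromorphicOrderAt_nonneg
  rw [← e2] at e3
  exact absurd e3 (by decide)

/-- the period pair `(μ z, μ)` -/
noncomputable def jinjPair (μ : ℂ) (hμ : μ ≠ 0) (z : ℍ) : PeriodPair where
  ω₁ := μ * z
  ω₂ := μ
  indep := by
    rw [LinearIndependent.pair_iff]
    intro s t h
    have h1 : μ * ((s : ℂ) * z + t) = 0 := by
      simp only [Complex.real_smul] at h
      linear_combination h
    have h2 : (s : ℂ) * z + t = 0 := (mul_eq_zero.mp h1).resolve_left hμ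
    have h3 := congrArg Complex.im h2
    simp only [Complex.add_im, Complex.mul_im, Complex.ofReal_re, Complex.ofReal_im, zero_mul,
      add_zero, Complex.zero_im, UpperHalfPlane.coe_im] at h3
    have hs : s = 0 := (mul_eq_zero.mp h3).resolve_right z.im_pos.ne'
    refine ⟨hs, ?_⟩
    rw [hs] at h2
    simpa using h2

theorem jinj_G (μ : ℂ) (hμ : μ ≠ 0) (z : ℍ) {k : ℕ} (hk : 3 ≤ k) :
    (jinjPair μ hμ z).G k = (μ ^ k)⁻¹ * (2 * riemannZeta k * E hk z) := by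
  have h1 := tsum_eisSummand_eq_riemannZeta_mul_eisensteinSeries hk z
  have h2 : E hk z = (1 / 2 : ℂ) * eisensteinSeries (N := 1) 0 k z := rfl
  have h3 : (2 * riemannZeta k * E hk z) = ∑' v : Fin 2 → ℤ, eisSummand k v z := by
    rw [h1, h2]; ring
  rw [h3, PeriodPair.G, ← (jinjPair μ hμ z).latticeEquivProd.symm.toEquiv.tsum_eq,
    ← (finTwoArrowEquiv ℤ).symm.tsum_eq, ← tsum_mul_left]
  refine tsum_congr fun x => ?_
  have h4 : (((jinjPair μ hμ z).latticeEquivProd.symm.toEquiv x : (jinjPair μ hμ z).lattice) : ℂ) =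
      x.1 * (μ * z) + x.2 * μ := (jinjPair μ hμ z).latticeEquiv_symm_apply x
  rw [h4]
  simp only [eisSummand, finTwoArrowEquiv_symm_apply, Matrix.cons_val_zero, Matrix.cons_val_one,
    zpow_neg, zpow_natCast]
  rw [← mul_inv, ← mul_pow]
  congr 2
  ring

theorem jinj_exists_smul (ν : ℂ) (hν : ν ≠ 0) (z₀ z₁ : ℍ)
    (h : (jinjPair 1 one_ne_zero z₁).lattice = (jinjPair ν hν z₀).lattice) :
    ∃ γ : SL(2, ℤ), z₁ = γ • z₀ := by
  have m1 : (1 : ℂ) * z₁ ∈ (jinjPair ν hν z₀).lattice := h ▸ (jinjPair 1 one_ne_zero z₁).ω₁_mem_lattice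
  have m2 : (1 : ℂ) ∈ (jinjPair ν hν z₀).lattice := h ▸ (jinjPair 1 one_ne_zero z₁).ω₂_mem_lattice
  have m3 : ν * z₀ ∈ (jinjPair 1 one_ne_zero z₁).lattice := h ▸ (jinjPair ν hν z₀).ω₁_mem_lattice
  have m4 : ν ∈ (jinjPair 1 one_ne_zero z₁).lattice := h ▸ (jinjPair ν hν z₀).ω₂_mem_lattice
  obtain ⟨a, b, hab⟩ := mem_lattice.mp m1
  obtain ⟨c, d, hcd⟩ := mem_lattice.mp m2
  obtain ⟨a', b', hab'⟩ := mem_lattice.mp m3
  obtain ⟨c', d', hcd'⟩ := mem_lattice.mp m4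
  have hab : (a : ℂ) * (ν * z₀) + b * ν = z₁ := by rw [← one_mul (z₁ : ℂ)]; exact hab
  have hcd : (c : ℂ) * (ν * z₀) + d * ν = 1 := hcd
  have hab' : (a' : ℂ) * (1 * z₁) + b' * 1 = ν * z₀ := hab'
  have hcd' : (c' : ℂ) * (1 * z₁) + d' * 1 = ν := hcd'
  have hind := LinearIndependent.pair_iff.mp (jinjPair ν hν z₀).indep
  -- M' M = 1
  have e1 := hind ((a' * a + b' * c - 1 : ℤ) : ℝ) ((a' * b + b' * d : ℤ) : ℝ) (by
    show (((a' * a + b' * c - 1 : ℤ) : ℝ)) • (ν * (z₀ : ℂ)) + (((a' * b + b' * d : ℤ) : ℝ)) • ν = 0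
    simp only [Complex.real_smul]
    push_cast
    linear_combination (a' : ℂ) * hab + (b' : ℂ) * hcd + hab')
  have e2 := hind ((c' * a + d' * c : ℤ) : ℝ) ((c' * b + d' * d - 1 : ℤ) : ℝ) (by
    show (((c' * a + d' * c : ℤ) : ℝ)) • (ν * (z₀ : ℂ)) + (((c' * b + d' * d - 1 : ℤ) : ℝ)) • ν = 0
    simp only [Complex.real_smul]
    push_cast
    linear_combination (c' : ℂ) * hab + (d' : ℂ) * hcd + hcd')
  have f1 : a' * a + b' * c - 1 = 0 := by exact_mod_cast e1.1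
  have f2 : a' * b + b' * d = 0 := by exact_mod_cast e1.2
  have f3 : c' * a + d' * c = 0 := by exact_mod_cast e2.1
  have f4 : c' * b + d' * d - 1 = 0 := by exact_mod_cast e2.2
  have hdet : (a' * d' - b' * c') * (a * d - b * c) = 1 := by
    linear_combination (d' * d + c' * b) * f1 - (c' * a + d' * c) * f2 + f4
  have hw : (c : ℂ) * z₀ + d ≠ 0 := by
    intro h0
    have : (1 : ℂ) = 0 := by rw [← hcd]; linear_combination ν * h0
    exact one_ne_zero this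
  have hz : (z₁ : ℂ) * ((c : ℂ) * z₀ + d) = a * z₀ + b := by
    have h5 : ν * ((c : ℂ) * z₀ + d) = 1 := by linear_combination hcd
    have h6 : (z₁ : ℂ) = ν * ((a : ℂ) * z₀ + b) := by linear_combination -hab
    rw [h6]
    linear_combination ((a : ℂ) * z₀ + b) * h5
  have hre := congrArg Complex.re hz
  have him := congrArg Complex.im hz
  simp only [Complex.mul_re, Complex.mul_im, Complex.add_re, Complex.add_im, Complex.intCast_re,
    Complex.intCast_im, zero_mul, sub_zero, add_zero, UpperHalfPlane.coe_re,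
    UpperHalfPlane.coe_im] at hre him
  have hpos : 0 < ((c : ℝ) * z₀.re + d) ^ 2 + ((c : ℝ) * z₀.im) ^ 2 := by
    by_contra hneg
    have h7 : ((c : ℝ) * z₀.re + d) ^ 2 + ((c : ℝ) * z₀.im) ^ 2 = 0 :=
      le_antisymm (not_lt.mp hneg) (by positivity)
    have h8 : (c : ℝ) * z₀.re + d = 0 := by nlinarith [sq_nonneg ((c : ℝ) * z₀.re + d), sq_nonneg ((c : ℝ) * z₀.im)]
    have h9 : (c : ℝ) * z₀.im = 0 := by nlinarith [sq_nonneg ((c : ℝ) * z₀.re + d), sq_nonneg ((c : ℝ) * z₀.im)]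
    apply hw
    apply Complex.ext
    · simpa using h8
    · simpa using h9
  have hkey : ((a * d - b * c : ℤ) : ℝ) * z₀.im =
      z₁.im * (((c : ℝ) * z₀.re + d) ^ 2 + ((c : ℝ) * z₀.im) ^ 2) := by
    push_cast
    linear_combination ((c : ℝ) * z₀.im) * hre - ((c : ℝ) * z₀.re + d) * him
  have hdpos : 0 < a * d - b * c := by
    have h10 : 0 < ((a * d - b * c : ℤ) : ℝ) * z₀.im := by
      rw [hkey]; exact mul_pos z₁.im_pos hpos
    have h11 : 0 < ((a * d - b * c : ℤ) : ℝ) := (pos_iff_pos_of_mul_pos h10).mpr z₀.im_pos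
    exact_mod_cast h11
  have hdet1 : a * d - b * c = 1 := by
    have := Int.eq_one_or_neg_one_of_mul_eq_one' hdet
    omega
  let γ : SL(2, ℤ) := ⟨!![a, b; c, d], by rw [Matrix.det_fin_two_of]; exact hdet1⟩
  refine ⟨γ, ?_⟩
  apply UpperHalfPlane.ext
  rw [coe_specialLinearGroup_apply]
  have g00 : γ 0 0 = a := rfl
  have g01 : γ 0 1 = b := rfl
  have g10 : γ 1 0 = c := rfl
  have g11 : γ 1 1 = d := rfl
  rw [g00, g01, g10, g11]
  simp only [algebraMap_int_eq, eq_intCast, Complex.ofReal_intCast]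
  rw [eq_div_iff hw]
  exact hz

theorem exists_smul_eq_of_E4_E6 (z₀ z₁ : ℍ) (lam : ℂ) (hlam : lam ≠ 0)
    (h4 : E₄ z₁ = lam ^ 4 * E₄ z₀) (h6 : E₆ z₁ = lam ^ 6 * E₆ z₀) :
    ∃ γ : SL(2, ℤ), z₁ = γ • z₀ := by
  have hν : lam⁻¹ ≠ 0 := inv_ne_zero hlam
  have hG4 : (jinjPair 1 one_ne_zero z₁).G 4 = (jinjPair lam⁻¹ hν z₀).G 4 := by
    rw [jinj_G 1 one_ne_zero z₁ (by norm_num : 3 ≤ 4), jinj_G lam⁻¹ hν z₀ (by norm_num : 3 ≤ 4)]
    have : E (by norm_num : 3 ≤ 4) z₁ = lam ^ 4 * E (by norm_num : 3 ≤ 4) z₀ := h4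
    rw [this, inv_pow, inv_inv]
    ring
  have hG6 : (jinjPair 1 one_ne_zero z₁).G 6 = (jinjPair lam⁻¹ hν z₀).G 6 := by
    rw [jinj_G 1 one_ne_zero z₁ (by norm_num : 3 ≤ 6), jinj_G lam⁻¹ hν z₀ (by norm_num : 3 ≤ 6)]
    have : E (by norm_num : 3 ≤ 6) z₁ = lam ^ 6 * E (by norm_num : 3 ≤ 6) z₀ := h6
    rw [this, inv_pow, inv_inv]
    ring
  have hg2 : (jinjPair 1 one_ne_zero z₁).g₂ = (jinjPair lam⁻¹ hν z₀).g₂ := by
    rw [PeriodPair.g₂, PeriodPair.g₂, hG4]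
  have hg3 : (jinjPair 1 one_ne_zero z₁).g₃ = (jinjPair lam⁻¹ hν z₀).g₃ := by
    rw [PeriodPair.g₃, PeriodPair.g₃, hG6]
  have hev := jinj_wp_eventuallyEq _ _ hg2 hg3
  refine jinj_exists_smul lam⁻¹ hν z₀ z₁ (le_antisymm (jinj_lattice_le _ _ hev) ?_)
  exact jinj_lattice_le _ _ (hev.mono fun z hz => hz.symm)

end Fermat.Agent.S20
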